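/-
S20 (dimension formula for `S₂(Γ₀(N))`), shared definitions (helper1).
Route: findings row `S20 / route`, docs row `S20_plan`.
-/
import Mathlib
import Fermat.Agent.Lib.S23.Sym
import Fermat.Prelude.Def_ModularCurve_GenusNumerics

set_option autoImplicit false

namespace Fermat.Agent.S20Lib

open UpperHalfPlane ModularForm CongruenceSubgroup MatrixGroups Filter Matrix.SpecialLinearGroup
open SlashInvariantForm EisensteinSeries
open scoped Manifold Topology
open Fermat.Agent.LibS23

section defs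

variable (N : ℕ) [NeZero N]

noncomputable instance instDecEqQ : DecidableEq (Q N) := Classical.decEq _

/-- dimension of `M_k(Γ₀(N))` (`0` if infinite-dimensional, which never happens). -/
noncomputable def mdim (k : ℤ) : ℕ := Module.finrank ℂ (ModularForm (Gamma0 N) k)

/-- dimension of `S_k(Γ₀(N))`. -/
noncomputable def sdim (k : ℤ) : ℕ := Module.finrank ℂ (CuspForm (Gamma0 N) k)

/-- the `N`-th root of unity `e(-1/N)`. -/
noncomputable def zetaInv : ℂ := Complex.exp (-(2 * Real.pi * Complex.I) / N)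

variable {N}

/-- the trace pairing `Tr(f g) = ∑_q f_q g_q` (a level-one form of weight `k + l`). -/
noncomputable def trP {k l : ℤ} (f : ModularForm (Gamma0 N) k) (g : ModularForm (Gamma0 N) l) :
    ℍ → ℂ :=
  ∑ q : Q N, quotientFunc f q * quotientFunc g q

/-- the coefficient of `q_N ^ n` (`q_N = e(z / N)`) of the conjugate `f_q`. -/
noncomputable def acoef {k : ℤ} (f : ModularForm (Gamma0 N) k) (q : Q N) (n : ℕ) : ℂ :=
  (qExpansion N (quotientFunc f q)).coeff n

theorem trP_isLO {k l : ℤ} (f : ModularForm (Gamma0 N) k) (g : ModularForm (Gamma0 N) l) :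
    IsLO (k + l) (trP f g) :=
  ((fam_quotientFunc f).mul (fam_quotientFunc g)).trace

end defs

/-- dimension of the level-one space `M_k(SL₂(ℤ))`. -/
noncomputable def pdim (k : ℤ) : ℕ := Module.finrank ℂ (ModularForm 𝒮ℒ k)

/-- the "irreducible" level-one forms `E₄`, `E₆`, `E₄³ - λ Δ` (`λ ≠ 0, 1728`), with their
weights. -/
inductive Irr : ℤ → (ℍ → ℂ) → Prop
  | E4 : Irr 4 (⇑E₄)
  | E6 : Irr 6 (⇑E₆)
  | F (lam : ℂ) (h0 : lam ≠ 0) (h1 : lam ≠ 1728) :
      Irr 12 ((⇑E₄ : ℍ → ℂ) ^ 3 - lam • (ModularForm.discriminant : ℍ → ℂ))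

/-- the elements `S`, `T` and `U = S T` of `𝒮ℒ` acting on the coset space `Q N`. -/
noncomputable def sS : ↥(𝒮ℒ) := toSL ModularGroup.S
noncomputable def sT : ↥(𝒮ℒ) := toSL ModularGroup.T
noncomputable def sU : ↥(𝒮ℒ) := toSL (ModularGroup.S * ModularGroup.T)

end Fermat.Agent.S20Lib
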