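/-
S20, chunk B (helper9): `q_N`-expansions of the conjugates `f_q = quotientFunc f q` of a modular
form `f` for `Γ₀(N)`, behaviour under `T`, cusp forms via constant terms, divisibility by `Δ ^ m`,
and the `q`-coefficients of the trace pairing.
-/
import Fermat.Agent.Lib.S20.Defs

set_option autoImplicit false

namespace Fermat.Agent.S20Lib

open UpperHalfPlane ModularForm CongruenceSubgroup MatrixGroups Filter Matrix.SpecialLinearGroup
open SlashInvariantForm EisensteinSeries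
open scoped Manifold Topology
open Fermat.Agent.LibS23

section B
variable {N : ℕ} [NeZero N]

/-! ### The coset space and powers of `T` -/

theorem cusp_toSL_mul (a b : SL(2, ℤ)) : toSL (a * b) = toSL a * toSL b := by
  apply Subtype.ext
  simp [toSL]

theorem cusp_toSL_inv (a : SL(2, ℤ)) : toSL a⁻¹ = (toSL a)⁻¹ := by
  apply Subtype.ext
  simp [toSL]

theorem cusp_toSL_zpow (a : SL(2, ℤ)) (n : ℤ) : toSL (a ^ n) = toSL a ^ n := by
  apply Subtype.ext
  simp [toSL]

theorem cusp_toSL_surj (h : ↥(𝒮ℒ)) : ∃ γ : SL(2, ℤ), toSL γ = h := by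
  obtain ⟨_, ⟨γ, rfl⟩⟩ := h
  exact ⟨γ, rfl⟩

/-- two cosets agree iff the representatives differ by an element of `Γ₀(N)` -/
theorem cusp_mk_eq_mk_iff (a b : SL(2, ℤ)) :
    ((toSL a : ↥(𝒮ℒ)) : Q N) = ((toSL b : ↥(𝒮ℒ)) : Q N) ↔ a⁻¹ * b ∈ Gamma0 N := by
  rw [QuotientGroup.eq, Subgroup.mem_subgroupOf]
  constructor
  · rintro ⟨γ, hγ, h⟩
    have : γ = a⁻¹ * b := by
      apply Matrix.SpecialLinearGroup.mapGL_injective (R := ℤ) (S := ℝ)
      rw [h]
      simp [toSL]
    rwa [← this]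
  · intro h
    exact ⟨a⁻¹ * b, h, by simp [toSL]⟩

/-- `T ^ N` acts trivially on the coset space -/
theorem cusp_sT_zpow_smul (q : Q N) (j : ℤ) : (sT ^ ((N : ℤ) * j)) • q = q := by
  induction q using Quotient.inductionOn with
  | h r =>
  obtain ⟨γ, rfl⟩ := cusp_toSL_surj r
  change (((sT ^ ((N : ℤ) * j) * toSL γ : ↥(𝒮ℒ))) : Q N) = ((toSL γ : ↥(𝒮ℒ)) : Q N)
  rw [sT, ← cusp_toSL_zpow, ← cusp_toSL_mul, cusp_mk_eq_mk_iff]
  have h1 : ModularGroup.T ^ ((N : ℤ) * j) ∈ Gamma N :=
    ModularGroup_T_pow_mem_Gamma N _ (dvd_mul_right _ _)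
  have h2 : γ⁻¹ * (ModularGroup.T ^ ((N : ℤ) * j))⁻¹ * γ ∈ Gamma N := by
    have := (Gamma_normal N).conj_mem _ (inv_mem h1) γ⁻¹
    simpa using this
  have h3 : (ModularGroup.T ^ ((N : ℤ) * j) * γ)⁻¹ * γ
      = γ⁻¹ * (ModularGroup.T ^ ((N : ℤ) * j))⁻¹ * γ := by
    group
  rw [h3]
  rw [Gamma_mem] at h2
  rw [Gamma0_mem]
  exact h2.2.2.1

/-- slash by a power of `T` is a translation -/
theorem cusp_slash_sT_zpow (F : ℍ → ℂ) (k : ℤ) (j : ℤ) (z : ℍ) :
    (F ∣[k] ((sT ^ j : ↥(𝒮ℒ)) : GL (Fin 2) ℝ)) z = F ((j : ℝ) +ᵥ z) := by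
  have h1 : ((sT ^ j : ↥(𝒮ℒ)) : GL (Fin 2) ℝ) = mapGL ℝ (ModularGroup.T ^ j) := by
    rw [sT, ← cusp_toSL_zpow]; rfl
  rw [h1]
  change (F ∣[k] (ModularGroup.T ^ j : SL(2, ℤ))) z = _
  rw [ModularForm.SL_slash_apply, modular_T_zpow_smul]
  have h2 : denom (ModularGroup.T ^ j : SL(2, ℤ)) z = 1 := by
    simp [denom, ModularGroup.coe_T_zpow, -map_zpow]
  rw [h2]; simp

/-- translation of conjugates: `f_{T^j q}(z) = f_q(z - j)` -/
theorem cusp_quotientFunc_sT_zpow_smul {k : ℤ} (f : ModularForm (Gamma0 N) k) (q : Q N) (j : ℤ)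
    (z : ℍ) : quotientFunc f (sT ^ j • q) z = quotientFunc f q ((-j : ℝ) +ᵥ z) := by
  have h := (fam_quotientFunc f).slash (sT ^ (-j)) q
  have h2 := congrFun h z
  rw [cusp_slash_sT_zpow] at h2
  rw [← zpow_neg, neg_neg] at h2
  rw [← h2]
  push_cast
  rfl

/-- the conjugates are `N`-periodic -/
theorem cusp_quotientFunc_periodic {k : ℤ} (f : ModularForm (Gamma0 N) k) (q : Q N) :
    Function.Periodic (quotientFunc f q ∘ ofComplex) (N : ℝ) := by
  intro w
  by_cases! hw : 0 < Complex.im w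
  · have hw' : 0 < Complex.im (w + (N : ℝ)) := by simp [hw]
    simp only [Function.comp_apply, ofComplex_apply_of_im_pos hw', ofComplex_apply_of_im_pos hw]
    have h := cusp_quotientFunc_sT_zpow_smul f q ((N : ℤ) * (-1)) ⟨w, hw⟩
    rw [cusp_sT_zpow_smul] at h
    rw [h]
    congr 1
    ext
    simp [add_comm]
  · have : Complex.im (w + (N : ℝ)) ≤ 0 := by simpa using hw
    rw [Function.comp_apply, Function.comp_apply, ofComplex_apply_of_im_nonpos this,
      ofComplex_apply_of_im_nonpos hw]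

/-! ### Functions with a `q_N`-expansion -/

theorem cusp_N_pos : (0 : ℝ) < (N : ℝ) := by
  have := NeZero.pos N
  exact_mod_cast this

/-- `q_N ^ N = q` -/
theorem cusp_qParam_pow (z : ℍ) :
    Function.Periodic.qParam (N : ℝ) z ^ N = Function.Periodic.qParam (1 : ℝ) z := by
  have hN : (N : ℂ) ≠ 0 := Nat.cast_ne_zero.mpr (NeZero.ne N)
  rw [Function.Periodic.qParam, Function.Periodic.qParam, ← Complex.exp_nat_mul]
  congr 1
  push_cast
  field_simp

variable (N) in
/-- functions with a `q_N`-expansion: `N`-periodic, holomorphic, bounded at `i∞` -/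
def CuspQExp (F : ℍ → ℂ) : Prop :=
  Function.Periodic (F ∘ ofComplex) (N : ℝ) ∧ MDiff F ∧ IsBoundedAtImInfty F

namespace CuspQExp

variable {F G : ℍ → ℂ}

theorem analyticAt (hF : CuspQExp N F) : AnalyticAt ℂ (cuspFunction (N : ℝ) F) 0 :=
  analyticAt_cuspFunction_zero cusp_N_pos hF.1 hF.2.1 hF.2.2

theorem hasSum (hF : CuspQExp N F) (z : ℍ) :
    HasSum (fun n : ℕ => (qExpansion (N : ℝ) F).coeff n • Function.Periodic.qParam (N : ℝ) z ^ n)
      (F z) :=
  hasSum_qExpansion cusp_N_pos hF.1 hF.2.1 hF.2.2 z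

theorem coeff_unique (hF : CuspQExp N F) {c : ℕ → ℂ}
    (h : ∀ z : ℍ, HasSum (fun n : ℕ => c n • Function.Periodic.qParam (N : ℝ) z ^ n) (F z))
    (n : ℕ) : (qExpansion (N : ℝ) F).coeff n = c n :=
  (qExpansion_coeff_unique (ContinuousMap.mk F hF.2.1.continuous) cusp_N_pos hF.analyticAt
    h n).symm

theorem add (hF : CuspQExp N F) (hG : CuspQExp N G) : CuspQExp N (F + G) := by
  refine ⟨?_, hF.2.1.add hG.2.1, hF.2.2.add hG.2.2⟩
  intro w
  have h1 := hF.1 w
  have h2 := hG.1 w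
  simp only [Function.comp_apply, Pi.add_apply] at h1 h2 ⊢
  rw [h1, h2]

theorem mul (hF : CuspQExp N F) (hG : CuspQExp N G) : CuspQExp N (F * G) := by
  refine ⟨?_, hF.2.1.mul hG.2.1, hF.2.2.mul hG.2.2⟩
  intro w
  have h1 := hF.1 w
  have h2 := hG.1 w
  simp only [Function.comp_apply, Pi.mul_apply] at h1 h2 ⊢
  rw [h1, h2]

theorem zero : CuspQExp N (0 : ℍ → ℂ) :=
  ⟨fun w => by simp, mdifferentiable_const, Filter.const_boundedAtFilter _ (0 : ℂ)⟩

theorem sum {ι : Type*} (s : Finset ι) {f : ι → ℍ → ℂ} (h : ∀ i ∈ s, CuspQExp N (f i)) :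
    CuspQExp N (∑ i ∈ s, f i) := by
  classical
  induction s using Finset.induction_on with
  | empty => simpa using zero
  | insert a s ha ih =>
    rw [Finset.sum_insert ha]
    exact (h a (Finset.mem_insert_self a s)).add
      (ih fun i hi => h i (Finset.mem_insert_of_mem hi))

theorem qExpansion_add (hF : CuspQExp N F) (hG : CuspQExp N G) :
    qExpansion (N : ℝ) (F + G) = qExpansion (N : ℝ) F + qExpansion (N : ℝ) G :=
  UpperHalfPlane.qExpansion_add hF.analyticAt hG.analyticAt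

theorem qExpansion_mul (hF : CuspQExp N F) (hG : CuspQExp N G) :
    qExpansion (N : ℝ) (F * G) = qExpansion (N : ℝ) F * qExpansion (N : ℝ) G :=
  UpperHalfPlane.qExpansion_mul hF.analyticAt hG.analyticAt

theorem qExpansion_sum {ι : Type*} (s : Finset ι) {f : ι → ℍ → ℂ}
    (h : ∀ i ∈ s, CuspQExp N (f i)) :
    qExpansion (N : ℝ) (∑ i ∈ s, f i) = ∑ i ∈ s, qExpansion (N : ℝ) (f i) := by
  classical
  induction s using Finset.induction_on with
  | empty => simpa using qExpansion_zero (N : ℝ)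
  | insert a s ha ih =>
    rw [Finset.sum_insert ha, Finset.sum_insert ha,
      qExpansion_add (h a (Finset.mem_insert_self a s))
        (sum s fun i hi => h i (Finset.mem_insert_of_mem hi)),
      ih fun i hi => h i (Finset.mem_insert_of_mem hi)]

/-- a `1`-periodic function is `N`-periodic -/
theorem of_qExp (hF : QExp F) : CuspQExp N F := by
  refine ⟨?_, hF.2.1, hF.2.2⟩
  have := hF.1.nat_mul N
  simpa using this

/-- the `q_N`-expansion of a `1`-periodic function -/
theorem coeff_of_qExp (hF : QExp F) (j : ℕ) :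
    (qExpansion (N : ℝ) F).coeff j = if N ∣ j then (qExpansion 1 F).coeff (j / N) else 0 := by
  have hNpos : 0 < N := NeZero.pos N
  set a : ℕ → ℂ := fun m => (qExpansion 1 F).coeff m with ha
  set c : ℕ → ℂ := fun n => if N ∣ n then a (n / N) else 0 with hc
  refine (of_qExp (N := N) hF).coeff_unique (c := c) (fun τ => ?_) j
  have h1 : HasSum (fun m : ℕ => a m • Function.Periodic.qParam (1 : ℝ) τ ^ m) (F τ) :=
    hasSum_qExpansion one_pos hF.1 hF.2.1 hF.2.2 τ
  rw [← cusp_qParam_pow (N := N)] at h1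
  have hinj : Function.Injective (fun m : ℕ => m * N) := fun a b hab =>
    Nat.eq_of_mul_eq_mul_right hNpos hab
  have hzero : ∀ x ∉ Set.range (fun m : ℕ => m * N),
      (fun m ↦ c m • Function.Periodic.qParam (N : ℝ) (τ : ℂ) ^ m) x = 0 := by
    intro x hx
    have : ¬ N ∣ x := by
      rintro ⟨m, rfl⟩
      exact hx ⟨m, by simp [mul_comm]⟩
    simp only [hc, this, if_false, zero_smul]
  rw [← hinj.hasSum_iff hzero]
  have hfun : ((fun m ↦ c m • Function.Periodic.qParam (N : ℝ) (τ : ℂ) ^ m) ∘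
      fun m : ℕ => m * N)
      = fun m : ℕ => a m • (Function.Periodic.qParam (N : ℝ) (τ : ℂ) ^ N) ^ m := by
    funext m
    have h1 : N ∣ m * N := dvd_mul_left N m
    have h2 : m * N / N = m := Nat.mul_div_cancel m hNpos
    simp only [Function.comp_apply, hc, h1, if_true, h2, smul_eq_mul]
    rw [← pow_mul, mul_comm N m]
  rw [hfun]
  exact h1

end CuspQExp

/-! ### The `q_N`-expansions of the conjugates -/

theorem cusp_qExp_quotientFunc {k : ℤ} (f : ModularForm (Gamma0 N) k) (q : Q N) :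
    CuspQExp N (quotientFunc f q) :=
  ⟨cusp_quotientFunc_periodic f q, (fam_quotientFunc f).holo q, (fam_quotientFunc f).bdd q⟩

theorem cusp_quotientFunc_analyticAt {k : ℤ} (f : ModularForm (Gamma0 N) k) (q : Q N) :
    AnalyticAt ℂ (cuspFunction (N : ℝ) (quotientFunc f q)) 0 :=
  (cusp_qExp_quotientFunc f q).analyticAt

/-- the `q_N`-expansion of a conjugate -/
theorem acoef_hasSum {k : ℤ} (f : ModularForm (Gamma0 N) k) (q : Q N) (z : ℍ) :
    HasSum (fun n : ℕ => acoef f q n • Function.Periodic.qParam (N : ℝ) z ^ n)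
      (quotientFunc f q z) :=
  (cusp_qExp_quotientFunc f q).hasSum z

/-- uniqueness of the `q_N`-expansion of a conjugate -/
theorem acoef_unique {k : ℤ} (f : ModularForm (Gamma0 N) k) (q : Q N) {c : ℕ → ℂ}
    (h : ∀ z : ℍ, HasSum (fun n : ℕ => c n • Function.Periodic.qParam (N : ℝ) z ^ n)
      (quotientFunc f q z)) (n : ℕ) : acoef f q n = c n :=
  (cusp_qExp_quotientFunc f q).coeff_unique h n

theorem cusp_qParam_vadd (j : ℤ) (z : ℍ) :
    Function.Periodic.qParam (N : ℝ) (((-j : ℝ) +ᵥ z : ℍ) : ℂ)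
      = zetaInv N ^ j * Function.Periodic.qParam (N : ℝ) z := by
  have hN : (N : ℂ) ≠ 0 := Nat.cast_ne_zero.mpr (NeZero.ne N)
  rw [zetaInv, ← Complex.exp_int_mul, Function.Periodic.qParam, Function.Periodic.qParam,
    ← Complex.exp_add]
  congr 1
  rw [UpperHalfPlane.coe_vadd]
  push_cast
  field_simp

theorem acoef_sT_zpow {k : ℤ} (f : ModularForm (Gamma0 N) k) (q : Q N) (j : ℤ) (n : ℕ) :
    acoef f (sT ^ j • q) n = (zetaInv N ^ j) ^ n * acoef f q n := by
  refine acoef_unique f (sT ^ j • q) (c := fun n => (zetaInv N ^ j) ^ n * acoef f q n) ?_ n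
  intro z
  rw [cusp_quotientFunc_sT_zpow_smul]
  have h := acoef_hasSum f q ((-j : ℝ) +ᵥ z)
  rw [cusp_qParam_vadd] at h
  convert h using 2 with m
  simp only [smul_eq_mul]
  ring

theorem acoef_sT {k : ℤ} (f : ModularForm (Gamma0 N) k) (q : Q N) (n : ℕ) :
    acoef f (sT • q) n = zetaInv N ^ n * acoef f q n := by
  simpa using acoef_sT_zpow f q 1 n

theorem zetaInv_pow_eq_one_iff (n : ℕ) : zetaInv N ^ n = 1 ↔ N ∣ n := by
  have hN : (N : ℂ) ≠ 0 := Nat.cast_ne_zero.mpr (NeZero.ne N)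
  have hpi : (2 * (Real.pi : ℂ) * Complex.I) ≠ 0 := Complex.two_pi_I_ne_zero
  rw [zetaInv, ← Complex.exp_nat_mul, Complex.exp_eq_one_iff]
  constructor
  · rintro ⟨m, hm⟩
    have h1 : (n : ℂ) = ((-m * N : ℤ) : ℂ) := by
      push_cast
      field_simp at hm
      linear_combination -hm
    have h2 : (n : ℤ) = -m * N := by exact_mod_cast h1
    have h3 : (N : ℤ) ∣ (n : ℤ) := ⟨-m, by rw [h2]; ring⟩
    exact_mod_cast h3
  · rintro ⟨m, rfl⟩
    refine ⟨-(m : ℤ), ?_⟩
    push_cast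
    field_simp

/-! ### Linearity -/

theorem cusp_quotientFunc_congr {F G : Type*} [FunLike F ℍ ℂ] [FunLike G ℍ ℂ] {k : ℤ}
    [SlashInvariantFormClass F ((Gamma0 N : Subgroup SL(2, ℤ)) : Subgroup (GL (Fin 2) ℝ)) k]
    [SlashInvariantFormClass G ((Gamma0 N : Subgroup SL(2, ℤ)) : Subgroup (GL (Fin 2) ℝ)) k]
    (f : F) (g : G) (h : (⇑f : ℍ → ℂ) = ⇑g) (q : Q N) :
    quotientFunc f q = quotientFunc g q := by
  induction q using Quotient.inductionOn with
  | h r => rw [quotientFunc_mk, quotientFunc_mk, h]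

theorem cusp_quotientFunc_add {k : ℤ} (f g : ModularForm (Gamma0 N) k) (q : Q N) :
    quotientFunc (f + g) q = quotientFunc f q + quotientFunc g q := by
  induction q using Quotient.inductionOn with
  | h r =>
    rw [quotientFunc_mk, quotientFunc_mk, quotientFunc_mk, ModularForm.coe_add,
      SlashAction.add_slash]

theorem cusp_quotientFunc_smul {k : ℤ} (c : ℂ) (f : ModularForm (Gamma0 N) k) (q : Q N) :
    quotientFunc (c • f) q = c • quotientFunc f q := by
  induction q using Quotient.inductionOn with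
  | h r =>
    obtain ⟨γ, rfl⟩ := cusp_toSL_surj r
    rw [quotientFunc_mk, quotientFunc_mk]
    have h1 : ((toSL γ : ↥(𝒮ℒ)) : GL (Fin 2) ℝ)⁻¹ = mapGL ℝ γ⁻¹ := by simp [toSL]
    rw [h1]
    change (⇑(c • f) : ℍ → ℂ) ∣[k] γ⁻¹ = c • ((⇑f : ℍ → ℂ) ∣[k] γ⁻¹)
    rw [ModularForm.coe_smul, ModularForm.SL_smul_slash]

theorem acoef_add {k : ℤ} (f g : ModularForm (Gamma0 N) k) (q : Q N) (n : ℕ) :
    acoef (f + g) q n = acoef f q n + acoef g q n := by
  rw [acoef, cusp_quotientFunc_add, qExpansion_add (cusp_quotientFunc_analyticAt f q)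
    (cusp_quotientFunc_analyticAt g q)]
  rfl

theorem acoef_smul {k : ℤ} (c : ℂ) (f : ModularForm (Gamma0 N) k) (q : Q N) (n : ℕ) :
    acoef (c • f) q n = c * acoef f q n := by
  rw [acoef, cusp_quotientFunc_smul, qExpansion_smul (cusp_quotientFunc_analyticAt f q)]
  rfl

/-- `acoef` only depends on the conjugate function -/
theorem acoef_congr {k l : ℤ} (f : ModularForm (Gamma0 N) k) (g : ModularForm (Gamma0 N) l)
    (q : Q N) (h : quotientFunc f q = quotientFunc g q) (n : ℕ) : acoef f q n = acoef g q n := by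
  rw [acoef, acoef, h]

/-! ### Constant terms and cusp forms -/

/-- the constant term is the value at the cusp -/
theorem acoef_zero_eq {k : ℤ} (f : ModularForm (Gamma0 N) k) (q : Q N) :
    acoef f q 0 = cuspFunction (N : ℝ) (quotientFunc f q) 0 := by
  simp [acoef, qExpansion_coeff]

/-- a conjugate tends to its constant term at `i∞` -/
theorem cusp_quotientFunc_tendsto {k : ℤ} (f : ModularForm (Gamma0 N) k) (q : Q N) :
    Tendsto (quotientFunc f q) atImInfty (𝓝 (acoef f q 0)) := by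
  rw [acoef_zero_eq]
  have hfun : (cuspFunction (N : ℝ) (quotientFunc f q) ∘
      fun τ : ℍ => Function.Periodic.qParam (N : ℝ) τ : ℍ → ℂ) = quotientFunc f q := by
    funext τ
    simpa using eq_cuspFunction τ cusp_N_pos.ne' (cusp_quotientFunc_periodic f q)
  have := (cusp_quotientFunc_analyticAt f q).continuousAt.tendsto.comp
    (qParam_tendsto_atImInfty (cusp_N_pos (N := N)))
  rwa [hfun] at this

theorem cusp_quotientFunc_isZero_iff {k : ℤ} (f : ModularForm (Gamma0 N) k) (q : Q N) :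
    IsZeroAtImInfty (quotientFunc f q) ↔ acoef f q 0 = 0 := by
  constructor
  · intro h
    exact tendsto_nhds_unique (cusp_quotientFunc_tendsto f q) h
  · intro h
    have := cusp_quotientFunc_tendsto f q
    rwa [h] at this

/-- slash by `γ ∈ SL(2, ℤ)` is a conjugate -/
theorem cusp_slash_eq_quotientFunc {k : ℤ} (f : ModularForm (Gamma0 N) k) (γ : SL(2, ℤ)) :
    (⇑f : ℍ → ℂ) ∣[k] γ = quotientFunc f (((toSL γ⁻¹ : ↥(𝒮ℒ))) : Q N) := by
  change _ = quotientFunc f ⟦toSL γ⁻¹⟧
  rw [quotientFunc_mk]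
  have h1 : ((toSL γ⁻¹ : ↥(𝒮ℒ)) : GL (Fin 2) ℝ)⁻¹ = mapGL ℝ γ := by simp [toSL]
  rw [h1]
  rfl

/-- cusp forms are the forms with vanishing constant terms at all cusps -/
theorem exists_cuspForm_iff {k : ℤ} (f : ModularForm (Gamma0 N) k) :
    (∃ s : CuspForm (Gamma0 N) k, (⇑s : ℍ → ℂ) = ⇑f) ↔ ∀ q : Q N, acoef f q 0 = 0 := by
  constructor
  · rintro ⟨s, hs⟩ q
    rw [← cusp_quotientFunc_isZero_iff, ← cusp_quotientFunc_congr s f hs q]
    exact quotientFunc_cusp_isZero s q
  · intro h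
    refine ⟨{ toFun := f
              slash_action_eq' := f.slash_action_eq'
              holo' := f.holo'
              zero_at_cusps' := ?_ }, rfl⟩
    intro c hc
    rw [Subgroup.IsArithmetic.isCusp_iff_isCusp_SL2Z] at hc
    rw [OnePoint.isZeroAt_iff_forall_SL2Z hc]
    intro γ _
    have h2 := cusp_slash_eq_quotientFunc f γ
    change IsZeroAtImInfty ((⇑f : ℍ → ℂ) ∣[k] γ)
    rw [h2, cusp_quotientFunc_isZero_iff]
    exact h _

/-- if all coefficients of `f` itself vanish then `f = 0` -/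
theorem eq_zero_of_acoef {k : ℤ} (f : ModularForm (Gamma0 N) k)
    (h : ∀ n : ℕ, acoef f (q0 : Q N) n = 0) : f = 0 := by
  ext z
  have h1 := acoef_hasSum f q0 z
  simp only [h, zero_smul] at h1
  have h2 := h1.unique hasSum_zero
  rw [quotientFunc_q0] at h2
  simpa using h2

/-! ### Division by `Δ ^ m` -/

theorem cusp_isLO_discriminant : IsLO 12 (ModularForm.discriminant : ℍ → ℂ) :=
  ⟨(CuspForm.discriminant : ModularForm 𝒮ℒ 12), rfl⟩

theorem cusp_isLO_discriminant_pow (m : ℕ) :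
    IsLO (12 * m) ((ModularForm.discriminant : ℍ → ℂ) ^ m) := by
  induction m with
  | zero => simpa using IsLO.one
  | succ m ih =>
    have := ih.mul cusp_isLO_discriminant
    rw [pow_succ]
    refine this.of_eq_weight ?_
    push_cast; ring

/-- a conjugate whose first `M` coefficients vanish is `q_N ^ M` times an analytic function of
`q_N`, near `i∞` -/
theorem cusp_quotientFunc_eventually_eq {k : ℤ} (f : ModularForm (Gamma0 N) k) (q : Q N) (M : ℕ)
    (h : ∀ n : ℕ, n < M → acoef f q n = 0) :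
    ∃ g : ℂ → ℂ, AnalyticAt ℂ g 0 ∧ ∀ᶠ τ : ℍ in atImInfty, quotientFunc f q τ =
      Function.Periodic.qParam (N : ℝ) τ ^ M * g (Function.Periodic.qParam (N : ℝ) τ) := by
  have hF := cusp_quotientFunc_analyticAt f q
  set F := cuspFunction (N : ℝ) (quotientFunc f q) with hFdef
  have h1 : ((M : ℕ) : ℕ∞) ≤ analyticOrderAt F 0 := by
    rw [natCast_le_analyticOrderAt_iff_iteratedDeriv_eq_zero hF]
    intro i hi
    have := h i hi
    rw [acoef, qExpansion_coeff] at this
    have hfac : ((i.factorial : ℂ))⁻¹ ≠ 0 :=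
      inv_ne_zero (Nat.cast_ne_zero.mpr i.factorial_ne_zero)
    exact (mul_eq_zero.mp this).resolve_left hfac
  obtain ⟨g, hg, hgF⟩ := (natCast_le_analyticOrderAt hF).mp h1
  have hq := qParam_tendsto_atImInfty (cusp_N_pos (N := N))
  refine ⟨g, hg, ?_⟩
  filter_upwards [hq.eventually hgF] with τ hτ
  rw [hFdef, eq_cuspFunction τ cusp_N_pos.ne' (cusp_quotientFunc_periodic f q)] at hτ
  rw [hτ, sub_zero, smul_eq_mul]

theorem cusp_qParam_isBigO (m : ℕ) :
    (fun τ : ℍ => Function.Periodic.qParam (1 : ℝ) τ ^ m) =O[atImInfty]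
      fun z => (ModularForm.discriminant z) ^ m := by
  refine Asymptotics.IsBigO.pow ?_ m
  refine Asymptotics.IsBigO.trans ?_ ModularForm.exp_isBigO_discriminant
  refine Asymptotics.IsBigO.of_bound 1 (Filter.Eventually.of_forall fun τ => ?_)
  rw [one_mul, Real.norm_of_nonneg (Real.exp_pos _).le]
  simp [Function.Periodic.qParam, Complex.norm_exp]

/-- a conjugate whose first `N * m` coefficients vanish is `O(Δ ^ m)` at `i∞` -/
theorem cusp_quotientFunc_isBigO {k : ℤ} (f : ModularForm (Gamma0 N) k) (q : Q N) (m : ℕ)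
    (h : ∀ n : ℕ, n < N * m → acoef f q n = 0) :
    quotientFunc f q =O[atImInfty] fun z => (ModularForm.discriminant z) ^ m := by
  obtain ⟨g, hg, hev⟩ := cusp_quotientFunc_eventually_eq f q (N * m) h
  have hq := qParam_tendsto_atImInfty (cusp_N_pos (N := N))
  have hgb : (fun τ : ℍ => g (Function.Periodic.qParam (N : ℝ) τ)) =O[atImInfty]
      (fun _ => (1 : ℂ)) :=
    (hg.continuousAt.tendsto.comp hq).isBigO_one ℂ
  have := (cusp_qParam_isBigO m).mul hgb
  simp only [mul_one] at this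
  refine Asymptotics.IsBigO.congr' this (hev.mono fun τ hτ => ?_) (Filter.EventuallyEq.refl _ _)
  rw [hτ, pow_mul, cusp_qParam_pow]

/-- a conjugate whose first `N * m + 1` coefficients vanish is `o(Δ ^ m)` at `i∞` -/
theorem cusp_quotientFunc_isLittleO {k : ℤ} (f : ModularForm (Gamma0 N) k) (q : Q N) (m : ℕ)
    (h : ∀ n : ℕ, n ≤ N * m → acoef f q n = 0) :
    quotientFunc f q =o[atImInfty] fun z => (ModularForm.discriminant z) ^ m := by
  obtain ⟨g, hg, hev⟩ := cusp_quotientFunc_eventually_eq f q (N * m + 1)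
    (fun n hn => h n (Nat.lt_succ_iff.mp hn))
  have hq := qParam_tendsto_atImInfty (cusp_N_pos (N := N))
  have hgb : (fun τ : ℍ => Function.Periodic.qParam (N : ℝ) τ *
      g (Function.Periodic.qParam (N : ℝ) τ)) =o[atImInfty] (fun _ => (1 : ℂ)) := by
    rw [Asymptotics.isLittleO_one_iff]
    have := hq.mul (hg.continuousAt.tendsto.comp hq)
    simpa using this
  have := (cusp_qParam_isBigO m).mul_isLittleO hgb
  simp only [mul_one] at this
  refine Asymptotics.IsLittleO.congr' this (hev.mono fun τ hτ => ?_) (Filter.EventuallyEq.refl _ _)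
  rw [hτ, pow_succ, pow_mul, cusp_qParam_pow]
  ring

theorem cusp_mdiff_div {F G : ℍ → ℂ} (hF : MDiff F) (hG : MDiff G) (h0 : ∀ z, G z ≠ 0) :
    MDiff (F / G) := by
  rw [UpperHalfPlane.mdifferentiable_iff] at hF hG ⊢
  intro z hz
  have := (hF z hz).div (hG z hz) (h0 _)
  exact this

theorem cusp_discriminant_pow_ne_zero (m : ℕ) (z : ℍ) :
    ((ModularForm.discriminant : ℍ → ℂ) ^ m) z ≠ 0 := by
  simpa using pow_ne_zero m (ModularForm.discriminant_ne_zero z)

/-- slash of the quotient `f / Δ ^ m` -/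
theorem cusp_div_slash {k : ℤ} (f : ModularForm (Gamma0 N) k) (m : ℕ) (γ : SL(2, ℤ)) :
    ((⇑f : ℍ → ℂ) / (ModularForm.discriminant : ℍ → ℂ) ^ m) ∣[k - 12 * m] γ =
      quotientFunc f (((toSL γ⁻¹ : ↥(𝒮ℒ))) : Q N) / (ModularForm.discriminant : ℍ → ℂ) ^ m := by
  rw [ModularForm.div_slash_SL2, cusp_slash_eq_quotientFunc]
  congr 1
  exact (cusp_isLO_discriminant_pow m).slash γ

theorem cusp_div_slash_mem {k : ℤ} (f : ModularForm (Gamma0 N) k) (m : ℕ)
    (γ : GL (Fin 2) ℝ) (hγ : γ ∈ ((Gamma0 N : Subgroup SL(2, ℤ)) : Subgroup (GL (Fin 2) ℝ))) :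
    ((⇑f : ℍ → ℂ) / (ModularForm.discriminant : ℍ → ℂ) ^ m) ∣[k - 12 * m] γ =
      (⇑f : ℍ → ℂ) / (ModularForm.discriminant : ℍ → ℂ) ^ m := by
  obtain ⟨γ, hγ, rfl⟩ := hγ
  change ((⇑f : ℍ → ℂ) / (ModularForm.discriminant : ℍ → ℂ) ^ m) ∣[k - 12 * m] γ = _
  rw [ModularForm.div_slash_SL2]
  congr 1
  · exact f.slash_action_eq' _ ⟨γ, hγ, rfl⟩
  · exact (cusp_isLO_discriminant_pow m).slash γ

/-- divisibility by `Δ ^ m` -/
theorem exists_eq_discriminant_pow_mul {k : ℤ} (f : ModularForm (Gamma0 N) k) (m : ℕ)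
    (h : ∀ q : Q N, ∀ n : ℕ, n < N * m → acoef f q n = 0) :
    ∃ g : ModularForm (Gamma0 N) (k - 12 * m),
      (⇑f : ℍ → ℂ) = ModularForm.discriminant ^ m * ⇑g := by
  refine ⟨{ toFun := (⇑f : ℍ → ℂ) / (ModularForm.discriminant : ℍ → ℂ) ^ m
            slash_action_eq' := cusp_div_slash_mem f m
            holo' := cusp_mdiff_div f.holo' (cusp_isLO_discriminant_pow m).mdiff
              (cusp_discriminant_pow_ne_zero m)
            bdd_at_cusps' := ?_ }, ?_⟩
  · intro c hc
    rw [Subgroup.IsArithmetic.isCusp_iff_isCusp_SL2Z] at hc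
    rw [OnePoint.isBoundedAt_iff_forall_SL2Z hc]
    intro γ _
    rw [cusp_div_slash]
    have hO := cusp_quotientFunc_isBigO f (((toSL γ⁻¹ : ↥(𝒮ℒ))) : Q N) m (h _)
    obtain ⟨C, hC⟩ := hO.bound
    refine Asymptotics.IsBigO.of_bound C (hC.mono fun τ hτ => ?_)
    have hpos : 0 < ‖(ModularForm.discriminant τ) ^ m‖ :=
      norm_pos_iff.mpr (pow_ne_zero m (ModularForm.discriminant_ne_zero τ))
    simp only [Pi.div_apply, Pi.pow_apply, norm_div, Pi.one_apply, norm_one, mul_one]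
    rw [div_le_iff₀ hpos]
    exact hτ
  · ext z
    have := cusp_discriminant_pow_ne_zero m z
    change f z = ((ModularForm.discriminant : ℍ → ℂ) ^ m) z *
      (f z / ((ModularForm.discriminant : ℍ → ℂ) ^ m) z)
    field_simp

/-- divisibility by `Δ ^ m` with a cusp form as quotient -/
theorem exists_cuspForm_eq_discriminant_pow_mul {k : ℤ} (f : ModularForm (Gamma0 N) k) (m : ℕ)
    (h : ∀ q : Q N, ∀ n : ℕ, n ≤ N * m → acoef f q n = 0) :
    ∃ s : CuspForm (Gamma0 N) (k - 12 * m),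
      (⇑f : ℍ → ℂ) = ModularForm.discriminant ^ m * ⇑s := by
  refine ⟨{ toFun := (⇑f : ℍ → ℂ) / (ModularForm.discriminant : ℍ → ℂ) ^ m
            slash_action_eq' := cusp_div_slash_mem f m
            holo' := cusp_mdiff_div f.holo' (cusp_isLO_discriminant_pow m).mdiff
              (cusp_discriminant_pow_ne_zero m)
            zero_at_cusps' := ?_ }, ?_⟩
  · intro c hc
    rw [Subgroup.IsArithmetic.isCusp_iff_isCusp_SL2Z] at hc
    rw [OnePoint.isZeroAt_iff_forall_SL2Z hc]
    intro γ _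
    rw [cusp_div_slash]
    have hO := cusp_quotientFunc_isLittleO f (((toSL γ⁻¹ : ↥(𝒮ℒ))) : Q N) m (h _)
    have := hO.tendsto_div_nhds_zero
    exact this
  · ext z
    have := cusp_discriminant_pow_ne_zero m z
    change f z = ((ModularForm.discriminant : ℍ → ℂ) ^ m) z *
      (f z / ((ModularForm.discriminant : ℍ → ℂ) ^ m) z)
    field_simp

/-! ### Coefficients of products and of the trace pairing -/

/-- `q_N`-coefficients of a product of conjugates -/
theorem cusp_qExpansion_mul_coeff {k l : ℤ} (f : ModularForm (Gamma0 N) k)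
    (g : ModularForm (Gamma0 N) l) (q : Q N) (n : ℕ) :
    (qExpansion (N : ℝ) (quotientFunc f q * quotientFunc g q)).coeff n =
      ∑ p ∈ Finset.HasAntidiagonal.antidiagonal n, acoef f q p.1 * acoef g q p.2 := by
  rw [(cusp_qExp_quotientFunc f q).qExpansion_mul (cusp_qExp_quotientFunc g q),
    PowerSeries.coeff_mul]
  rfl

/-- coefficients of a form whose conjugate is a product of conjugates -/
theorem acoef_of_eq_mul {k l w : ℤ} (h : ModularForm (Gamma0 N) w) (f : ModularForm (Gamma0 N) k)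
    (g : ModularForm (Gamma0 N) l) (q : Q N)
    (hq : quotientFunc h q = quotientFunc f q * quotientFunc g q) (n : ℕ) :
    acoef h q n =
      ∑ p ∈ Finset.HasAntidiagonal.antidiagonal n, acoef f q p.1 * acoef g q p.2 := by
  rw [acoef, hq, cusp_qExpansion_mul_coeff]

/-- coefficients of a form whose conjugate is a level-one function times a conjugate -/
theorem acoef_of_eq_levelOne_mul {k w : ℤ} (h : ModularForm (Gamma0 N) w)
    (f : ModularForm (Gamma0 N) k) {F : ℍ → ℂ} (hF : QExp F) (q : Q N)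
    (hq : quotientFunc h q = F * quotientFunc f q) (n : ℕ) :
    acoef h q n =
      ∑ p ∈ Finset.HasAntidiagonal.antidiagonal n,
        (if N ∣ p.1 then (qExpansion 1 F).coeff (p.1 / N) else 0) * acoef f q p.2 := by
  rw [acoef, hq, (CuspQExp.of_qExp hF).qExpansion_mul (cusp_qExp_quotientFunc f q),
    PowerSeries.coeff_mul]
  refine Finset.sum_congr rfl fun p _ => ?_
  rw [CuspQExp.coeff_of_qExp hF]
  rfl

/-- `q_N`-coefficients of the trace pairing -/
theorem cusp_trP_coeff {k l : ℤ} (f : ModularForm (Gamma0 N) k) (g : ModularForm (Gamma0 N) l)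
    (n : ℕ) :
    (qExpansion (N : ℝ) (trP f g)).coeff n =
      ∑ q : Q N, ∑ p ∈ Finset.HasAntidiagonal.antidiagonal n, acoef f q p.1 * acoef g q p.2 := by
  rw [trP, CuspQExp.qExpansion_sum _ fun q _ =>
    (cusp_qExp_quotientFunc f q).mul (cusp_qExp_quotientFunc g q), map_sum]
  exact Finset.sum_congr rfl fun q _ => cusp_qExpansion_mul_coeff f g q n

/-- `q`-coefficients of the trace pairing -/
theorem trP_coeff {k l : ℤ} (f : ModularForm (Gamma0 N) k) (g : ModularForm (Gamma0 N) l)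
    (n : ℕ) :
    (qExpansion 1 (trP f g)).coeff n =
      ∑ q : Q N, ∑ p ∈ Finset.HasAntidiagonal.antidiagonal (N * n),
        acoef f q p.1 * acoef g q p.2 := by
  have h := CuspQExp.coeff_of_qExp (N := N) (trP_isLO f g).qexp (N * n)
  rw [if_pos (dvd_mul_right N n), Nat.mul_div_cancel_left n (NeZero.pos N)] at h
  rw [← h, cusp_trP_coeff]

end B

/-- the `q`-expansion of `Δ ^ m * H` starts in degree `m` -/
theorem cusp_discriminant_pow_mul_coeff {H : ℍ → ℂ} (hH : QExp H) {m n : ℕ} (h : n < m) :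
    (qExpansion 1 ((ModularForm.discriminant : ℍ → ℂ) ^ m * H)).coeff n = 0 := by
  have hΔ : QExp (ModularForm.discriminant : ℍ → ℂ) := QExp.discriminant
  have h1 : qx ((ModularForm.discriminant : ℍ → ℂ) ^ m * H)
      = qx (ModularForm.discriminant : ℍ → ℂ) ^ m * qx H := by
    rw [qx_mul (hΔ.pow m) hH, qx_pow hΔ]
  have h0 : (qx (ModularForm.discriminant : ℍ → ℂ)).coeff 0 = 0 := by
    have := qExpansion_coeff_zero one_pos hΔ.analyticAt hΔ.1
    rw [this]
    exact ModularForm.discriminant_isZeroAtImInfty.valueAtInfty_eq_zero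
  have h2 : (PowerSeries.X : PowerSeries ℂ) ∣ qx (ModularForm.discriminant : ℍ → ℂ) := by
    rw [PowerSeries.X_dvd_iff]
    simpa using h0
  have h3 : (PowerSeries.X : PowerSeries ℂ) ^ m ∣
      qx (ModularForm.discriminant : ℍ → ℂ) ^ m * qx H :=
    Dvd.dvd.mul_right (pow_dvd_pow_of_dvd h2 m) _
  change (qx ((ModularForm.discriminant : ℍ → ℂ) ^ m * H)).coeff n = 0
  rw [h1]
  exact (PowerSeries.X_pow_dvd_iff.mp h3) n h

end Fermat.Agent.S20Lib
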