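/-
S20, chunk A (analytic part, helper8): the "irreducible" level-one forms `E₄`, `E₆`,
`E₄³ - λ Δ` are level-one forms, tend to `1` at `i∞`, and have only simple zeros.
Tools: the Serre derivative (Mathlib) and Ramanujan's identities
`ϑ₄ E₄ = -E₆/3`, `ϑ₆ E₆ = -E₄²/2`, `D Δ = E₂ Δ`.
-/
import Fermat.Agent.Lib.S20.Defs

set_option autoImplicit false

namespace Fermat.Agent.S20Lib

open UpperHalfPlane ModularForm MatrixGroups Filter EisensteinSeries Derivative
open scoped Manifold Topology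
open Fermat.Agent.LibS23

local notation "𝕢" => Function.Periodic.qParam

/-- `D F = q · (d/dq) F` in terms of the cusp function. -/
theorem simple_normalizedDeriv_eq_cusp {F : ℍ → ℂ} (hF : QExp F) (z : ℍ) :
    D F z = 𝕢 1 z * deriv (cuspFunction 1 F) (𝕢 1 z) := by
  obtain ⟨hper, hhol, hbd⟩ := hF
  have hq : ‖𝕢 1 (z : ℂ)‖ < 1 := Function.Periodic.norm_qParam_lt_one one_pos z.im_pos
  have hd : DifferentiableAt ℂ (cuspFunction 1 F) (𝕢 1 z) :=
    differentiableAt_cuspFunction one_pos hper hhol hbd hq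
  have hcomp : (F ∘ ofComplex) =ᶠ[𝓝 (z : ℂ)] (cuspFunction 1 F ∘ 𝕢 1) := by
    filter_upwards [isOpen_upperHalfPlaneSet.mem_nhds z.im_pos] with w hw
    have := eq_cuspFunction (h := 1) (f := F) ⟨w, hw⟩ one_ne_zero hper
    simp only [Function.comp_apply, ofComplex_apply_of_im_pos hw]
    exact this.symm
  have hqd : HasDerivAt (𝕢 1) (2 * Real.pi * Complex.I * 𝕢 1 (z : ℂ)) (z : ℂ) := by
    have h0 : HasDerivAt (fun w : ℂ => 2 * Real.pi * Complex.I * w / ((1 : ℝ) : ℂ))
        (2 * Real.pi * Complex.I) (z : ℂ) := by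
      simpa using (hasDerivAt_id (z : ℂ)).const_mul (2 * Real.pi * Complex.I)
    exact h0.cexp.congr_deriv (mul_comm _ _)
  have h1 : deriv (F ∘ ofComplex) (z : ℂ)
      = deriv (cuspFunction 1 F) (𝕢 1 z) * (2 * Real.pi * Complex.I * 𝕢 1 (z : ℂ)) := by
    rw [hcomp.deriv_eq]
    exact (hd.hasDerivAt.comp (z : ℂ) hqd).deriv
  simp only [normalizedDerivOfComplex, h1]
  have : (2 * (Real.pi : ℂ) * Complex.I) ≠ 0 := by
    simp [Real.pi_ne_zero]
  field_simp

/-- `D F → 0` at `i∞`. -/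
theorem simple_tendsto_normalizedDeriv {F : ℍ → ℂ} (hF : QExp F) :
    Tendsto (D F) atImInfty (𝓝 0) := by
  have h1 : Tendsto (fun z : ℍ => 𝕢 1 z * deriv (cuspFunction 1 F) (𝕢 1 z)) atImInfty
      (𝓝 (0 * deriv (cuspFunction 1 F) 0)) := by
    have hq := qParam_tendsto_atImInfty (h := 1) one_pos
    have hc : ContinuousAt (deriv (cuspFunction 1 F)) 0 := hF.analyticAt.deriv.continuousAt
    exact hq.mul (hc.tendsto.comp hq)
  rw [zero_mul] at h1
  refine h1.congr fun z => ?_
  exact (simple_normalizedDeriv_eq_cusp hF z).symm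

/-- a function with a `q`-expansion tends to its constant coefficient at `i∞`. -/
theorem simple_tendsto_coeff_zero {F : ℍ → ℂ} (hF : QExp F) :
    Tendsto F atImInfty (𝓝 ((qx F).coeff 0)) := by
  have hq := qParam_tendsto_atImInfty (h := 1) one_pos
  have hc : ContinuousAt (cuspFunction 1 F) 0 := hF.analyticAt.continuousAt
  have h1 := hc.tendsto.comp hq
  have h2 : (qx F).coeff 0 = cuspFunction 1 F 0 := by
    simp [qx, qExpansion_coeff]
  rw [h2]
  refine h1.congr fun z => ?_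
  exact eq_cuspFunction z one_ne_zero hF.1

theorem simple_E2_add_one (z : ℍ) (z' : ℍ) (h : (z' : ℂ) = z + 1) : E2 z' = E2 z := by
  rw [E2_eq_tsum_cexp, E2_eq_tsum_cexp, h]
  have : Complex.exp (2 * Real.pi * Complex.I * ((z : ℂ) + 1))
      = Complex.exp (2 * Real.pi * Complex.I * (z : ℂ)) := by
    rw [mul_add, mul_one, Complex.exp_add, Complex.exp_two_pi_mul_I, mul_one]
  rw [this]

theorem simple_qExp_E2 : QExp E2 := by
  refine ⟨?_, E2_mdifferentiable, isBoundedAtImInfty_E2⟩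
  intro w
  by_cases! hw : 0 < Complex.im w
  · have hw' : 0 < Complex.im (w + 1) := by simp [hw]
    simp only [Function.comp_apply, ofComplex_apply_of_im_pos hw', ofComplex_apply_of_im_pos hw]
    exact simple_E2_add_one ⟨w, hw⟩ ⟨w + 1, hw'⟩ rfl
  · have : Complex.im (w + 1) ≤ 0 := by simpa using hw
    simp [ofComplex_apply_of_im_nonpos this, ofComplex_apply_of_im_nonpos hw]

/-- `E₂ → 1` at `i∞`. -/
theorem simple_tendsto_E2 : Tendsto E2 atImInfty (𝓝 1) := by
  have h := simple_qExp_E2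
  have h0 := UpperHalfPlane.hasFPowerSeriesOnBall_cuspFunction (h := 1) (f := E2) one_pos
    h.analyticAt
    (c := fun m : ℕ => (if m = 0 then 1 else -24 * (ArithmeticFunction.sigma 1 m : ℂ)))
    (fun τ => by
      have := hasSum_qExpansion_E2 (z := τ)
      simpa only [Function.Periodic.qParam, Complex.ofReal_one, div_one] using this)
  have h1 := h0.coeff_zero (fun _ => 0)
  have h2 : cuspFunction 1 E2 0 = 1 := by
    rw [← h1]
    simp [FormalMultilinearSeries.ofScalars]
  have hq := qParam_tendsto_atImInfty (h := 1) one_pos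
  have hc : ContinuousAt (cuspFunction 1 E2) 0 := h.analyticAt.continuousAt
  have h3 := hc.tendsto.comp hq
  rw [h2] at h3
  refine h3.congr fun z => ?_
  exact eq_cuspFunction z one_ne_zero h.1

/-- the Serre derivative tends to `-(k/12) a₀(F)` at `i∞`. -/
theorem simple_tendsto_serre {k : ℤ} {F : ℍ → ℂ} (hF : QExp F) :
    Tendsto (serreDerivative k F) atImInfty (𝓝 (-((k : ℂ) * 12⁻¹ * (qx F).coeff 0))) := by
  have h1 := simple_tendsto_normalizedDeriv hF
  have h2 := simple_tendsto_E2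
  have h3 := simple_tendsto_coeff_zero hF
  have h4 : Tendsto (fun z => D F z - (k : ℂ) * 12⁻¹ * E2 z * F z) atImInfty
      (𝓝 (0 - (k : ℂ) * 12⁻¹ * 1 * (qx F).coeff 0)) :=
    h1.sub ((h2.const_mul _).mul h3)
  have h5 : (0 - (k : ℂ) * 12⁻¹ * 1 * (qx F).coeff 0) = -((k : ℂ) * 12⁻¹ * (qx F).coeff 0) := by
    ring
  rw [h5] at h4
  exact h4

/-- the Serre derivative of a level-one form is a level-one form. -/
theorem simple_serre_isLO {k : ℤ} {F : ℍ → ℂ} (hF : IsLO k F) :
    IsLO (k + 2) (serreDerivative k F) := by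
  refine IsLO.mk' (fun γ => ?_) (serreDerivative_mdifferentiable _ hF.mdiff) ?_
  · exact serreDerivative_slash_invariant hF.mdiff (hF.slash γ)
  · exact (simple_tendsto_serre (k := k) hF.qexp).isBigO_one ℝ

/-- in a one-dimensional space of level-one forms, a form is determined by its value at `i∞`. -/
theorem simple_eq_smul {k : ℤ} (hk : Module.finrank ℂ (ModularForm 𝒮ℒ k) = 1) {G E : ℍ → ℂ}
    (hG : IsLO k G) (hE : IsLO k E) (hE1 : Tendsto E atImInfty (𝓝 1)) {a : ℂ}
    (hGa : Tendsto G atImInfty (𝓝 a)) : G = a • E := by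
  obtain ⟨g, rfl⟩ := hG
  obtain ⟨e, rfl⟩ := hE
  have he0 : e ≠ 0 := by
    rintro rfl
    have h0 : Tendsto (⇑(0 : ModularForm 𝒮ℒ k)) atImInfty (𝓝 0) :=
      (tendsto_const_nhds : Tendsto (fun _ : ℍ => (0 : ℂ)) atImInfty (𝓝 0))
    exact zero_ne_one (tendsto_nhds_unique h0 hE1)
  obtain ⟨c, hc⟩ := (finrank_eq_one_iff_of_nonzero' e he0).mp hk g
  have h1 : Tendsto (⇑g) atImInfty (𝓝 (c * 1)) := by
    rw [← hc]
    exact hE1.const_mul c
  have hca : c = a := by
    have := tendsto_nhds_unique h1 hGa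
    simpa using this
  rw [← hca, ← hc]
  rfl

theorem simple_finrank_six : Module.finrank ℂ (ModularForm 𝒮ℒ 6) = 1 :=
  Module.rank_eq_one_iff_finrank_eq_one.mp levelOne_weight_six_rank_one

theorem simple_finrank_eight : Module.finrank ℂ (ModularForm 𝒮ℒ 8) = 1 := by
  have h := dimension_level_one 8 ⟨4, rfl⟩
  have h' : Module.rank ℂ (ModularForm 𝒮ℒ 8) = 1 := by
    simpa [Nat.ModEq] using h
  exact Module.rank_eq_one_iff_finrank_eq_one.mp h'

theorem simple_finrank_fourteen : Module.finrank ℂ (ModularForm 𝒮ℒ 14) = 1 := by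
  have h := dimension_level_one 14 ⟨7, rfl⟩
  have h' : Module.rank ℂ (ModularForm 𝒮ℒ 14) = 1 := by
    simpa [Nat.ModEq] using h
  exact Module.rank_eq_one_iff_finrank_eq_one.mp h'

theorem simple_tendsto_E4 : Tendsto (⇑E₄) atImInfty (𝓝 1) := by
  have h := simple_tendsto_coeff_zero (QExp.of_levelOne E₄)
  have h1 : (qx ⇑E₄).coeff 0 = 1 := E_qExpansion_coeff_zero _ ⟨2, rfl⟩
  rwa [h1] at h

theorem simple_tendsto_E6 : Tendsto (⇑E₆) atImInfty (𝓝 1) := by
  have h := simple_tendsto_coeff_zero (QExp.of_levelOne E₆)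
  have h1 : (qx ⇑E₆).coeff 0 = 1 := E_qExpansion_coeff_zero _ ⟨3, rfl⟩
  rwa [h1] at h

theorem simple_tendsto_discriminant : Tendsto ModularForm.discriminant atImInfty (𝓝 0) :=
  discriminant_isZeroAtImInfty

theorem simple_isLO_E4 : IsLO 4 (⇑E₄) := ⟨E₄, rfl⟩

theorem simple_isLO_E6 : IsLO 6 (⇑E₆) := ⟨E₆, rfl⟩

theorem simple_isLO_discriminant : IsLO 12 ModularForm.discriminant :=
  ⟨(CuspForm.discriminant : ModularForm 𝒮ℒ 12), rfl⟩

/-- Ramanujan: `D E₄ = (E₂ E₄ - E₆)/3`. -/
theorem simple_D_E4 (z : ℍ) : D (⇑E₄) z = 3⁻¹ * (E2 z * E₄ z - E₆ z) := by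
  have hG : IsLO 6 (serreDerivative ((4 : ℤ) : ℂ) ⇑E₄) :=
    (simple_serre_isLO simple_isLO_E4).of_eq_weight (by norm_num)
  have ha := simple_tendsto_serre (k := 4) (QExp.of_levelOne E₄)
  have h1 : (qx ⇑E₄).coeff 0 = 1 := E_qExpansion_coeff_zero _ ⟨2, rfl⟩
  rw [h1] at ha
  have h := simple_eq_smul simple_finrank_six hG simple_isLO_E6 simple_tendsto_E6 ha
  have hz := congrFun h z
  simp only [serreDerivative_apply, Pi.smul_apply, smul_eq_mul] at hz
  push_cast at hz
  linear_combination hz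

/-- Ramanujan: `D E₆ = (E₂ E₆ - E₄²)/2`. -/
theorem simple_D_E6 (z : ℍ) : D (⇑E₆) z = 2⁻¹ * (E2 z * E₆ z - E₄ z ^ 2) := by
  have hG : IsLO 8 (serreDerivative ((6 : ℤ) : ℂ) ⇑E₆) :=
    (simple_serre_isLO simple_isLO_E6).of_eq_weight (by norm_num)
  have ha := simple_tendsto_serre (k := 6) (QExp.of_levelOne E₆)
  have h1 : (qx ⇑E₆).coeff 0 = 1 := E_qExpansion_coeff_zero _ ⟨3, rfl⟩
  rw [h1] at ha
  have hE : IsLO 8 (⇑E₄ * ⇑E₄) := (simple_isLO_E4.mul simple_isLO_E4).of_eq_weight (by norm_num)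
  have hE1 : Tendsto (⇑E₄ * ⇑E₄) atImInfty (𝓝 1) := by
    have := simple_tendsto_E4.mul simple_tendsto_E4
    rw [one_mul] at this
    exact this
  have h := simple_eq_smul simple_finrank_eight hG hE hE1 ha
  have hz := congrFun h z
  simp only [serreDerivative_apply, Pi.smul_apply, smul_eq_mul, Pi.mul_apply] at hz
  push_cast at hz
  linear_combination hz

/-- Ramanujan: `D Δ = E₂ Δ`. -/
theorem simple_D_discriminant (z : ℍ) :
    D ModularForm.discriminant z = E2 z * ModularForm.discriminant z := by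
  have hG : IsLO 14 (serreDerivative ((12 : ℤ) : ℂ) ModularForm.discriminant) :=
    (simple_serre_isLO simple_isLO_discriminant).of_eq_weight (by norm_num)
  have ha := simple_tendsto_serre (k := 12) simple_isLO_discriminant.qexp
  have h1 : (qx ModularForm.discriminant).coeff 0 = 0 := by
    have := simple_tendsto_coeff_zero simple_isLO_discriminant.qexp
    exact tendsto_nhds_unique this simple_tendsto_discriminant
  rw [h1] at ha
  have hE : IsLO 14 (⇑E₄ * ⇑E₄ * ⇑E₆) :=
    ((simple_isLO_E4.mul simple_isLO_E4).mul simple_isLO_E6).of_eq_weight (by norm_num)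
  have hE1 : Tendsto (⇑E₄ * ⇑E₄ * ⇑E₆) atImInfty (𝓝 1) := by
    have := (simple_tendsto_E4.mul simple_tendsto_E4).mul simple_tendsto_E6
    rw [one_mul, one_mul] at this
    exact this
  have h := simple_eq_smul simple_finrank_fourteen hG hE hE1 ha
  have hz := congrFun h z
  simp only [serreDerivative_apply, Pi.smul_apply, smul_eq_mul, Pi.mul_apply] at hz
  push_cast at hz
  linear_combination hz

theorem Irr.isLO {w : ℤ} {F : ℍ → ℂ} (h : Irr w F) : IsLO w F := by
  cases h with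
  | E4 => exact simple_isLO_E4
  | E6 => exact simple_isLO_E6
  | F lam h0 h1 =>
    have h3 : IsLO 12 ((⇑E₄ : ℍ → ℂ) ^ 3) := by
      have := ((simple_isLO_E4.mul simple_isLO_E4).mul simple_isLO_E4).of_eq_weight
        (show (4 : ℤ) + 4 + 4 = 12 by norm_num)
      have e : (⇑E₄ : ℍ → ℂ) ^ 3 = ⇑E₄ * ⇑E₄ * ⇑E₄ := by ring
      rw [e]
      exact this
    rw [sub_eq_add_neg]
    exact h3.add (simple_isLO_discriminant.smul lam).neg

theorem Irr.tendsto {w : ℤ} {F : ℍ → ℂ} (h : Irr w F) : Tendsto F atImInfty (𝓝 1) := by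
  cases h with
  | E4 => exact simple_tendsto_E4
  | E6 => exact simple_tendsto_E6
  | F lam h0 h1 =>
    have h3 := (simple_tendsto_E4.pow 3).sub (simple_tendsto_discriminant.const_mul lam)
    have e : ((1 : ℂ) ^ 3 - lam * 0) = 1 := by ring
    rw [e] at h3
    exact h3

/-- the value of `D F` at a zero of an irreducible form. -/
theorem simple_D_of_apply_eq_zero {w : ℤ} {F : ℍ → ℂ} (h : Irr w F) {z : ℍ} (hz : F z = 0) :
    D F z ≠ 0 := by
  have hΔ : ModularForm.discriminant z ≠ 0 := discriminant_ne_zero z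
  have hΔeq := discriminant_eq_E₄_cube_sub_E₆_sq z
  cases h with
  | E4 =>
    rw [simple_D_E4, hz]
    have h6 : E₆ z ≠ 0 := by
      intro h6
      apply hΔ
      rw [hΔeq, hz, h6]
      ring
    simpa using h6
  | E6 =>
    rw [simple_D_E6, hz]
    have h4 : E₄ z ≠ 0 := by
      intro h4
      apply hΔ
      rw [hΔeq, hz, h4]
      ring
    simpa using h4
  | F lam h0 h1 =>
    have hE4 : MDiff (⇑E₄ : ℍ → ℂ) := simple_isLO_E4.mdiff
    have hD : MDiff (ModularForm.discriminant : ℍ → ℂ) := simple_isLO_discriminant.mdiff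
    have hE43 : MDiff ((⇑E₄ : ℍ → ℂ) ^ 3) := by
      have e : (⇑E₄ : ℍ → ℂ) ^ 3 = ⇑E₄ * ⇑E₄ * ⇑E₄ := by ring
      rw [e]
      exact (hE4.mul hE4).mul hE4
    have hz' : E₄ z ^ 3 - lam * ModularForm.discriminant z = 0 := hz
    have hDF : D ((⇑E₄ : ℍ → ℂ) ^ 3 - lam • (ModularForm.discriminant : ℍ → ℂ)) z
        = 3 * E₄ z ^ 2 * D (⇑E₄) z - lam * D ModularForm.discriminant z := by
      rw [normalizedDerivOfComplex_sub _ _ hE43 (hD.const_smul lam),
        normalizedDerivOfComplex_pow _ _ hE4, normalizedDerivOfComplex_smul _ _ hD]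
      simp
    rw [hDF, simple_D_E4, simple_D_discriminant]
    have h4 : E₄ z ≠ 0 := by
      intro h4
      rw [h4] at hz'
      have : lam * ModularForm.discriminant z = 0 := by linear_combination -hz'
      exact (mul_ne_zero h0 hΔ) this
    have h6 : E₆ z ≠ 0 := by
      intro h6
      rw [h6] at hΔeq
      have : (lam - 1728) * ModularForm.discriminant z = 0 := by
        linear_combination -hz' - 1728 * hΔeq
      exact (mul_ne_zero (sub_ne_zero.mpr h1) hΔ) this
    have e : 3 * E₄ z ^ 2 * (3⁻¹ * (E2 z * E₄ z - E₆ z)) - lam * (E2 z * ModularForm.discriminant z)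
        = - (E₄ z ^ 2 * E₆ z) := by
      linear_combination E2 z * hz'
    rw [e]
    exact neg_ne_zero.mpr (mul_ne_zero (pow_ne_zero 2 h4) h6)

/-- the zeros are simple -/
theorem Irr.deriv_ne_zero {w : ℤ} {F : ℍ → ℂ} (h : Irr w F) {z : ℍ} (hz : F z = 0) :
    deriv (F ∘ ofComplex) z ≠ 0 := by
  intro h0
  apply simple_D_of_apply_eq_zero h hz
  simp [normalizedDerivOfComplex, h0]

end Fermat.Agent.S20Lib
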