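/-
S20, chunk A (helper7): level-one facts.
* `pdim_*`: the dimensions of the level-one spaces (closed form `pdim_eq`).
* `Irr.exists_eq_mul_levelOne`: a level-one form vanishing at a zero `z` of an irreducible form
  `F` is divisible by `F` in the ring of level-one forms (dimension count).
* `exists_irr_apply_eq_zero`: every point of `ℍ` is a zero of an irreducible form.
* `exists_factorization`: every nonzero level-one form is `c • Δ ^ m * ∏ F_r`, `F_r` irreducible.
-/
import Fermat.Agent.Lib.S20.Basic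
import Fermat.Agent.Lib.S20.Simple

set_option autoImplicit false

namespace Fermat.Agent.S20Lib

open UpperHalfPlane ModularForm CongruenceSubgroup MatrixGroups Filter Matrix.SpecialLinearGroup
open SlashInvariantForm EisensteinSeries
open scoped Manifold Topology
open Fermat.Agent.LibS23

section A

/-! ### dimensions -/

theorem pdim_of_neg {m : ℤ} (h : m < 0) : pdim m = 0 := by
  unfold pdim
  exact Module.finrank_eq_zero_of_rank_eq_zero (ModularForm.levelOne_neg_weight_rank_zero h)

theorem pdim_of_odd {m : ℤ} (h : Odd m) : pdim m = 0 := by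
  unfold pdim
  exact Module.finrank_eq_zero_of_rank_eq_zero (ModularForm.levelOne_odd_weight_rank_zero h)

theorem pdim_natCast_even (k : ℕ) (hk : Even k) :
    pdim (k : ℤ) = if k % 12 = 2 then k / 12 else k / 12 + 1 := by
  unfold pdim
  have h := ModularForm.dimension_level_one k hk
  rw [Module.finrank, h]
  simp only [Nat.ModEq]
  split_ifs <;> simp

/-- closed form of the dimension of the level-one spaces, for all integer weights -/
theorem pdim_eq (k : ℤ) :
    pdim k = if k < 0 ∨ k % 2 = 1 then 0 else if k % 12 = 2 then (k / 12).toNat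
      else (k / 12).toNat + 1 := by
  split_ifs with h1 h2
  · rcases h1 with h | h
    · exact pdim_of_neg h
    · exact pdim_of_odd (Int.odd_iff.mpr h)
  · have h0 : 0 ≤ k := by omega
    have hev : Even k := Int.even_iff.mpr (by omega)
    lift k to ℕ using h0
    rw [pdim_natCast_even k (by exact_mod_cast hev)]
    have : k % 12 = 2 := by omega
    rw [if_pos this]
    omega
  · have h0 : 0 ≤ k := by omega
    have hev : Even k := Int.even_iff.mpr (by omega)
    lift k to ℕ using h0
    rw [pdim_natCast_even k (by exact_mod_cast hev)]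
    have : ¬ k % 12 = 2 := by omega
    rw [if_neg this]
    omega

theorem pdim_zero : pdim 0 = 1 := by
  rw [pdim_eq]; norm_num

theorem pdim_two : pdim 2 = 0 := by
  rw [pdim_eq]; norm_num

theorem pdim_sub_twelve {m : ℤ} (h0 : 0 ≤ m) (he : Even m) (h2 : m ≠ 2) :
    pdim m = pdim (m - 12) + 1 := by
  have he' : m % 2 = 0 := Int.even_iff.mp he
  rw [pdim_eq m, pdim_eq (m - 12)]
  split_ifs <;> omega

/-! ### divisibility in the ring of level-one forms -/

theorem isLO_pow {k : ℤ} {F : ℍ → ℂ} (hF : IsLO k F) (n : ℕ) : IsLO (n * k) (F ^ n) := by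
  induction n with
  | zero => simpa using IsLO.one
  | succ n ih =>
    rw [pow_succ]
    exact (ih.mul hF).of_eq_weight (by push_cast; ring)

/-- a nonzero level-one form has nonnegative weight -/
theorem isLO_weight_nonneg {w : ℤ} {D : ℍ → ℂ} (hD : IsLO w D) (hD0 : D ≠ 0) : 0 ≤ w := by
  by_contra hw
  obtain ⟨G, rfl⟩ := hD
  exact hD0 (ModularFormClass.levelOne_neg_weight_eq_zero (not_le.mp hw) G)

/-- multiplication by a level-one form, as a linear map between level-one spaces -/
noncomputable def levelOneMul {wF : ℤ} (F0 : ModularForm 𝒮ℒ wF) (w : ℤ) :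
    ModularForm 𝒮ℒ (w - wF) →ₗ[ℂ] ModularForm 𝒮ℒ w where
  toFun g := ModularForm.mcast (show wF + (w - wF) = w by ring) (F0.mul g)
  map_add' g1 g2 := by
    ext z
    change F0 z * (g1 z + g2 z) = F0 z * g1 z + F0 z * g2 z
    ring
  map_smul' c g := by
    ext z
    change F0 z * (c * g z) = c * (F0 z * g z)
    ring

theorem coe_levelOneMul {wF : ℤ} (F0 : ModularForm 𝒮ℒ wF) (w : ℤ)
    (g : ModularForm 𝒮ℒ (w - wF)) : (⇑(levelOneMul F0 w g) : ℍ → ℂ) = ⇑F0 * ⇑g := rfl

theorem levelOneMul_injective {wF : ℤ} (F0 : ModularForm 𝒮ℒ wF) (hF0 : (⇑F0 : ℍ → ℂ) ≠ 0)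
    (w : ℤ) : Function.Injective (levelOneMul F0 w) := by
  rw [injective_iff_map_eq_zero]
  intro g hg
  have h1 : (⇑F0 : ℍ → ℂ) * ⇑g = 0 := by
    rw [← coe_levelOneMul, hg]
    rfl
  have h2 := basic_eq_zero_of_mul_eq_zero F0.holo' g.holo' hF0 h1
  ext z
  exact congrFun h2 z

/-- evaluation at a point, as a linear form on a level-one space -/
noncomputable def levelOneEval (w : ℤ) (z : ℍ) : ModularForm 𝒮ℒ w →ₗ[ℂ] ℂ where
  toFun g := g z
  map_add' _ _ := rfl
  map_smul' _ _ := rfl

/-- the dimension count: if `F` vanishes at `z` and either `dim M_w = dim M_{w - wt F}`, or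
`dim M_w ≤ dim M_{w - wt F} + 1` and some form of weight `w` does not vanish at `z`, then every
form of weight `w` vanishing at `z` is divisible by `F`. -/
theorem levelOne_exists_eq_mul_of_dim {wF w : ℤ} {F : ℍ → ℂ} (hF : IsLO wF F) (hF0 : F ≠ 0)
    {z : ℍ} (hz : F z = 0)
    (hdim : pdim w = pdim (w - wF) ∨ (pdim w ≤ pdim (w - wF) + 1 ∧ ∃ h, IsLO w h ∧ h z ≠ 0))
    {f : ℍ → ℂ} (hf : IsLO w f) (hfz : f z = 0) : ∃ g, IsLO (w - wF) g ∧ f = F * g := by
  obtain ⟨F0, rfl⟩ := hF
  obtain ⟨f0, rfl⟩ := hf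
  have hinj := levelOneMul_injective F0 hF0 w
  have hrank : Module.finrank ℂ (LinearMap.range (levelOneMul F0 w)) = pdim (w - wF) :=
    LinearMap.finrank_range_of_inj hinj
  have hle : LinearMap.range (levelOneMul F0 w) ≤ LinearMap.ker (levelOneEval w z) := by
    rintro _ ⟨g, rfl⟩
    rw [LinearMap.mem_ker]
    change F0 z * g z = 0
    rw [hz, zero_mul]
  have hmem : f0 ∈ LinearMap.range (levelOneMul F0 w) := by
    rcases hdim with hd | ⟨hd, h, hh, hhz⟩
    · have : LinearMap.range (levelOneMul F0 w) = ⊤ :=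
        Submodule.eq_top_of_finrank_eq (by rw [hrank, ← hd]; rfl)
      rw [this]
      exact Submodule.mem_top
    · obtain ⟨h0, rfl⟩ := hh
      have hsurj : LinearMap.range (levelOneEval w z) = ⊤ := by
        rw [LinearMap.range_eq_top]
        intro c
        refine ⟨(c / h0 z) • h0, ?_⟩
        change c / h0 z * h0 z = c
        field_simp
      have hrn := LinearMap.finrank_range_add_finrank_ker (levelOneEval w z)
      rw [hsurj, finrank_top, Module.finrank_self] at hrn
      have hker : Module.finrank ℂ (LinearMap.ker (levelOneEval w z)) ≤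
          Module.finrank ℂ (LinearMap.range (levelOneMul F0 w)) := by
        rw [hrank]
        have : Module.finrank ℂ (ModularForm 𝒮ℒ w) = pdim w := rfl
        omega
      have := Submodule.eq_of_le_of_finrank_le hle hker
      rw [this, LinearMap.mem_ker]
      exact hfz
  obtain ⟨g, hg⟩ := hmem
  refine ⟨⇑g, ⟨g, rfl⟩, ?_⟩
  rw [← hg]
  rfl

theorem levelOne_E6_ne_zero {z : ℍ} (h : E₄ z = 0) : E₆ z ≠ 0 := by
  intro h6
  have h1 := ModularForm.discriminant_eq_E₄_cube_sub_E₆_sq z
  rw [h, h6] at h1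
  exact ModularForm.discriminant_ne_zero z (by rw [h1]; norm_num)

theorem levelOne_E4_ne_zero {z : ℍ} (h : E₆ z = 0) : E₄ z ≠ 0 := by
  intro h4
  exact levelOne_E6_ne_zero h4 h

theorem Irr.weight_pos {w : ℤ} {F : ℍ → ℂ} (h : Irr w F) : 0 < w := by
  cases h <;> norm_num

theorem Irr.ne_zero {w : ℤ} {F : ℍ → ℂ} (h : Irr w F) : F ≠ 0 := by
  intro h0
  have h1 := h.tendsto
  rw [h0] at h1
  have h2 : Tendsto (fun _ : ℍ => (0 : ℂ)) atImInfty (𝓝 1) := h1
  exact zero_ne_one (tendsto_const_nhds_iff.mp h2)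

/-- **division by an irreducible form in level one**: a level-one form vanishing at a zero of
the irreducible form `F` is divisible by `F`. -/
theorem Irr.exists_eq_mul_levelOne {wF : ℤ} {F : ℍ → ℂ} (hF : Irr wF F) {z : ℍ} (hz : F z = 0)
    {w : ℤ} {f : ℍ → ℂ} (hf : IsLO w f) (hfz : f z = 0) :
    ∃ g, IsLO (w - wF) g ∧ f = F * g := by
  refine levelOne_exists_eq_mul_of_dim hF.isLO hF.ne_zero hz ?_ hf hfz
  cases hF with
  | E4 =>
    have h6 : E₆ z ≠ 0 := levelOne_E6_ne_zero hz
    by_cases hw : 0 ≤ w ∧ w % 6 = 0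
    · right
      refine ⟨?_, (⇑E₆ : ℍ → ℂ) ^ (w / 6).toNat, ?_, ?_⟩
      · rw [pdim_eq w, pdim_eq (w - 4)]
        split_ifs <;> omega
      · exact (isLO_pow simple_isLO_E6 _).of_eq_weight (by omega)
      · exact pow_ne_zero _ h6
    · left
      rw [pdim_eq w, pdim_eq (w - 4)]
      split_ifs <;> omega
  | E6 =>
    have h4 : E₄ z ≠ 0 := levelOne_E4_ne_zero hz
    by_cases hw : 0 ≤ w ∧ w % 4 = 0
    · right
      refine ⟨?_, (⇑E₄ : ℍ → ℂ) ^ (w / 4).toNat, ?_, ?_⟩
      · rw [pdim_eq w, pdim_eq (w - 6)]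
        split_ifs <;> omega
      · exact (isLO_pow simple_isLO_E4 _).of_eq_weight (by omega)
      · exact pow_ne_zero _ h4
    · left
      rw [pdim_eq w, pdim_eq (w - 6)]
      split_ifs <;> omega
  | F lam h0 h1 =>
    have hz' : E₄ z ^ 3 - lam * ModularForm.discriminant z = 0 := by
      simpa using hz
    have hΔ := ModularForm.discriminant_ne_zero z
    have hΔeq := ModularForm.discriminant_eq_E₄_cube_sub_E₆_sq z
    have h4 : E₄ z ≠ 0 := by
      intro h4
      rw [h4] at hz'
      have : lam * ModularForm.discriminant z = 0 := by linear_combination -hz'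
      rcases mul_eq_zero.mp this with h | h
      · exact h0 h
      · exact hΔ h
    have h6 : E₆ z ≠ 0 := by
      intro h6
      rw [h6] at hΔeq
      have : (lam - 1728) * ModularForm.discriminant z = 0 := by
        linear_combination -hz' - 1728 * hΔeq
      rcases mul_eq_zero.mp this with h | h
      · exact h1 (by linear_combination h)
      · exact hΔ h
    by_cases hw : 0 ≤ w ∧ w % 2 = 0 ∧ w ≠ 2
    · right
      refine ⟨?_, ?_⟩
      · rw [pdim_eq w, pdim_eq (w - 12)]
        split_ifs <;> omega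
      · by_cases hw4 : w % 4 = 0
        · refine ⟨(⇑E₄ : ℍ → ℂ) ^ (w / 4).toNat, ?_, ?_⟩
          · exact (isLO_pow simple_isLO_E4 _).of_eq_weight (by omega)
          · exact pow_ne_zero _ h4
        · refine ⟨(⇑E₄ : ℍ → ℂ) ^ ((w - 6) / 4).toNat * ⇑E₆, ?_, ?_⟩
          · exact ((isLO_pow simple_isLO_E4 _).mul simple_isLO_E6).of_eq_weight (by omega)
          · exact mul_ne_zero (pow_ne_zero _ h4) h6
    · left
      rw [pdim_eq w, pdim_eq (w - 12)]
      split_ifs <;> omega

/-- every point of `ℍ` is a zero of an irreducible form -/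
theorem exists_irr_apply_eq_zero (z : ℍ) : ∃ (w : ℤ) (F : ℍ → ℂ), Irr w F ∧ F z = 0 := by
  by_cases h4 : E₄ z = 0
  · exact ⟨4, _, Irr.E4, h4⟩
  by_cases h6 : E₆ z = 0
  · exact ⟨6, _, Irr.E6, h6⟩
  have hΔ := ModularForm.discriminant_ne_zero z
  have hΔeq := ModularForm.discriminant_eq_E₄_cube_sub_E₆_sq z
  refine ⟨12, _, Irr.F (E₄ z ^ 3 / ModularForm.discriminant z) ?_ ?_, ?_⟩
  · exact div_ne_zero (pow_ne_zero _ h4) hΔ
  · intro h
    rw [div_eq_iff hΔ] at h
    apply h6
    have : E₆ z ^ 2 = 0 := by linear_combination h + 1728 * hΔeq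
    exact pow_eq_zero_iff (two_ne_zero) |>.mp this
  · simp only [Pi.sub_apply, Pi.pow_apply, Pi.smul_apply, smul_eq_mul]
    field_simp
    ring

/-! ### factorisation -/

/-- a level-one form without zeros on `ℍ` and with nonzero constant term is a nonzero
constant (of weight `0`) -/
theorem levelOne_const_of_no_zero {w : ℤ} {D : ℍ → ℂ} (hD : IsLO w D) (hne : ∀ z, D z ≠ 0)
    (h0 : (qx D).coeff 0 ≠ 0) : ∃ c : ℂ, c ≠ 0 ∧ D = fun _ => c := by
  have hD0 : D ≠ 0 := fun h => hne I (by rw [h]; rfl)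
  have hw0 : 0 ≤ w := isLO_weight_nonneg hD hD0
  -- `1 / D` is a level-one form of weight `-w`
  have hinv : IsLO (-w) (1 / D) := by
    refine IsLO.mk' (fun γ => ?_) ?_ ?_
    · have h1 := ModularForm.div_slash_SL2 0 w γ 1 D
      rw [zero_sub] at h1
      have h2 : D ∣[w] γ = D := hD.slash γ
      have h3 : (1 : ℍ → ℂ) ∣[(0 : ℤ)] γ = 1 := ModularForm.is_invariant_one γ
      rw [h2, h3] at h1
      exact h1
    · have : MDiff (fun z => (1 : ℂ) / D z) :=
        MDifferentiable.div mdifferentiable_const hD.mdiff hne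
      exact this
    · have h1 := simple_tendsto_coeff_zero hD.qexp
      have h2 : Tendsto (1 / D) atImInfty (𝓝 (1 / (qx D).coeff 0)) := by
        have := (tendsto_const_nhds (x := (1 : ℂ))).div h1 h0
        exact this
      exact h2.isBigO_one ℝ
  have hw : w = 0 := by
    by_contra hw
    have hneg : -w < 0 := by omega
    obtain ⟨G, hG⟩ := hinv
    have := ModularFormClass.levelOne_neg_weight_eq_zero hneg G
    rw [hG] at this
    have h1 := congrFun this I
    simp only [Pi.div_apply, Pi.one_apply, Pi.zero_apply, one_div, inv_eq_zero] at h1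
    exact hne I h1
  subst hw
  obtain ⟨G, rfl⟩ := hD
  obtain ⟨c, hc⟩ := ModularFormClass.levelOne_weight_zero_const G
  refine ⟨c, ?_, hc⟩
  intro hc0
  apply hne I
  rw [hc, hc0]
  rfl

/-- a level-one form with vanishing constant term is divisible by `Δ` -/
theorem levelOne_exists_eq_discriminant_mul {w : ℤ} {D : ℍ → ℂ} (hD : IsLO w D)
    (h0 : (qx D).coeff 0 = 0) : ∃ g, IsLO (w - 12) g ∧ D = ModularForm.discriminant * g := by
  obtain ⟨D0, rfl⟩ := hD
  refine ⟨⇑(CuspForm.discriminantEquiv (ModularForm.toCuspForm D0 h0)), ⟨_, rfl⟩, ?_⟩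
  rw [ModularForm.discriminant_mul_discriminantEquiv]
  rfl

theorem exists_factorization_aux (n : ℕ) : ∀ {w : ℤ} {D : ℍ → ℂ}, w.toNat = n → IsLO w D →
    D ≠ 0 → ∃ (m : ℕ) (L : List (ℤ × (ℍ → ℂ))) (c : ℂ), c ≠ 0 ∧ (∀ p ∈ L, Irr p.1 p.2) ∧
      D = c • (ModularForm.discriminant ^ m * (L.map Prod.snd).prod) := by
  induction n using Nat.strong_induction_on with
  | _ n ih =>
  intro w D hwn hD hD0
  have hw0 : 0 ≤ w := isLO_weight_nonneg hD hD0
  by_cases hz : ∃ z, D z = 0
  · obtain ⟨z, hz⟩ := hz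
    obtain ⟨wF, F, hF, hFz⟩ := exists_irr_apply_eq_zero z
    obtain ⟨g, hg, hDg⟩ := hF.exists_eq_mul_levelOne hFz hD hz
    have hg0 : g ≠ 0 := by
      intro h
      apply hD0
      rw [hDg, h, mul_zero]
    have hgw : 0 ≤ w - wF := isLO_weight_nonneg hg hg0
    have hpos := hF.weight_pos
    obtain ⟨m, L, c, hc, hL, hgeq⟩ := ih (w - wF).toNat (by omega) rfl hg hg0
    refine ⟨m, (wF, F) :: L, c, hc, ?_, ?_⟩
    · intro p hp
      rcases List.mem_cons.mp hp with rfl | hp
      · exact hF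
      · exact hL p hp
    · rw [hDg, hgeq, List.map_cons, List.prod_cons]
      ext x
      simp only [Pi.mul_apply, Pi.smul_apply, smul_eq_mul, Pi.pow_apply]
      ring
  · have hne : ∀ z, D z ≠ 0 := fun z hz' => hz ⟨z, hz'⟩
    by_cases h0 : (qx D).coeff 0 = 0
    · obtain ⟨g, hg, hDg⟩ := levelOne_exists_eq_discriminant_mul hD h0
      have hg0 : g ≠ 0 := by
        intro h
        apply hD0
        rw [hDg, h, mul_zero]
      have hgw : 0 ≤ w - 12 := isLO_weight_nonneg hg hg0
      obtain ⟨m, L, c, hc, hL, hgeq⟩ := ih (w - 12).toNat (by omega) rfl hg hg0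
      refine ⟨m + 1, L, c, hc, hL, ?_⟩
      rw [hDg, hgeq]
      ext x
      simp only [Pi.mul_apply, Pi.smul_apply, smul_eq_mul, Pi.pow_apply]
      ring
    · obtain ⟨c, hc, hDc⟩ := levelOne_const_of_no_zero hD hne h0
      refine ⟨0, [], c, hc, by simp, ?_⟩
      rw [hDc]
      ext x
      simp

theorem exists_factorization {w : ℤ} {D : ℍ → ℂ} (hD : IsLO w D) (hD0 : D ≠ 0) :
    ∃ (m : ℕ) (L : List (ℤ × (ℍ → ℂ))) (c : ℂ), c ≠ 0 ∧ (∀ p ∈ L, Irr p.1 p.2) ∧
      D = c • (ModularForm.discriminant ^ m * (L.map Prod.snd).prod) :=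
  exists_factorization_aux w.toNat rfl hD hD0

end A

end Fermat.Agent.S20Lib
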