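/-
S20: the structure of homogeneous generators of `M_*(Γ₀(N))` over the level-one forms
(helper1).  Existence: `Lib/S20/Gens.lean`.
-/
import Fermat.Agent.Lib.S20.Defs

set_option autoImplicit false

namespace Fermat.Agent.S20Lib

open UpperHalfPlane ModularForm CongruenceSubgroup MatrixGroups Filter Matrix.SpecialLinearGroup
open SlashInvariantForm EisensteinSeries
open scoped Manifold Topology
open Fermat.Agent.LibS23

/-- homogeneous generators of `M_*(Γ₀(N))` over the level-one forms, indexed by `Q N`. -/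
structure Gens (N : ℕ) [NeZero N] where
  wt : Q N → ℤ
  b : ∀ j : Q N, ModularForm (Gamma0 N) (wt j)
  gen : ∀ (k : ℤ) (f : ModularForm (Gamma0 N) k), ∃ a : Q N → ℍ → ℂ,
    (∀ j, IsLO (k - wt j) (a j)) ∧ (⇑f : ℍ → ℂ) = ∑ j, a j * ⇑(b j)

end Fermat.Agent.S20Lib
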