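/-
S20, chunk E1 (helper4): eigenvalue counts at the elliptic points `i` and `ρ`.

If `γ ∈ SL(2, ℤ)` fixes `z₀ ∈ ℍ` and the matrix `B(z₀) = (quotientFunc (b j) q z₀)_{j, q}` of
conjugates of the generators is invertible, then `diag(ε ^ (-wt j)) * B(z₀) = B(z₀) * P`, where
`ε = denom γ z₀` and `P` is the permutation matrix of `(toSL γ)⁻¹` on `Q N`; taking traces,
`∑ j, ε ^ (-wt j) = #Fix(toSL γ)`.  Applied to `γ = S`, `z₀ = i` (`ε = i`) and `γ = S T`,
`z₀ = ρ` (`ε = ρ + 1 = e^{π i / 3}`).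

The statements here take the invertibility of `B(z₀)` as a hypothesis (chunk D provides it as
`Gens.det_apply_ne_zero`).
-/
import Mathlib
import Fermat.Agent.Lib.S20.GensDef

set_option autoImplicit false

namespace Fermat.Agent.S20Lib

open UpperHalfPlane ModularForm CongruenceSubgroup MatrixGroups Filter Matrix.SpecialLinearGroup
open SlashInvariantForm
open scoped Manifold Topology
open Fermat.Agent.LibS23

section

variable {N : ℕ} [NeZero N]

/-- conjugates at a fixed point of `γ` -/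
theorem elliptic_quotientFunc_fix {k : ℤ} (f : ModularForm (Gamma0 N) k) (γ : SL(2, ℤ)) (z₀ : ℍ)
    (hz : γ • z₀ = z₀) (q : Q N) :
    quotientFunc f ((toSL γ)⁻¹ • q) z₀ = quotientFunc f q z₀ * denom γ z₀ ^ (-k) := by
  have h := (fam_quotientFunc f).slash (toSL γ) q
  have h2 : (quotientFunc f q ∣[k] γ) z₀ = quotientFunc f ((toSL γ)⁻¹ • q) z₀ := by
    rw [ModularForm.SL_slash]
    exact congrFun h z₀
  rw [← h2, ModularForm.SL_slash_apply, hz]

/-- the trace identity at a fixed point -/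
theorem Gens.sum_fix_of_det (G : Gens N) (γ : SL(2, ℤ)) (z₀ : ℍ) (hz : γ • z₀ = z₀)
    (hdet : (Matrix.of fun j q : Q N => quotientFunc (G.b j) q z₀).det ≠ 0) :
    ∑ j, denom γ z₀ ^ (-G.wt j) = (Nat.card {q : Q N // toSL γ • q = q} : ℂ) := by
  classical
  set M : Matrix (Q N) (Q N) ℂ := Matrix.of fun j q : Q N => quotientFunc (G.b j) q z₀ with hM
  set σ : Q N → Q N := fun q => (toSL γ)⁻¹ • q with hσ
  set D : Matrix (Q N) (Q N) ℂ := Matrix.diagonal fun j => denom γ z₀ ^ (-G.wt j) with hD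
  set P : Matrix (Q N) (Q N) ℂ := Matrix.of fun q' q : Q N => if q' = σ q then (1 : ℂ) else 0
    with hP
  have hrel : D * M = M * P := by
    ext j q
    rw [hD, Matrix.diagonal_mul, Matrix.mul_apply]
    simp only [hP, hM, Matrix.of_apply, mul_ite, mul_one, mul_zero, Finset.sum_ite_eq',
      Finset.mem_univ, if_true]
    rw [hσ]
    show _ = quotientFunc (G.b j) ((toSL γ)⁻¹ • q) z₀
    rw [elliptic_quotientFunc_fix (G.b j) γ z₀ hz q, mul_comm]
  have hu : IsUnit M.det := isUnit_iff_ne_zero.mpr hdet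
  have hDeq : D = M * P * M⁻¹ := by
    rw [← hrel, Matrix.mul_assoc, Matrix.mul_nonsing_inv M hu, Matrix.mul_one]
  have htr : Matrix.trace D = Matrix.trace P := by
    rw [hDeq, Matrix.trace_mul_comm, ← Matrix.mul_assoc, Matrix.nonsing_inv_mul M hu,
      Matrix.one_mul]
  have htrD : Matrix.trace D = ∑ j, denom γ z₀ ^ (-G.wt j) := by
    rw [hD, Matrix.trace_diagonal]
  have htrP : Matrix.trace P = (Nat.card {q : Q N // toSL γ • q = q} : ℂ) := by
    rw [Matrix.trace]
    simp only [Matrix.diag_apply, hP, Matrix.of_apply]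
    rw [Finset.sum_boole, Nat.card_eq_fintype_card, Fintype.card_subtype]
    congr 2
    ext q
    simp only [Finset.mem_filter, Finset.mem_univ, true_and, hσ]
    rw [eq_comm, inv_smul_eq_iff, eq_comm]
  rw [← htrD, htr, htrP]

/-! ### The point `i` -/

theorem elliptic_S_smul_I : ModularGroup.S • (UpperHalfPlane.I : ℍ) = UpperHalfPlane.I := by
  rw [UpperHalfPlane.modular_S_smul]
  apply UpperHalfPlane.ext
  simp

theorem elliptic_denom_S_I : denom ModularGroup.S (UpperHalfPlane.I : ℍ) = Complex.I := by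
  simp [denom, ModularGroup.S]

theorem Gens.sum_S_of_det (G : Gens N)
    (hdet : ∀ z : ℍ, (Matrix.of fun j q : Q N => quotientFunc (G.b j) q z).det ≠ 0) :
    ∑ j, Complex.I ^ (-G.wt j) = (Nat.card {q : Q N // sS • q = q} : ℂ) := by
  have h := G.sum_fix_of_det ModularGroup.S UpperHalfPlane.I elliptic_S_smul_I (hdet _)
  rw [elliptic_denom_S_I] at h
  exact h

/-! ### The point `ρ` -/

/-- `η = e^{π i / 3}` -/
theorem elliptic_eta_eq :
    Complex.exp (Real.pi * Complex.I / 3) = 1 / 2 + (Real.sqrt 3 / 2 : ℝ) * Complex.I := by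
  have h : (Real.pi : ℂ) * Complex.I / 3 = ((Real.pi / 3 : ℝ) : ℂ) * Complex.I := by
    push_cast; ring
  rw [h, Complex.exp_mul_I, ← Complex.ofReal_cos, ← Complex.ofReal_sin, Real.cos_pi_div_three,
    Real.sin_pi_div_three]
  push_cast
  ring

theorem elliptic_eta_sq :
    Complex.exp (Real.pi * Complex.I / 3) ^ 2 - Complex.exp (Real.pi * Complex.I / 3) + 1 = 0 := by
  rw [elliptic_eta_eq]
  have h3 : ((Real.sqrt 3 : ℝ) : ℂ) ^ 2 = 3 := by
    rw [← Complex.ofReal_pow, Real.sq_sqrt (by norm_num : (0 : ℝ) ≤ 3)]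
    norm_num
  push_cast
  linear_combination ((Real.sqrt 3 : ℂ) ^ 2 / 4) * Complex.I_sq + (-1 / 4 : ℂ) * h3

theorem elliptic_rho_im_pos : 0 < (Complex.exp (Real.pi * Complex.I / 3) - 1).im := by
  rw [elliptic_eta_eq]
  simp

/-- the elliptic point `ρ = e^{2 π i / 3} = e^{π i / 3} - 1` -/
noncomputable def ellipticRho : ℍ :=
  ⟨Complex.exp (Real.pi * Complex.I / 3) - 1, elliptic_rho_im_pos⟩

theorem elliptic_coe_rho :
    ((ellipticRho : ℍ) : ℂ) = Complex.exp (Real.pi * Complex.I / 3) - 1 := rfl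

theorem elliptic_ST_entries :
    (ModularGroup.S * ModularGroup.T) 0 0 = 0 ∧ (ModularGroup.S * ModularGroup.T) 0 1 = -1 ∧
      (ModularGroup.S * ModularGroup.T) 1 0 = 1 ∧ (ModularGroup.S * ModularGroup.T) 1 1 = 1 := by
  decide

theorem elliptic_denom_ST_rho :
    denom (ModularGroup.S * ModularGroup.T : SL(2, ℤ)) ellipticRho
      = Complex.exp (Real.pi * Complex.I / 3) := by
  obtain ⟨-, -, h10, h11⟩ := elliptic_ST_entries
  rw [ModularGroup.denom_apply, h10, h11, elliptic_coe_rho]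
  push_cast
  ring

theorem elliptic_ST_smul_rho :
    (ModularGroup.S * ModularGroup.T) • ellipticRho = ellipticRho := by
  apply UpperHalfPlane.ext
  rw [UpperHalfPlane.coe_specialLinearGroup_apply]
  obtain ⟨h00, h01, h10, h11⟩ := elliptic_ST_entries
  rw [h00, h01, h10, h11, elliptic_coe_rho]
  have hη := elliptic_eta_sq
  have hne : Complex.exp (Real.pi * Complex.I / 3) ≠ 0 := Complex.exp_ne_zero _
  simp only [algebraMap_int_eq, Int.coe_castRingHom, Int.cast_zero, Int.cast_neg, Int.cast_one,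
    Complex.ofReal_zero, Complex.ofReal_neg, Complex.ofReal_one, zero_mul, zero_add, one_mul,
    sub_add_cancel]
  rw [div_eq_iff hne]
  linear_combination -hη

theorem Gens.sum_U_of_det (G : Gens N)
    (hdet : ∀ z : ℍ, (Matrix.of fun j q : Q N => quotientFunc (G.b j) q z).det ≠ 0) :
    ∑ j, Complex.exp (Real.pi * Complex.I / 3) ^ (-G.wt j) =
      (Nat.card {q : Q N // sU • q = q} : ℂ) := by
  have h := G.sum_fix_of_det (ModularGroup.S * ModularGroup.T) ellipticRho elliptic_ST_smul_rho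
    (hdet _)
  have hd := elliptic_denom_ST_rho
  rw [hd] at h
  exact h

end

end Fermat.Agent.S20Lib
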