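/-
S20, chunk A (analytic part, helper8): division by a holomorphic function with simple zeros.
If `F`, `h` are holomorphic on `ℍ`, all zeros of `F` are simple and `h` vanishes at the zeros
of `F`, then `h = F * g` with `g` holomorphic.  In particular for `F` irreducible (`Irr`).
-/
import Fermat.Agent.Lib.S20.Simple

set_option autoImplicit false

namespace Fermat.Agent.S20Lib

open UpperHalfPlane ModularForm MatrixGroups Filter EisensteinSeries
open scoped Manifold Topology
open Fermat.Agent.LibS23

/-- division by a holomorphic function with simple zeros. -/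
theorem simpleDiv_exists_eq_mul {F h : ℍ → ℂ} (hF : MDiff F) (hh : MDiff h)
    (hs : ∀ z : ℍ, F z = 0 → deriv (F ∘ ofComplex) z ≠ 0)
    (h0 : ∀ z : ℍ, F z = 0 → h z = 0) : ∃ g : ℍ → ℂ, MDiff g ∧ h = F * g := by
  classical
  set f : ℂ → ℂ := F ∘ ofComplex with hf
  set hc : ℂ → ℂ := h ∘ ofComplex with hhc
  have hUo : IsOpen {z : ℂ | 0 < z.im} := isOpen_upperHalfPlaneSet
  have hfd : DifferentiableOn ℂ f {z | 0 < z.im} := UpperHalfPlane.mdifferentiable_iff.mp hF
  have hhd : DifferentiableOn ℂ hc {z | 0 < z.im} := UpperHalfPlane.mdifferentiable_iff.mp hh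
  let g : ℂ → ℂ := fun z => if f z = 0 then deriv hc z / deriv f z else hc z / f z
  have hg : ∀ z : ℂ, 0 < z.im → DifferentiableAt ℂ g z := by
    intro z hz
    have hU : {z : ℂ | 0 < z.im} ∈ 𝓝 z := hUo.mem_nhds hz
    by_cases hfz : f z = 0
    · have hFz : F ⟨z, hz⟩ = 0 := by
        simpa [hf, Function.comp_apply, ofComplex_apply_of_im_pos hz] using hfz
      have hf' : deriv f z ≠ 0 := hs ⟨z, hz⟩ hFz
      have hhz : hc z = 0 := by
        have := h0 ⟨z, hz⟩ hFz
        simpa [hhc, Function.comp_apply, ofComplex_apply_of_im_pos hz] using this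
      have hdf : DifferentiableOn ℂ (dslope f z) {z | 0 < z.im} :=
        (Complex.differentiableOn_dslope hU).mpr hfd
      have hdh : DifferentiableOn ℂ (dslope hc z) {z | 0 < z.im} :=
        (Complex.differentiableOn_dslope hU).mpr hhd
      have hdz : dslope f z z ≠ 0 := by
        rw [dslope_same]; exact hf'
      have hne : ∀ᶠ w in 𝓝 z, dslope f z w ≠ 0 :=
        ((hdf z hz).differentiableAt hU).continuousAt.eventually_ne hdz
      have heq : g =ᶠ[𝓝 z] fun w => dslope hc z w / dslope f z w := by
        filter_upwards [hne] with w hw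
        by_cases hwz : w = z
        · subst hwz
          simp [g, hfz, dslope_same]
        · have hfw : f w = (w - z) * dslope f z w := by
            have := sub_smul_dslope f z w
            rw [hfz, sub_zero, smul_eq_mul] at this
            exact this.symm
          have hhw : hc w = (w - z) * dslope hc z w := by
            have := sub_smul_dslope hc z w
            rw [hhz, sub_zero, smul_eq_mul] at this
            exact this.symm
          have hwz' : w - z ≠ 0 := sub_ne_zero.mpr hwz
          have hfw0 : f w ≠ 0 := by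
            rw [hfw]; exact mul_ne_zero hwz' hw
          simp only [g, if_neg hfw0]
          rw [hfw, hhw]
          field_simp
      have hd : DifferentiableAt ℂ (fun w => dslope hc z w / dslope f z w) z :=
        ((hdh z hz).differentiableAt hU).div ((hdf z hz).differentiableAt hU) hdz
      exact heq.differentiableAt_iff.mpr hd
    · have hne : ∀ᶠ w in 𝓝 z, f w ≠ 0 :=
        ((hfd z hz).differentiableAt hU).continuousAt.eventually_ne hfz
      have heq : g =ᶠ[𝓝 z] fun w => hc w / f w := by
        filter_upwards [hne] with w hw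
        simp [g, hw]
      exact heq.differentiableAt_iff.mpr
        (((hhd z hz).differentiableAt hU).div ((hfd z hz).differentiableAt hU) hfz)
  refine ⟨fun τ => g τ, ?_, ?_⟩
  · rw [UpperHalfPlane.mdifferentiable_iff]
    intro z hz
    refine (hg z hz).differentiableWithinAt.congr (fun w hw => ?_) ?_
    · simp [Function.comp_apply, ofComplex_apply_of_im_pos hw]
    · simp [Function.comp_apply, ofComplex_apply_of_im_pos hz]
  · ext τ
    simp only [Pi.mul_apply]
    have hfτ : f τ = F τ := by simp [hf, ofComplex_apply]
    have hhτ : hc τ = h τ := by simp [hhc, ofComplex_apply]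
    by_cases hFτ : F τ = 0
    · rw [h0 τ hFτ, hFτ, zero_mul]
    · simp only [g, hfτ, hhτ, if_neg hFτ]
      field_simp

/-- division by an irreducible level-one form. -/
theorem Irr.exists_eq_mul {w : ℤ} {F : ℍ → ℂ} (hF : Irr w F) {h : ℍ → ℂ} (hh : MDiff h)
    (h0 : ∀ z : ℍ, F z = 0 → h z = 0) : ∃ g : ℍ → ℂ, MDiff g ∧ h = F * g :=
  simpleDiv_exists_eq_mul hF.isLO.mdiff hh (fun _ hz => hF.deriv_ne_zero hz) h0

end Fermat.Agent.S20Lib
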