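/-
S20, chunk Z (helper7): basic facts on `M_k(Γ₀(N))` used by all other chunks:
finite-dimensionality, vanishing in odd / negative weight, `M_0 = ℂ`, `S_k = 0` for `k ≤ 0`,
products with level-one forms and with each other (together with the conjugates
`quotientFunc`), division by a level-one form that tends to `1` at `i∞`, and conjugates of
combinations with level-one coefficients.
-/
import Fermat.Agent.Lib.S20.Defs
import Fermat.Agent.Lib.S23.Division
import Fermat.Prelude.Thm_ModularForm_sturm_bound_Gamma0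

set_option autoImplicit false

namespace Fermat.Agent.S20Lib

open UpperHalfPlane ModularForm CongruenceSubgroup MatrixGroups Filter Matrix.SpecialLinearGroup
open SlashInvariantForm EisensteinSeries
open scoped Manifold Topology
open Fermat.Agent.LibS23

section Z
variable {N : ℕ} [NeZero N]

/-! ### finite-dimensionality -/

/-- the first `B + 1` coefficients of the `q`-expansion, as a linear map -/
noncomputable def basicCoeffMap (N : ℕ) [NeZero N] (k : ℤ) (B : ℕ) :
    ModularForm (Gamma0 N) k →ₗ[ℂ] (Fin (B + 1) → ℂ) where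
  toFun f := fun n => (qx ⇑f).coeff n
  map_add' f g := by
    ext n
    have h : (⇑(f + g) : ℍ → ℂ) = ⇑f + ⇑g := rfl
    simp [h, qx_add (QExp.of_gamma0 f) (QExp.of_gamma0 g)]
  map_smul' c f := by
    ext n
    have h : (⇑(c • f) : ℍ → ℂ) = c • ⇑f := rfl
    simp [h, qx_smul c (QExp.of_gamma0 f)]

instance instFinDimMF (k : ℤ) : FiniteDimensional ℂ (ModularForm (Gamma0 N) k) := by
  refine FiniteDimensional.of_injective
    (basicCoeffMap N k ((k * (Gamma0 N).index).toNat / 12)) ?_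
  rw [injective_iff_map_eq_zero]
  intro f hf
  refine ModularForm.sturm_bound_Gamma0 N f fun n hn => ?_
  have := congrFun hf ⟨n, by omega⟩
  exact this

instance instFinDimCF (k : ℤ) : FiniteDimensional ℂ (CuspForm (Gamma0 N) k) :=
  FiniteDimensional.of_injective (CuspForm.toModularFormₗ (Γ := Gamma0 N) (k := k))
    CuspForm.toModularFormₗ_injective

/-! ### vanishing -/

omit [NeZero N] in
theorem basic_neg_one_mem_gamma0 :
    (-1 : GL (Fin 2) ℝ) ∈ ((Gamma0 N : Subgroup SL(2, ℤ)) : Subgroup (GL (Fin 2) ℝ)) := by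
  refine ⟨-1, ?_, ?_⟩
  · show (-1 : SL(2, ℤ)) ∈ Gamma0 N
    rw [Gamma0_mem]
    simp
  · ext i j
    fin_cases i <;> fin_cases j <;> simp [mapGL]

omit [NeZero N] in
theorem basic_gamma0_le :
    ((Gamma0 N : Subgroup SL(2, ℤ)) : Subgroup (GL (Fin 2) ℝ)) ≤ 𝒮ℒ := by
  rintro x ⟨γ, -, rfl⟩
  exact ⟨γ, rfl⟩

theorem eq_zero_of_odd {k : ℤ} (hk : Odd k) (f : ModularForm (Gamma0 N) k) : f = 0 :=
  ModularForm.eq_zero_of_neg_one_mem basic_neg_one_mem_gamma0 hk f

theorem eq_zero_of_neg {k : ℤ} (hk : k < 0) (f : ModularForm (Gamma0 N) k) : f = 0 :=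
  ModularForm.isZero_of_neg_weight hk f

theorem mdim_zero : mdim N 0 = 1 := by
  unfold mdim
  rw [finrank_eq_one_iff']
  refine ⟨ModularForm.const 1, ?_, fun f => ?_⟩
  · intro h
    have := congrArg (fun g : ModularForm (Gamma0 N) 0 => g I) h
    simp at this
  · obtain ⟨c, hc⟩ := ModularForm.eq_const_of_weight_zero f
    refine ⟨c, ?_⟩
    ext z
    simp [hc]

/-- a form of weight `0` is constant -/
theorem exists_eq_const_of_weight_zero (f : ModularForm (Gamma0 N) 0) :
    ∃ c : ℂ, (⇑f : ℍ → ℂ) = Function.const ℍ c :=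
  ModularForm.eq_const_of_weight_zero f

theorem cuspForm_eq_zero_of_nonpos {k : ℤ} (hk : k ≤ 0) (f : CuspForm (Gamma0 N) k) :
    f = 0 := by
  rcases hk.lt_or_eq with hk | rfl
  · apply CuspForm.toModularFormₗ_injective
    rw [map_zero]
    exact eq_zero_of_neg hk _
  · obtain ⟨c, hc⟩ := ModularForm.eq_const_of_weight_zero (CuspForm.toModularFormₗ f)
    have hz : IsZeroAtImInfty (⇑f : ℍ → ℂ) := CuspFormClass.zero_at_infty f
    have hc' : (⇑f : ℍ → ℂ) = Function.const ℍ c := hc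
    rw [hc'] at hz
    have hc0 : c = 0 := by
      have h1 : Tendsto (fun _ : ℍ => c) atImInfty (𝓝 0) := hz
      exact tendsto_const_nhds_iff.mp h1
    ext z
    rw [hc', hc0]
    rfl

theorem sdim_of_nonpos {k : ℤ} (hk : k ≤ 0) : sdim N k = 0 := by
  unfold sdim
  have : Subsingleton (CuspForm (Gamma0 N) k) :=
    ⟨fun f g => by rw [cuspForm_eq_zero_of_nonpos hk f, cuspForm_eq_zero_of_nonpos hk g]⟩
  exact Module.finrank_zero_of_subsingleton

/-! ### products -/

/-- slash of a product by an element of `SL₂(ℤ)`, with a weight identity -/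
theorem basic_mul_slash {k1 k2 k : ℤ} (hk : k1 + k2 = k) (A B : ℍ → ℂ) (g : ↥(𝒮ℒ)) :
    (A * B) ∣[k] (g : GL (Fin 2) ℝ)
      = (A ∣[k1] (g : GL (Fin 2) ℝ)) * (B ∣[k2] (g : GL (Fin 2) ℝ)) := by
  subst hk
  rw [ModularForm.mul_slash, abs_det_SL, one_smul]

/-- a level-one form is invariant under the slash action of `𝒮ℒ` -/
theorem isLO_slash_SL {w : ℤ} {F : ℍ → ℂ} (hF : IsLO w F) (g : ↥(𝒮ℒ)) :
    F ∣[w] (g : GL (Fin 2) ℝ) = F := by
  obtain ⟨G, hG⟩ := hF
  rw [← hG]
  exact SlashInvariantFormClass.slash_action_eq G _ g.2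

/-- a level-one form, seen as a form on `Γ₀(N)` -/
noncomputable def basicRestrict {w : ℤ} (F : ModularForm 𝒮ℒ w) : ModularForm (Gamma0 N) w where
  toFun := F
  slash_action_eq' := fun x hx => SlashInvariantFormClass.slash_action_eq F x (basic_gamma0_le hx)
  holo' := F.holo'
  bdd_at_cusps' := fun hc => F.bdd_at_cusps' (hc.mono basic_gamma0_le)

omit [NeZero N] in
@[simp] theorem coe_basicRestrict {w : ℤ} (F : ModularForm 𝒮ℒ w) :
    (⇑(basicRestrict (N := N) F) : ℍ → ℂ) = ⇑F := rfl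

theorem quotientFunc_basicRestrict {w : ℤ} (F : ModularForm 𝒮ℒ w) (q : Q N) :
    quotientFunc (basicRestrict (N := N) F) q = ⇑F := by
  induction q using Quotient.inductionOn with
  | h r =>
    rw [quotientFunc_mk]
    exact SlashInvariantFormClass.slash_action_eq F _ (r⁻¹).2

omit [NeZero N] in
/-- change of weight along an equality -/
theorem exists_cast {a b : ℤ} (h : a = b) (f : ModularForm (Gamma0 N) a) :
    ∃ g : ModularForm (Gamma0 N) b, (⇑g : ℍ → ℂ) = ⇑f ∧
      ∀ q : Q N, quotientFunc g q = quotientFunc f q := by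
  subst h
  exact ⟨f, rfl, fun _ => rfl⟩

/-- products and powers -/
theorem exists_mul {k l : ℤ} (f : ModularForm (Gamma0 N) k) (g : ModularForm (Gamma0 N) l) :
    ∃ h : ModularForm (Gamma0 N) (k + l), (⇑h : ℍ → ℂ) = ⇑f * ⇑g ∧
      ∀ q : Q N, quotientFunc h q = quotientFunc f q * quotientFunc g q := by
  refine ⟨f.mul g, rfl, fun q => ?_⟩
  induction q using Quotient.inductionOn with
  | h r =>
    rw [quotientFunc_mk, quotientFunc_mk, quotientFunc_mk]
    exact basic_mul_slash rfl _ _ r⁻¹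

/-- multiplication by a level-one form -/
theorem exists_mul_levelOne {k w : ℤ} {F : ℍ → ℂ} (hF : IsLO w F) (f : ModularForm (Gamma0 N) k) :
    ∃ g : ModularForm (Gamma0 N) (k + w), (⇑g : ℍ → ℂ) = F * ⇑f ∧
      ∀ q : Q N, quotientFunc g q = F * quotientFunc f q := by
  obtain ⟨F0, rfl⟩ := hF
  obtain ⟨g1, hg1, hg1q⟩ := exists_mul (basicRestrict (N := N) F0) f
  obtain ⟨g, hg, hgq⟩ := exists_cast (add_comm w k) g1
  refine ⟨g, by rw [hg, hg1]; rfl, fun q => ?_⟩
  rw [hgq, hg1q, quotientFunc_basicRestrict]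

theorem quotientFunc_one (q : Q N) :
    quotientFunc (1 : ModularForm (Gamma0 N) 0) q = 1 := by
  induction q using Quotient.inductionOn with
  | h r =>
    rw [quotientFunc_mk, ModularForm.one_coe_eq_one]
    have key : ∀ g : ↥(𝒮ℒ), (1 : ℍ → ℂ) ∣[(0 : ℤ)] (g : GL (Fin 2) ℝ) = 1 := by
      rintro ⟨_, ⟨γ, rfl⟩⟩
      exact ModularForm.is_invariant_one γ
    exact key r⁻¹

theorem exists_pow {k : ℤ} (f : ModularForm (Gamma0 N) k) (m : ℕ) :
    ∃ h : ModularForm (Gamma0 N) (m * k), (⇑h : ℍ → ℂ) = ⇑f ^ m ∧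
      ∀ q : Q N, quotientFunc h q = quotientFunc f q ^ m := by
  induction m with
  | zero =>
    obtain ⟨g, hg, hgq⟩ := exists_cast (show (0 : ℤ) = ((0 : ℕ) : ℤ) * k by simp)
      (1 : ModularForm (Gamma0 N) 0)
    refine ⟨g, by rw [hg, pow_zero, ModularForm.one_coe_eq_one], fun q => ?_⟩
    rw [hgq, pow_zero, quotientFunc_one]
  | succ m ih =>
    obtain ⟨h1, hh1, hh1q⟩ := ih
    obtain ⟨h2, hh2, hh2q⟩ := exists_mul h1 f
    obtain ⟨g, hg, hgq⟩ := exists_cast
      (show (m : ℤ) * k + k = ((m + 1 : ℕ) : ℤ) * k by push_cast; ring) h2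
    refine ⟨g, by rw [hg, hh2, hh1, pow_succ], fun q => ?_⟩
    rw [hgq, hh2q, hh1q, pow_succ]

/-! ### division -/

/-- a product of holomorphic functions on `ℍ` vanishes only if a factor does -/
theorem basic_eq_zero_of_mul_eq_zero {F G : ℍ → ℂ} (hF : MDiff F) (hG : MDiff G) (hF0 : F ≠ 0)
    (h : F * G = 0) : G = 0 := by
  ext z
  have hiso := eventually_ne_zero_of_mdiff F hF hF0 z z.im_pos
  have hG0 : ∀ᶠ w in 𝓝[≠] (z : ℂ), (G ∘ ofComplex) w = 0 := by
    filter_upwards [hiso] with w hw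
    have := congrFun h (ofComplex w)
    simp only [Pi.mul_apply, Pi.zero_apply, mul_eq_zero] at this
    exact this.resolve_left hw
  have hcont : ContinuousAt (G ∘ ofComplex) (z : ℂ) := by
    have := (UpperHalfPlane.mdifferentiable_iff.mp hG) z z.im_pos
    exact (this.differentiableAt (isOpen_upperHalfPlaneSet.mem_nhds z.im_pos)).continuousAt
  have hlim : Tendsto (G ∘ ofComplex) (𝓝[≠] (z : ℂ)) (𝓝 ((G ∘ ofComplex) z)) :=
    hcont.tendsto.mono_left nhdsWithin_le_nhds
  have hlim0 : Tendsto (G ∘ ofComplex) (𝓝[≠] (z : ℂ)) (𝓝 0) :=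
    tendsto_const_nhds.congr' (hG0.mono fun w hw => hw.symm)
  have := tendsto_nhds_unique hlim hlim0
  simpa [ofComplex_apply] using this

/-- division by a level-one form that does not vanish at `i∞`: if `f = F * h` with `h`
holomorphic then `h` is a modular form -/
theorem exists_of_eq_mul {k w : ℤ} {F h : ℍ → ℂ} (hF : IsLO w F)
    (hF1 : Tendsto F atImInfty (𝓝 1)) (f : ModularForm (Gamma0 N) k) (hh : MDiff h)
    (hfh : (⇑f : ℍ → ℂ) = F * h) :
    ∃ g : ModularForm (Gamma0 N) (k - w), (⇑g : ℍ → ℂ) = h := by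
  have hF0 : F ≠ 0 := by
    intro h0
    rw [h0] at hF1
    have h1 : Tendsto (fun _ : ℍ => (0 : ℂ)) atImInfty (𝓝 1) := hF1
    exact zero_ne_one (tendsto_const_nhds_iff.mp h1)
  have key : ∀ g : ↥(𝒮ℒ), (⇑f : ℍ → ℂ) ∣[k] (g : GL (Fin 2) ℝ)
      = F * (h ∣[k - w] (g : GL (Fin 2) ℝ)) := by
    intro g
    rw [hfh, basic_mul_slash (show w + (k - w) = k by ring) F h g, isLO_slash_SL hF g]
  refine ⟨{ toFun := h, slash_action_eq' := ?_, holo' := hh, bdd_at_cusps' := ?_ }, rfl⟩
  · intro x hx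
    have h1 := key ⟨x, basic_gamma0_le hx⟩
    rw [SlashInvariantFormClass.slash_action_eq f x hx, hfh] at h1
    have h2 : F * (h ∣[k - w] x - h) = 0 := by
      rw [mul_sub, ← h1, sub_self]
    have := basic_eq_zero_of_mul_eq_zero hF.mdiff ((hh.slash (k - w) x).sub hh) hF0 h2
    exact sub_eq_zero.mp this
  · intro c hc
    rw [OnePoint.isBoundedAt_iff_forall_SL2Z (hc.mono basic_gamma0_le)]
    intro γ _
    have h1 := key (toSL γ)
    have hb : IsBoundedAtImInfty ((⇑f : ℍ → ℂ) ∣[k] γ) := ModularFormClass.bdd_at_infty_slash f γ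
    have hb' : IsBoundedAtImInfty ((⇑f : ℍ → ℂ) ∣[k] ((toSL γ : ↥(𝒮ℒ)) : GL (Fin 2) ℝ)) := hb
    rw [h1] at hb'
    change IsBoundedAtImInfty (h ∣[k - w] ((toSL γ : ↥(𝒮ℒ)) : GL (Fin 2) ℝ))
    set G : ℍ → ℂ := h ∣[k - w] ((toSL γ : ↥(𝒮ℒ)) : GL (Fin 2) ℝ) with hG
    have hev : ∀ᶠ z in atImInfty, (1 / 2 : ℝ) < ‖F z‖ := by
      have := hF1.norm
      rw [norm_one] at this
      exact this.eventually (lt_mem_nhds (by norm_num))
    have hO : G =O[atImInfty] (F * G) := by
      refine Asymptotics.IsBigO.of_bound 2 ?_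
      filter_upwards [hev] with z hz
      rw [Pi.mul_apply, norm_mul]
      nlinarith [norm_nonneg (G z)]
    exact hO.trans hb'

/-! ### conjugates of combinations -/

omit [NeZero N] in
/-- conjugates of a combination with level-one coefficients -/
theorem quotientFunc_eq_sum {k : ℤ} (f : ModularForm (Gamma0 N) k) {ι : Type} [Fintype ι]
    (wt : ι → ℤ) (b : ∀ j, ModularForm (Gamma0 N) (wt j)) (a : ι → ℍ → ℂ)
    (ha : ∀ j, IsLO (k - wt j) (a j)) (h : (⇑f : ℍ → ℂ) = ∑ j, a j * ⇑(b j)) (q : Q N) :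
    quotientFunc f q = ∑ j, a j * quotientFunc (b j) q := by
  induction q using Quotient.inductionOn with
  | h r =>
    rw [quotientFunc_mk, h, SlashAction.sum_slash]
    refine Finset.sum_congr rfl fun j _ => ?_
    rw [quotientFunc_mk]
    have h1 := basic_mul_slash (show (k - wt j) + wt j = k by ring) (a j) (⇑(b j)) r⁻¹
    rw [isLO_slash_SL (ha j) r⁻¹] at h1
    exact h1

end Z

end Fermat.Agent.S20Lib
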