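import Fermat.Agent.Lib.S20.ProjLineCard
import Fermat.Agent.Lib.S20.Defs

/-!
# The coset space `SL(2, ℤ) ⧸ Γ₀(N)` is the projective line over `ZMod N`

An equivariant bijection `Q N ≃ P1 (ZMod N)` (first column of a matrix), the count
`Fintype.card (Q N) = dedekindPsi N`, and transfer lemmas for fixed points and orbits.
-/

set_option autoImplicit false
set_option linter.style.haveILetI false
set_option linter.unusedSectionVars false

namespace Fermat.Agent.S20Lib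

open Matrix CongruenceSubgroup Matrix.SpecialLinearGroup
open scoped MatrixGroups
open Fermat.Agent.LibS23

/-! ### Lifting unimodular vectors -/

/-- A vector which is unimodular modulo `N` is congruent to a vector of coprime integers. -/
theorem projLineCoset_exists_coprime_lift {N : ℕ} (hN : N ≠ 0) (a c : ℤ)
    (h : ∃ x y z : ℤ, x * a + y * c + z * N = 1) :
    ∃ a' c' : ℤ, IsCoprime a' c' ∧ (N : ℤ) ∣ a' - a ∧ (N : ℤ) ∣ c' - c := by
  classical
  obtain ⟨x, y, z, hxyz⟩ := h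
  obtain ⟨c₁, hc₁0, hc₁, y₁, z₁, h₁⟩ : ∃ c₁ : ℤ, c₁ ≠ 0 ∧ (N : ℤ) ∣ c₁ - c ∧
      ∃ y₁ z₁ : ℤ, x * a + y₁ * c₁ + z₁ * N = 1 := by
    by_cases hc : c = 0
    · refine ⟨N, by exact_mod_cast hN, by simp [hc], 0, z, ?_⟩
      rw [← hxyz, hc]; ring
    · exact ⟨c, hc, by simp, y, z, hxyz⟩
  set t : ℤ := ∏ p ∈ c₁.natAbs.primeFactors.filter (fun p : ℕ => ¬ (p : ℤ) ∣ a), (p : ℤ) with ht
  refine ⟨a + t * N, c₁, ?_, ⟨t, by ring⟩, hc₁⟩
  rw [Int.isCoprime_iff_gcd_eq_one]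
  by_contra hg
  obtain ⟨p, hp, hpg⟩ := Nat.exists_prime_and_dvd hg
  have hpa' : (p : ℤ) ∣ a + t * N :=
    (Int.natCast_dvd_natCast.2 hpg).trans (Int.gcd_dvd_left _ _)
  have hpc : (p : ℤ) ∣ c₁ := (Int.natCast_dvd_natCast.2 hpg).trans (Int.gcd_dvd_right _ _)
  have hpmem : p ∈ c₁.natAbs.primeFactors :=
    Nat.mem_primeFactors.2 ⟨hp, Int.natCast_dvd.1 hpc, by simpa using hc₁0⟩
  have hpint : Prime (p : ℤ) := Nat.prime_iff_prime_int.1 hp
  by_cases hpa : (p : ℤ) ∣ a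
  · have hptN : (p : ℤ) ∣ t * N := (dvd_add_right hpa).1 hpa'
    rcases hpint.dvd_mul.1 hptN with h | h
    · rw [ht] at h
      obtain ⟨q, hq, hpq⟩ := (Prime.dvd_finsetProd_iff hpint _).1 h
      have hq' := Finset.mem_filter.1 hq
      have hqprime : q.Prime := Nat.prime_of_mem_primeFactors hq'.1
      have hpq' : p = q := (Nat.prime_dvd_prime_iff_eq hp hqprime).1 (Int.natCast_dvd_natCast.1 hpq)
      exact hq'.2 (hpq' ▸ hpa)
    · have h1 : (p : ℤ) ∣ 1 := by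
        rw [← h₁]
        exact dvd_add (dvd_add (hpa.mul_left _) (hpc.mul_left _)) (h.mul_left _)
      exact hpint.not_dvd_one h1
  · have hpt : (p : ℤ) ∣ t := by
      rw [ht]
      exact Finset.dvd_prod_of_mem (fun p : ℕ => (p : ℤ)) (Finset.mem_filter.2 ⟨hpmem, hpa⟩)
    exact hpa ((dvd_add_left (hpt.mul_right _)).1 hpa')

/-- A coprime pair of integers is the first column of a matrix in `SL(2, ℤ)`. -/
theorem projLineCoset_exists_sl2 {a c : ℤ} (h : IsCoprime a c) :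
    ∃ g : SL(2, ℤ), g 0 0 = a ∧ g 1 0 = c := by
  obtain ⟨u, v, huv⟩ := h
  refine ⟨⟨!![a, -v; c, u], ?_⟩, rfl, rfl⟩
  rw [Matrix.det_fin_two_of]
  linear_combination huv

/-! ### The base point and transitivity -/

variable (N : ℕ) [NeZero N]

/-- The base point `[1 : 0]`. -/
def P1.base : P1 (ZMod N) := P1.mk 1 0 ⟨1, 0, by ring⟩

theorem P1.smul_base (γ : SL(2, ℤ)) :
    γ • P1.base N = P1.mk ((γ 0 0 : ℤ) : ZMod N) ((γ 1 0 : ℤ) : ZMod N)
      (by
        have h := sl2_det_cast (R := ZMod N) γ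
        exact ⟨((γ 1 1 : ℤ) : ZMod N), -((γ 0 1 : ℤ) : ZMod N), by linear_combination h⟩) := by
  rw [P1.base, P1.smul_mk, P1.mk_eq_mk_iff]
  ring

theorem P1.smul_base_eq_iff (γ : SL(2, ℤ)) : γ • P1.base N = P1.base N ↔ γ ∈ Gamma0 N := by
  rw [P1.smul_base, P1.base, P1.mk_eq_mk_iff, Gamma0_mem]
  constructor
  · intro h
    simpa using h.symm
  · intro h
    rw [h]; ring

theorem P1.exists_smul_base (x : P1 (ZMod N)) : ∃ γ : SL(2, ℤ), γ • P1.base N = x := by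
  obtain ⟨a, c, ⟨u, v, huv⟩, rfl⟩ := P1.exists_rep x
  obtain ⟨A, rfl⟩ := ZMod.intCast_surjective a
  obtain ⟨C, rfl⟩ := ZMod.intCast_surjective c
  obtain ⟨U, rfl⟩ := ZMod.intCast_surjective u
  obtain ⟨V, rfl⟩ := ZMod.intCast_surjective v
  have h1 : (N : ℤ) ∣ U * A + V * C - 1 := by
    rw [← ZMod.intCast_zmod_eq_zero_iff_dvd]
    push_cast
    rw [huv, sub_self]
  obtain ⟨Z, hZ⟩ := h1
  obtain ⟨a', c', hcop, ha', hc'⟩ := projLineCoset_exists_coprime_lift (NeZero.ne N) A C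
    ⟨U, V, -Z, by linear_combination hZ⟩
  obtain ⟨γ, hγ0, hγ1⟩ := projLineCoset_exists_sl2 hcop
  refine ⟨γ, ?_⟩
  rw [P1.smul_base, P1.mk_eq_mk_iff, hγ0, hγ1]
  have e1 : ((a' : ℤ) : ZMod N) = (A : ZMod N) := by
    rw [← sub_eq_zero, ← Int.cast_sub, ZMod.intCast_zmod_eq_zero_iff_dvd]
    exact ha'
  have e2 : ((c' : ℤ) : ZMod N) = (C : ZMod N) := by
    rw [← sub_eq_zero, ← Int.cast_sub, ZMod.intCast_zmod_eq_zero_iff_dvd]
    exact hc'
  rw [e1, e2]

/-! ### The action of `𝒮ℒ` -/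

/-- The isomorphism between the image `𝒮ℒ` of `SL(2, ℤ)` in `GL(2, ℝ)` and `SL(2, ℤ)`. -/
noncomputable def slEquiv : ↥(𝒮ℒ) ≃* SL(2, ℤ) :=
  (MonoidHom.ofInjective (mapGL_injective (R := ℤ) (S := ℝ) (n := Fin 2))).symm

theorem slEquiv_toSL (γ : SL(2, ℤ)) : slEquiv (toSL γ) = γ :=
  (MonoidHom.ofInjective (mapGL_injective (R := ℤ) (S := ℝ) (n := Fin 2))).symm_apply_apply γ

theorem toSL_slEquiv (h : ↥(𝒮ℒ)) : toSL (slEquiv h) = h := by
  obtain ⟨_, ⟨γ, rfl⟩⟩ := h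
  have : (⟨mapGL ℝ γ, ⟨γ, rfl⟩⟩ : ↥(𝒮ℒ)) = toSL γ := rfl
  rw [this, slEquiv_toSL]

noncomputable instance P1.instMulActionSL {R : Type*} [CommRing R] : MulAction ↥(𝒮ℒ) (P1 R) :=
  MulAction.compHom (P1 R) slEquiv.toMonoidHom

theorem P1.sl_smul_def {R : Type*} [CommRing R] (h : ↥(𝒮ℒ)) (x : P1 R) :
    h • x = slEquiv h • x := rfl

theorem P1.toSL_smul {R : Type*} [CommRing R] (γ : SL(2, ℤ)) (x : P1 R) :
    toSL γ • x = γ • x := by
  rw [P1.sl_smul_def, slEquiv_toSL]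

theorem toSL_mem_iff (γ : SL(2, ℤ)) :
    toSL γ ∈ (((Gamma0 N : Subgroup SL(2, ℤ)) : Subgroup (GL (Fin 2) ℝ)).subgroupOf 𝒮ℒ) ↔
      γ ∈ Gamma0 N := by
  rw [Subgroup.mem_subgroupOf]
  exact Subgroup.mem_map_iff_mem mapGL_injective

theorem P1.sl_smul_base_eq_iff (h : ↥(𝒮ℒ)) :
    h • P1.base N = P1.base N ↔
      h ∈ (((Gamma0 N : Subgroup SL(2, ℤ)) : Subgroup (GL (Fin 2) ℝ)).subgroupOf 𝒮ℒ) := by
  rw [← toSL_slEquiv h, P1.toSL_smul, P1.smul_base_eq_iff, toSL_mem_iff]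

/-! ### The equivariant bijection -/

/-- The map `Q N → P1 (ZMod N)`, `h Γ₀(N) ↦ h • [1 : 0]` (the first column of `h`). -/
noncomputable def P1.cosetMap (q : Q N) : P1 (ZMod N) :=
  Quotient.liftOn' q (fun h : ↥(𝒮ℒ) => h • P1.base N) (fun h1 h2 hrel => by
    have hmem := QuotientGroup.leftRel_apply.1 hrel
    have h3 : (h1⁻¹ * h2) • P1.base N = P1.base N := (P1.sl_smul_base_eq_iff N _).2 hmem
    show h1 • P1.base N = h2 • P1.base N
    calc h1 • P1.base N = h1 • ((h1⁻¹ * h2) • P1.base N) := by rw [h3]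
      _ = h2 • P1.base N := by rw [smul_smul, mul_inv_cancel_left])

theorem P1.cosetMap_mk (h : ↥(𝒮ℒ)) : P1.cosetMap N (h : Q N) = h • P1.base N := rfl

theorem P1.cosetMap_smul (h : ↥(𝒮ℒ)) (q : Q N) :
    P1.cosetMap N (h • q) = h • P1.cosetMap N q := by
  induction q using QuotientGroup.induction_on with
  | H g =>
    rw [MulAction.Quotient.smul_mk, P1.cosetMap_mk, P1.cosetMap_mk, smul_eq_mul, mul_smul]

theorem P1.cosetMap_bijective : Function.Bijective (P1.cosetMap N) := by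
  constructor
  · intro q1 q2 h
    induction q1 using QuotientGroup.induction_on with
    | H g1 =>
      induction q2 using QuotientGroup.induction_on with
      | H g2 =>
        rw [P1.cosetMap_mk, P1.cosetMap_mk] at h
        rw [QuotientGroup.eq, ← P1.sl_smul_base_eq_iff, mul_smul, ← h, smul_smul,
          inv_mul_cancel, one_smul]
  · intro x
    obtain ⟨γ, rfl⟩ := P1.exists_smul_base N x
    exact ⟨(toSL γ : Q N), by rw [P1.cosetMap_mk, P1.toSL_smul]⟩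

/-- **The equivariant bijection `SL(2, ℤ) ⧸ Γ₀(N) ≃ P¹(ℤ/N)`.** -/
noncomputable def P1.cosetEquiv : Q N ≃ P1 (ZMod N) :=
  Equiv.ofBijective (P1.cosetMap N) (P1.cosetMap_bijective N)

theorem P1.cosetEquiv_smul (h : ↥(𝒮ℒ)) (q : Q N) :
    P1.cosetEquiv N (h • q) = h • P1.cosetEquiv N q :=
  P1.cosetMap_smul N h q

theorem P1.cosetEquiv_toSL_smul (γ : SL(2, ℤ)) (q : Q N) :
    P1.cosetEquiv N (toSL γ • q) = γ • P1.cosetEquiv N q := by
  rw [P1.cosetEquiv_smul, P1.toSL_smul]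

theorem P1.cosetEquiv_mk_toSL (γ : SL(2, ℤ)) :
    P1.cosetEquiv N ((toSL γ : ↥(𝒮ℒ)) : Q N) = γ • P1.base N :=
  (P1.cosetMap_mk N (toSL γ)).trans (P1.toSL_smul γ _)

/-! ### Counting -/

/-- **F1**: the index of `Γ₀(N)` in `SL(2, ℤ)` is `ψ(N)`. -/
theorem card_Q : Fintype.card (Q N) = ModularCurve.dedekindPsi N := by
  rw [← Nat.card_eq_fintype_card, Nat.card_congr (P1.cosetEquiv N), P1.card_zmod]

/-- Transfer of fixed points from the coset space to the projective line. -/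
theorem card_fix_toSL (γ : SL(2, ℤ)) :
    Nat.card {q : Q N // toSL γ • q = q} = Nat.card {x : P1 (ZMod N) // γ • x = x} := by
  refine Nat.card_congr ((P1.cosetEquiv N).subtypeEquiv fun q => ?_)
  rw [← P1.cosetEquiv_toSL_smul, (P1.cosetEquiv N).apply_eq_iff_eq]

theorem toSL_zpow (γ : SL(2, ℤ)) (n : ℤ) : toSL γ ^ n = toSL (γ ^ n) := by
  apply slEquiv.injective
  rw [map_zpow, slEquiv_toSL, slEquiv_toSL]

/-- Transfer of orbits of a cyclic subgroup from the coset space to the projective line. -/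
theorem card_orbits_toSL (γ : SL(2, ℤ)) :
    Nat.card (MulAction.orbitRel.Quotient (Subgroup.zpowers (toSL γ)) (Q N)) =
      Nat.card (MulAction.orbitRel.Quotient (Subgroup.zpowers γ) (P1 (ZMod N))) := by
  refine Nat.card_congr (Quotient.congr (P1.cosetEquiv N) fun a b => ?_)
  show a ∈ MulAction.orbit (Subgroup.zpowers (toSL γ)) b ↔
    P1.cosetEquiv N a ∈ MulAction.orbit (Subgroup.zpowers γ) (P1.cosetEquiv N b)
  constructor
  · rintro ⟨⟨_, n, rfl⟩, h⟩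
    refine ⟨⟨γ ^ n, n, rfl⟩, ?_⟩
    have h' : toSL γ ^ n • b = a := h
    show γ ^ n • P1.cosetEquiv N b = P1.cosetEquiv N a
    rw [← h', toSL_zpow, P1.cosetEquiv_toSL_smul]
  · rintro ⟨⟨_, n, rfl⟩, h⟩
    refine ⟨⟨toSL γ ^ n, n, rfl⟩, ?_⟩
    have h' : γ ^ n • P1.cosetEquiv N b = P1.cosetEquiv N a := h
    show toSL γ ^ n • b = a
    apply (P1.cosetEquiv N).injective
    rw [toSL_zpow, P1.cosetEquiv_toSL_smul, h']

/-! ### The transfer statements for `sS`, `sU`, `sT` -/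

theorem card_fix_sS_eq :
    Nat.card {q : Q N // sS • q = q} =
      Nat.card {x : P1 (ZMod N) // ModularGroup.S • x = x} :=
  card_fix_toSL N ModularGroup.S

theorem card_fix_sU_eq :
    Nat.card {q : Q N // sU • q = q} =
      Nat.card {x : P1 (ZMod N) // (ModularGroup.S * ModularGroup.T) • x = x} :=
  card_fix_toSL N (ModularGroup.S * ModularGroup.T)

theorem card_orbits_sT_eq :
    Nat.card (MulAction.orbitRel.Quotient (Subgroup.zpowers sT) (Q N)) =
      Nat.card (MulAction.orbitRel.Quotient (Subgroup.zpowers ModularGroup.T) (P1 (ZMod N))) :=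
  card_orbits_toSL N ModularGroup.T

end Fermat.Agent.S20Lib
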