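import Fermat.Agent.Lib.S20.ProjLine
import Fermat.Prelude.Def_ModularCurve_GenusNumerics

/-!
# The number of points of the projective line over `ZMod N`

`Nat.card (P1 (ZMod N)) = dedekindPsi N`, by the Chinese remainder theorem and the prime power case.
-/

set_option autoImplicit false
set_option linter.style.haveILetI false

namespace Fermat.Agent.S20Lib

variable {R S : Type*} [CommRing R] [CommRing S]

/-! ### Functoriality -/

/-- The map induced on unimodular vectors by a ring homomorphism. -/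
def Unimod.map (f : R →+* S) (v : Unimod R) : Unimod S :=
  ⟨(f v.1.1, f v.1.2), by
    obtain ⟨x, y, hxy⟩ := v.2
    exact ⟨f x, f y, by rw [← map_mul, ← map_mul, ← map_add, hxy, map_one]⟩⟩

/-- The map induced on projective lines by a ring homomorphism. -/
def P1.map (f : R →+* S) : P1 R → P1 S :=
  Quotient.map (Unimod.map f) (by
    intro v w (h : v.1.1 * w.1.2 = w.1.1 * v.1.2)
    show f v.1.1 * f w.1.2 = f w.1.1 * f v.1.2
    rw [← map_mul, ← map_mul, h])

theorem P1.map_mk (f : R →+* S) (a c : R) (h : ∃ x y : R, x * a + y * c = 1) :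
    P1.map f (P1.mk a c h) = P1.mk (f a) (f c)
      (by obtain ⟨x, y, hxy⟩ := h
          exact ⟨f x, f y, by rw [← map_mul, ← map_mul, ← map_add, hxy, map_one]⟩) := rfl

/-- A ring isomorphism induces a bijection of projective lines. -/
def P1.congr (e : R ≃+* S) : P1 R ≃ P1 S where
  toFun := P1.map e.toRingHom
  invFun := P1.map e.symm.toRingHom
  left_inv x := by
    obtain ⟨a, c, h, rfl⟩ := P1.exists_rep x
    rw [P1.map_mk, P1.map_mk, P1.mk_eq_mk_iff]
    simp
  right_inv x := by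
    obtain ⟨a, c, h, rfl⟩ := P1.exists_rep x
    rw [P1.map_mk, P1.map_mk, P1.mk_eq_mk_iff]
    simp

/-- The projective line of a product ring is the product of the projective lines. -/
noncomputable def P1.prodEquiv : P1 (R × S) ≃ P1 R × P1 S :=
  Equiv.ofBijective (fun x => (P1.map (RingHom.fst R S) x, P1.map (RingHom.snd R S) x)) (by
    constructor
    · intro x y hxy
      obtain ⟨a, c, h, rfl⟩ := P1.exists_rep x
      obtain ⟨a', c', h', rfl⟩ := P1.exists_rep y
      simp only [P1.map_mk, Prod.mk.injEq, P1.mk_eq_mk_iff, RingHom.coe_fst, RingHom.coe_snd] at hxy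
      rw [P1.mk_eq_mk_iff]
      exact Prod.ext hxy.1 hxy.2
    · rintro ⟨x, y⟩
      obtain ⟨a, c, ⟨u, v, huv⟩, rfl⟩ := P1.exists_rep x
      obtain ⟨a', c', ⟨u', v', huv'⟩, rfl⟩ := P1.exists_rep y
      refine ⟨P1.mk (a, a') (c, c') ⟨(u, u'), (v, v'), Prod.ext huv huv'⟩, ?_⟩
      simp only [P1.map_mk, RingHom.coe_fst, RingHom.coe_snd])

/-! ### Local rings -/

/-- The points `[x : 1]` and `[1 : c]` (`c` a non-unit) of the projective line. -/
def P1.localMap : R ⊕ {c : R // ¬ IsUnit c} → P1 R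
  | Sum.inl x => P1.mk x 1 ⟨0, 1, by ring⟩
  | Sum.inr c => P1.mk 1 c.1 ⟨1, 0, by ring⟩

theorem P1.localMap_bijective [IsLocalRing R] : Function.Bijective (P1.localMap (R := R)) := by
  constructor
  · rintro (x | ⟨c, hc⟩) (x' | ⟨c', hc'⟩) h
    · simp only [P1.localMap, P1.mk_eq_mk_iff] at h
      rw [mul_one, mul_one] at h
      rw [h]
    · simp only [P1.localMap, P1.mk_eq_mk_iff] at h
      exact absurd (IsUnit.of_mul_eq_one x (by rw [mul_comm]; simpa using h)) hc'
    · simp only [P1.localMap, P1.mk_eq_mk_iff] at h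
      exact absurd (IsUnit.of_mul_eq_one x' (by rw [mul_comm]; simpa using h.symm)) hc
    · simp only [P1.localMap, P1.mk_eq_mk_iff] at h
      rw [one_mul, one_mul] at h
      simp only [h]
  · intro x
    obtain ⟨a, c, ⟨u, v, huv⟩, rfl⟩ := P1.exists_rep x
    by_cases hc : IsUnit c
    · obtain ⟨w, rfl⟩ := hc
      refine ⟨Sum.inl (a * ((w⁻¹ : Rˣ) : R)), ?_⟩
      simp only [P1.localMap]
      rw [P1.mk_eq_mk_iff]
      rw [mul_assoc, Units.inv_mul, mul_one]
    · have ha : IsUnit a := by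
        rcases IsLocalRing.isUnit_or_isUnit_of_add_one huv with h | h
        · exact isUnit_of_mul_isUnit_right h
        · exact absurd (isUnit_of_mul_isUnit_right h) hc
      obtain ⟨w, rfl⟩ := ha
      have hcw : ¬ IsUnit (c * ((w⁻¹ : Rˣ) : R)) := fun h => hc (isUnit_of_mul_isUnit_left h)
      refine ⟨Sum.inr ⟨c * ((w⁻¹ : Rˣ) : R), hcw⟩, ?_⟩
      simp only [P1.localMap]
      rw [P1.mk_eq_mk_iff]
      rw [one_mul, mul_comm c, ← mul_assoc, Units.mul_inv, one_mul]

theorem P1.card_of_isLocalRing [IsLocalRing R] [Finite R] :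
    Nat.card (P1 R) = Nat.card R + Nat.card {c : R // ¬ IsUnit c} := by
  rw [← Nat.card_congr (Equiv.ofBijective _ (P1.localMap_bijective (R := R))), Nat.card_sum]

/-! ### Prime powers -/

theorem zmod_prime_pow_isUnit_iff {p n : ℕ} (hp : p.Prime) (x : ZMod (p ^ (n + 1))) :
    IsUnit x ↔ ¬ p ∣ x.val := by
  haveI : NeZero (p ^ (n + 1)) := ⟨pow_ne_zero _ hp.ne_zero⟩
  conv_lhs => rw [← ZMod.natCast_zmod_val x]
  rw [ZMod.isUnit_iff_coprime, Nat.coprime_pow_right_iff (Nat.succ_pos n), Nat.coprime_comm,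
    hp.coprime_iff_not_dvd]

theorem zmod_prime_pow_isLocalRing {p n : ℕ} (hp : p.Prime) : IsLocalRing (ZMod (p ^ (n + 1))) := by
  haveI : NeZero (p ^ (n + 1)) := ⟨pow_ne_zero _ hp.ne_zero⟩
  haveI : Fact (1 < p ^ (n + 1)) := ⟨Nat.one_lt_pow (Nat.succ_ne_zero n) hp.one_lt⟩
  refine IsLocalRing.of_nonunits_add ?_
  intro a b ha hb
  rw [mem_nonunits_iff, zmod_prime_pow_isUnit_iff hp, not_not] at ha hb ⊢
  have hdvd : p ∣ p ^ (n + 1) := dvd_pow_self p (Nat.succ_ne_zero n)
  rw [ZMod.val_add]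
  exact (Nat.dvd_mod_iff hdvd).2 (dvd_add ha hb)

theorem zmod_prime_pow_card_nonunits {p n : ℕ} (hp : p.Prime) :
    Nat.card {c : ZMod (p ^ (n + 1)) // ¬ IsUnit c} = p ^ n := by
  classical
  haveI : NeZero (p ^ (n + 1)) := ⟨pow_ne_zero _ hp.ne_zero⟩
  have h1 : Nat.card {c : ZMod (p ^ (n + 1)) // IsUnit c} = p ^ n * (p - 1) := by
    rw [← Nat.totient_prime_pow_succ hp, ← ZMod.card_units_eq_totient, ← Nat.card_eq_fintype_card]
    exact Nat.card_congr
      { toFun := fun c => c.2.unit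
        invFun := fun u => ⟨u.1, u.isUnit⟩
        left_inv := fun c => by simp
        right_inv := fun u => by ext; simp }
  have h2 : Nat.card {c : ZMod (p ^ (n + 1)) // IsUnit c} +
      Nat.card {c : ZMod (p ^ (n + 1)) // ¬ IsUnit c} = p ^ (n + 1) := by
    rw [← Nat.card_sum, Nat.card_congr (Equiv.sumCompl fun c : ZMod (p ^ (n + 1)) => IsUnit c),
      Nat.card_eq_fintype_card, ZMod.card]
  rw [h1] at h2
  obtain ⟨q, rfl⟩ : ∃ q, p = q + 1 := ⟨p - 1, by have := hp.one_lt; omega⟩
  simp only [Nat.add_sub_cancel] at h2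
  have h3 : (q + 1) ^ (n + 1) = (q + 1) ^ n * q + (q + 1) ^ n := by ring
  linarith

theorem P1.card_zmod_prime_pow {p n : ℕ} (hp : p.Prime) :
    Nat.card (P1 (ZMod (p ^ (n + 1)))) = p ^ (n + 1) + p ^ n := by
  haveI : NeZero (p ^ (n + 1)) := ⟨pow_ne_zero _ hp.ne_zero⟩
  haveI := zmod_prime_pow_isLocalRing (n := n) hp
  rw [P1.card_of_isLocalRing, zmod_prime_pow_card_nonunits hp, Nat.card_eq_fintype_card, ZMod.card]

/-! ### The Dedekind psi function -/

open ArithmeticFunction in
/-- The indicator function of squarefree numbers, as an arithmetic function. -/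
def sqfreeInd : ArithmeticFunction ℕ :=
  ⟨fun n => if Squarefree n then 1 else 0, by simp⟩

theorem sqfreeInd_apply (n : ℕ) : sqfreeInd n = if Squarefree n then 1 else 0 := rfl

theorem sqfreeInd_isMultiplicative : sqfreeInd.IsMultiplicative := by
  refine ⟨by simp [sqfreeInd_apply], ?_⟩
  intro m n hmn
  simp only [sqfreeInd_apply, Nat.squarefree_mul hmn]
  by_cases hm : Squarefree m <;> by_cases hn : Squarefree n <;> simp [hm, hn]

theorem dedekindPsi_eq_mul (N : ℕ) :
    ModularCurve.dedekindPsi N = (sqfreeInd * ArithmeticFunction.id) N := by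
  rw [ArithmeticFunction.mul_apply, Nat.sum_divisorsAntidiagonal
    (f := fun d e => sqfreeInd d * ArithmeticFunction.id e), ModularCurve.dedekindPsi,
    Finset.sum_filter]
  refine Finset.sum_congr rfl fun d _ => ?_
  rw [sqfreeInd_apply, ArithmeticFunction.id_apply]
  split_ifs <;> simp

theorem dedekindPsi_mul_of_coprime {m n : ℕ} (h : Nat.Coprime m n) :
    ModularCurve.dedekindPsi (m * n) = ModularCurve.dedekindPsi m * ModularCurve.dedekindPsi n := by
  rw [dedekindPsi_eq_mul, dedekindPsi_eq_mul, dedekindPsi_eq_mul]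
  exact (sqfreeInd_isMultiplicative.mul ArithmeticFunction.isMultiplicative_id).map_mul_of_coprime h

theorem dedekindPsi_prime_pow {p n : ℕ} (hp : p.Prime) :
    ModularCurve.dedekindPsi (p ^ (n + 1)) = p ^ (n + 1) + p ^ n := by
  rw [ModularCurve.dedekindPsi, Nat.divisors_prime_pow hp, Finset.sum_filter,
    Finset.sum_map, Finset.sum_range_succ', Finset.sum_range_succ']
  have hz : ∑ k ∈ Finset.range n, (if Squarefree (p ^ (k + 1 + 1)) then
      p ^ (n + 1) / p ^ (k + 1 + 1) else 0) = 0 := by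
    refine Finset.sum_eq_zero fun k _ => ?_
    rw [if_neg]
    intro hsq
    have := (Nat.squarefree_pow_iff hp.ne_one (by omega : k + 1 + 1 ≠ 0)).1 hsq
    omega
  simp only [Function.Embedding.coeFn_mk]
  rw [hz]
  simp only [zero_add, pow_zero, pow_one, squarefree_one, if_true, Nat.div_one]
  rw [if_pos hp.squarefree, pow_succ, Nat.mul_div_cancel _ hp.pos]
  ring

/-! ### The count -/

theorem P1.card_zmod_one : Nat.card (P1 (ZMod 1)) = 1 := by
  rw [Nat.card_eq_one_iff_unique]
  refine ⟨⟨fun x y => ?_⟩, ⟨P1.mk 1 0 ⟨1, 0, by ring⟩⟩⟩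
  obtain ⟨a, c, h, rfl⟩ := P1.exists_rep x
  obtain ⟨a', c', h', rfl⟩ := P1.exists_rep y
  rw [P1.mk_eq_mk_iff]
  exact Subsingleton.elim _ _

theorem P1.card_zmod_aux (N : ℕ) : N ≠ 0 → Nat.card (P1 (ZMod N)) = ModularCurve.dedekindPsi N := by
  induction N using Nat.recOnPosPrimePosCoprime with
  | prime_pow p n hp hn =>
    intro _
    obtain ⟨m, rfl⟩ := Nat.exists_eq_succ_of_ne_zero hn.ne'
    rw [P1.card_zmod_prime_pow hp, dedekindPsi_prime_pow hp]
  | zero => intro h; exact absurd rfl h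
  | one =>
    intro _
    rw [P1.card_zmod_one, ModularCurve.dedekindPsi_one]
  | coprime a b ha hb hab iha ihb =>
    intro _
    rw [dedekindPsi_mul_of_coprime hab, ← iha (by omega), ← ihb (by omega), ← Nat.card_prod]
    exact Nat.card_congr ((P1.congr (ZMod.chineseRemainder hab)).trans P1.prodEquiv)

/-- **The number of points of `P¹(ℤ/N)` is `ψ(N)`.** -/
theorem P1.card_zmod (N : ℕ) [NeZero N] : Nat.card (P1 (ZMod N)) = ModularCurve.dedekindPsi N :=
  P1.card_zmod_aux N (NeZero.ne N)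

instance P1.finite_zmod (N : ℕ) [NeZero N] : Finite (P1 (ZMod N)) := by
  haveI : Finite (Unimod (ZMod N)) := by unfold Unimod; infer_instance
  exact Quotient.finite _

end Fermat.Agent.S20Lib
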