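/-
S20, chunk (F4): the number of `T`-orbits on `SL(2, ℤ) / Γ₀(N)` is
`ModularCurve.cuspCount N = ∑ d ∣ N, φ(gcd (d, N / d))`  (helper2).

Everything is phrased through the first column `(a, c) = (g 0 0, g 1 0)` of `g : SL(2, ℤ)`:
* `g⁻¹ * g' ∈ Γ₀(N)  ↔  N ∣ a * c' - a' * c`                        (`CuspCount.coset_iff`)
* `∃ k, (T ^ k * g)⁻¹ * g' ∈ Γ₀(N)  ↔  gcd (c * c', N) ∣ a * c' - a' * c`  (`CuspCount.orbit_iff`)
* complete invariant: `δ = gcd (c, N)` and `a * (c / δ)⁻¹ mod gcd (δ, N / δ)`.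
The main statement is model independent (`CuspCount.card_quotient_eq_cuspCount`) and is then
specialised to `SL(2, ℤ) ⧸ Γ₀(N)` with the left action of `⟨T⟩`.
-/
import Mathlib
import Fermat.Prelude.Def_ModularCurve_GenusNumerics

set_option autoImplicit false

namespace Fermat.Agent.S20Lib.CuspCount

open Matrix Matrix.SpecialLinearGroup CongruenceSubgroup
open scoped MatrixGroups ModularGroup

/-! ### A generic counting lemma -/

/-- If `F` classifies the classes of `r` (pulled back along a surjection `π`) and its image is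
the finset `S`, then the quotient has `S.card` elements. -/
theorem card_quotient_of_classifier {α β γ : Type*} (π : α → γ) (hπ : Function.Surjective π)
    (r : Setoid γ) (F : α → β) (S : Finset β)
    (hF : ∀ x y, r (π x) (π y) ↔ F x = F y) (hmem : ∀ x, F x ∈ S)
    (hsurj : ∀ b ∈ S, ∃ x, F x = b) :
    Nat.card (Quotient r) = S.card := by
  classical
  have hπ' : Function.Surjective (fun x => (Quotient.mk r (π x))) :=
    fun q => by
      obtain ⟨y, rfl⟩ := Quotient.mk_surjective q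
      obtain ⟨x, rfl⟩ := hπ y
      exact ⟨x, rfl⟩
  let Φ : Quotient r → S := fun q => ⟨F (Function.surjInv hπ' q), hmem _⟩
  have hΦ : ∀ x, Φ (Quotient.mk r (π x)) = ⟨F x, hmem x⟩ := by
    intro x
    apply Subtype.ext
    show F (Function.surjInv hπ' (Quotient.mk r (π x))) = F x
    rw [← hF]
    exact Quotient.exact (Function.surjInv_eq hπ' (Quotient.mk r (π x)))
  have hbij : Function.Bijective Φ := by
    constructor
    · intro q q' h
      obtain ⟨x, rfl⟩ := hπ' q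
      obtain ⟨y, rfl⟩ := hπ' q'
      have h' : Φ (Quotient.mk r (π x)) = Φ (Quotient.mk r (π y)) := h
      rw [hΦ, hΦ] at h'
      exact Quotient.sound ((hF x y).mpr (Subtype.ext_iff.mp h'))
    · rintro ⟨b, hb⟩
      obtain ⟨x, rfl⟩ := hsurj b hb
      exact ⟨Quotient.mk r (π x), hΦ x⟩
  rw [Nat.card_congr (Equiv.ofBijective Φ hbij), Nat.card_eq_finsetCard]

/-! ### First columns -/

theorem isCoprime_col (g : SL(2, ℤ)) : IsCoprime (g 0 0) (g 1 0) := by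
  have h := g.det_coe
  rw [Matrix.det_fin_two] at h
  exact ⟨g 1 1, -g 0 1, by linarith⟩

theorem inv_mul_apply_one_zero (g g' : SL(2, ℤ)) :
    (↑(g⁻¹ * g') : Matrix (Fin 2) (Fin 2) ℤ) 1 0 = g 0 0 * g' 1 0 - g' 0 0 * g 1 0 := by
  rw [coe_mul, (Matrix.two_mul_expl _ _).2.2.1, SL2_inv_expl]
  simp
  ring

/-- the coset criterion -/
theorem coset_iff (N : ℕ) (g g' : SL(2, ℤ)) :
    g⁻¹ * g' ∈ Gamma0 N ↔ (N : ℤ) ∣ g 0 0 * g' 1 0 - g' 0 0 * g 1 0 := by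
  rw [Gamma0_mem, ZMod.intCast_zmod_eq_zero_iff_dvd, inv_mul_apply_one_zero]

theorem T_zpow_mul_apply_zero_zero (k : ℤ) (g : SL(2, ℤ)) :
    (↑(ModularGroup.T ^ k * g) : Matrix (Fin 2) (Fin 2) ℤ) 0 0 = g 0 0 + k * g 1 0 := by
  rw [coe_mul, ModularGroup.coe_T_zpow]
  simp [Matrix.mul_apply, Fin.sum_univ_two]

theorem T_zpow_mul_apply_one_zero (k : ℤ) (g : SL(2, ℤ)) :
    (↑(ModularGroup.T ^ k * g) : Matrix (Fin 2) (Fin 2) ℤ) 1 0 = g 1 0 := by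
  rw [coe_mul, ModularGroup.coe_T_zpow]
  simp [Matrix.mul_apply, Fin.sum_univ_two]

/-- the cusp relation on `SL(2, ℤ)` (in terms of first columns) -/
def Rel (N : ℕ) (g g' : SL(2, ℤ)) : Prop :=
  (Int.gcd (g 1 0 * g' 1 0) N : ℤ) ∣ g 0 0 * g' 1 0 - g' 0 0 * g 1 0

/-- the orbit criterion: `g'` lies in the `⟨T⟩`-orbit of the coset of `g`. -/
theorem orbit_iff (N : ℕ) (g g' : SL(2, ℤ)) :
    (∃ k : ℤ, (ModularGroup.T ^ k * g)⁻¹ * g' ∈ Gamma0 N) ↔ Rel N g g' := by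
  unfold Rel
  have h1 : ((Int.gcd (g 1 0 * g' 1 0) N : ℕ) : ℤ) ∣ (N : ℤ) := Int.gcd_dvd_right _ _
  have h2 : ((Int.gcd (g 1 0 * g' 1 0) N : ℕ) : ℤ) ∣ g 1 0 * g' 1 0 := Int.gcd_dvd_left _ _
  constructor
  · rintro ⟨k, hk⟩
    rw [coset_iff, T_zpow_mul_apply_zero_zero, T_zpow_mul_apply_one_zero] at hk
    have e : g 0 0 * g' 1 0 - g' 0 0 * g 1 0 =
        ((g 0 0 + k * g 1 0) * g' 1 0 - g' 0 0 * g 1 0) - k * (g 1 0 * g' 1 0) := by ring
    rw [e]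
    exact dvd_sub (h1.trans hk) (dvd_mul_of_dvd_right h2 k)
  · rintro ⟨q, hq⟩
    have hD := Int.gcd_eq_gcd_ab (g 1 0 * g' 1 0) N
    refine ⟨-(Int.gcdA (g 1 0 * g' 1 0) N * q), ?_⟩
    rw [coset_iff, T_zpow_mul_apply_zero_zero, T_zpow_mul_apply_one_zero]
    refine ⟨q * Int.gcdB (g 1 0 * g' 1 0) N, ?_⟩
    linear_combination hq + q * hD

theorem Rel.symm {N : ℕ} {g g' : SL(2, ℤ)} (h : Rel N g g') : Rel N g' g := by
  unfold Rel at h ⊢
  rw [mul_comm (g' 1 0) (g 1 0)]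
  have e : g' 0 0 * g 1 0 - g 0 0 * g' 1 0 = -(g 0 0 * g' 1 0 - g' 0 0 * g 1 0) := by ring
  rw [e]
  exact (dvd_neg).mpr h

/-! ### The complete invariant -/

/-- the level `δ = gcd (c, N)` of the cusp of `g` -/
def lvl (N : ℕ) (g : SL(2, ℤ)) : ℕ := Int.gcd (g 1 0) N

/-- the modulus `gcd (δ, N / δ)` -/
def md (N δ : ℕ) : ℕ := Nat.gcd δ (N / δ)

/-- the unit `a * (c / δ)⁻¹` modulo `m`, as a natural number `< m` -/
noncomputable def uinvAt (m δ : ℕ) (g : SL(2, ℤ)) : ℕ :=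
  ZMod.val (((g 0 0 : ℤ) : ZMod m) * ((g 1 0 / (δ : ℤ) : ℤ) : ZMod m)⁻¹)

/-- the complete invariant of the `⟨T⟩`-orbit of the coset of `g` -/
noncomputable def cls (N : ℕ) (g : SL(2, ℤ)) : Σ _ : ℕ, ℕ :=
  ⟨lvl N g, uinvAt (md N (lvl N g)) (lvl N g) g⟩

/-- the set of values of the invariant -/
def clsSet (N : ℕ) : Finset (Σ _ : ℕ, ℕ) :=
  N.divisors.sigma fun δ => (Finset.range (md N δ)).filter fun r => (md N δ).Coprime r

theorem card_clsSet (N : ℕ) : (clsSet N).card = ModularCurve.cuspCount N := by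
  unfold clsSet ModularCurve.cuspCount md
  rw [Finset.card_sigma]
  exact Finset.sum_congr rfl fun δ _ => (Nat.totient_eq_card_coprime _).symm

section arith

variable {N : ℕ}

theorem lvl_dvd_col (N : ℕ) (g : SL(2, ℤ)) : ((lvl N g : ℕ) : ℤ) ∣ g 1 0 := Int.gcd_dvd_left _ _

theorem lvl_dvd (N : ℕ) (g : SL(2, ℤ)) : lvl N g ∣ N :=
  Int.natCast_dvd_natCast.mp (Int.gcd_dvd_right _ _)

theorem lvl_pos (hN : N ≠ 0) (g : SL(2, ℤ)) : 0 < lvl N g :=
  Int.gcd_pos_of_ne_zero_right _ (by exact_mod_cast hN)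

theorem md_pos {δ : ℕ} (N : ℕ) (hδ : 0 < δ) : 0 < md N δ := Nat.gcd_pos_of_pos_left _ hδ

theorem md_dvd_left (N δ : ℕ) : md N δ ∣ δ := Nat.gcd_dvd_left _ _

theorem md_dvd_right (N δ : ℕ) : md N δ ∣ N / δ := Nat.gcd_dvd_right _ _

theorem col_eq (N : ℕ) (g : SL(2, ℤ)) : g 1 0 = (lvl N g : ℤ) * (g 1 0 / (lvl N g : ℤ)) :=
  (Int.mul_ediv_cancel' (lvl_dvd_col N g)).symm

theorem isCoprime_quot (hN : N ≠ 0) (g : SL(2, ℤ)) :
    IsCoprime (g 1 0 / (lvl N g : ℤ)) ((N / lvl N g : ℕ) : ℤ) := by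
  rw [Int.isCoprime_iff_gcd_eq_one, Int.natCast_div]
  exact Int.gcd_div_gcd_div_gcd (lvl_pos hN g)

theorem gcd_key (δ n : ℕ) (x y : ℤ) (hx : IsCoprime x (n : ℤ)) (hy : IsCoprime y (n : ℤ)) :
    Int.gcd (((δ : ℤ) * x) * ((δ : ℤ) * y)) ((δ * n : ℕ) : ℤ) = δ * Nat.gcd δ n := by
  have e : ((δ : ℤ) * x) * ((δ : ℤ) * y) = (δ : ℤ) * ((δ : ℤ) * (x * y)) := by ring
  rw [e, Nat.cast_mul, Int.gcd_mul_left, Int.natAbs_natCast]
  congr 1
  have hxy : IsCoprime (x * y) (n : ℤ) := hx.mul_left hy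
  rw [Int.isCoprime_iff_gcd_eq_one, Int.gcd_def, Int.natAbs_natCast] at hxy
  rw [Int.gcd_def, Int.natAbs_mul, Int.natAbs_natCast, Int.natAbs_natCast]
  exact Nat.Coprime.gcd_mul_right_cancel δ hxy

theorem lvl_dvd_of_rel {g g' : SL(2, ℤ)} (h : Rel N g g') : lvl N g ∣ lvl N g' := by
  unfold Rel at h
  have hc : ((lvl N g : ℕ) : ℤ) ∣ g 1 0 := lvl_dvd_col N g
  have hN : ((lvl N g : ℕ) : ℤ) ∣ (N : ℤ) := Int.gcd_dvd_right _ _
  have hD : ((lvl N g : ℕ) : ℤ) ∣ (Int.gcd (g 1 0 * g' 1 0) N : ℤ) :=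
    Int.dvd_coe_gcd (dvd_mul_of_dvd_left hc _) hN
  have h1 : ((lvl N g : ℕ) : ℤ) ∣ g 0 0 * g' 1 0 := by
    have := dvd_add (hD.trans h) (dvd_mul_of_dvd_right hc (g' 0 0))
    rwa [sub_add_cancel] at this
  have hcop : IsCoprime ((lvl N g : ℕ) : ℤ) (g 0 0) :=
    (isCoprime_col g).symm.of_isCoprime_of_dvd_left hc
  have h2 : ((lvl N g : ℕ) : ℤ) ∣ g' 1 0 := hcop.dvd_of_dvd_mul_left h1
  exact Int.natCast_dvd_natCast.mp (Int.dvd_coe_gcd h2 hN)

theorem lvl_eq_of_rel {g g' : SL(2, ℤ)} (h : Rel N g g') : lvl N g = lvl N g' :=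
  Nat.dvd_antisymm (lvl_dvd_of_rel h) (lvl_dvd_of_rel h.symm)

theorem rel_iff_of_lvl_eq (hN : N ≠ 0) {g g' : SL(2, ℤ)} (hl : lvl N g = lvl N g') :
    Rel N g g' ↔ ((md N (lvl N g) : ℕ) : ℤ) ∣
      g 0 0 * (g' 1 0 / (lvl N g : ℤ)) - g' 0 0 * (g 1 0 / (lvl N g : ℤ)) := by
  have hc := col_eq N g
  have hc' := col_eq N g'
  rw [← hl] at hc'
  have hx := isCoprime_quot hN g
  have hy := isCoprime_quot hN g'
  rw [← hl] at hy
  set δ := lvl N g with hδ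
  set x := g 1 0 / (δ : ℤ) with hxdef
  set y := g' 1 0 / (δ : ℤ) with hydef
  have hNδ : N = δ * (N / δ) := (Nat.mul_div_cancel' (lvl_dvd N g)).symm
  have hδ0 : (δ : ℤ) ≠ 0 := by exact_mod_cast (lvl_pos hN g).ne'
  unfold Rel
  have hD : Int.gcd (g 1 0 * g' 1 0) N = δ * md N δ := by
    rw [hc, hc']
    conv_lhs => rw [hNδ]
    exact gcd_key δ (N / δ) x y hx hy
  rw [hD]
  have e : g 0 0 * g' 1 0 - g' 0 0 * g 1 0 = (δ : ℤ) * (g 0 0 * y - g' 0 0 * x) := by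
    rw [hc, hc']; ring
  rw [e, Nat.cast_mul, mul_dvd_mul_iff_left hδ0]

theorem isUnit_quot (hN : N ≠ 0) (g : SL(2, ℤ)) :
    IsUnit (((g 1 0 / (lvl N g : ℤ) : ℤ)) : ZMod (md N (lvl N g))) := by
  rw [ZMod.coe_int_isUnit_iff_isCoprime]
  exact ((isCoprime_quot hN g).of_isCoprime_of_dvd_right
    (Int.natCast_dvd_natCast.mpr (md_dvd_right N _))).symm

theorem isUnit_col (N : ℕ) (g : SL(2, ℤ)) :
    IsUnit (((g 0 0 : ℤ)) : ZMod (md N (lvl N g))) := by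
  rw [ZMod.coe_int_isUnit_iff_isCoprime]
  exact (isCoprime_col g).symm.of_isCoprime_of_dvd_left
    ((Int.natCast_dvd_natCast.mpr (md_dvd_left N _)).trans (lvl_dvd_col N g))

theorem zmod_cross {m : ℕ} {a a' x y : ZMod m} (hx : IsUnit x) (hy : IsUnit y) :
    a * x⁻¹ = a' * y⁻¹ ↔ a * y = a' * x := by
  obtain ⟨u, rfl⟩ := hx
  obtain ⟨v, rfl⟩ := hy
  rw [ZMod.inv_coe_unit, ZMod.inv_coe_unit, Units.mul_inv_eq_iff_eq_mul, mul_assoc,
    mul_comm _ (u : ZMod m), ← mul_assoc, Units.eq_mul_inv_iff_mul_eq, eq_comm (a := a * ↑v)]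

end arith

/-! ### Classification -/

theorem rel_iff_cls (N : ℕ) (hN : N ≠ 0) (g g' : SL(2, ℤ)) : Rel N g g' ↔ cls N g = cls N g' := by
  have key : ∀ hl : lvl N g = lvl N g',
      (Rel N g g' ↔ uinvAt (md N (lvl N g)) (lvl N g) g =
        uinvAt (md N (lvl N g')) (lvl N g') g') := by
    intro hl
    rw [rel_iff_of_lvl_eq hN hl]
    have hu' := isUnit_quot hN g'
    have ha' := isUnit_col N g'
    rw [← hl] at hu' ha' ⊢
    have hu := isUnit_quot hN g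
    have : NeZero (md N (lvl N g)) := ⟨(md_pos N (lvl_pos hN g)).ne'⟩
    unfold uinvAt
    rw [(ZMod.val_injective _).eq_iff, zmod_cross hu hu', ← Int.cast_mul, ← Int.cast_mul,
      ZMod.intCast_eq_intCast_iff_dvd_sub, dvd_sub_comm]
  constructor
  · intro h
    have hl := lvl_eq_of_rel h
    unfold cls
    rw [Sigma.mk.injEq]
    exact ⟨hl, heq_of_eq ((key hl).mp h)⟩
  · intro h
    unfold cls at h
    rw [Sigma.mk.injEq] at h
    exact (key h.1).mpr (eq_of_heq h.2)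

theorem cls_mem (N : ℕ) (hN : N ≠ 0) (g : SL(2, ℤ)) : cls N g ∈ clsSet N := by
  unfold cls clsSet
  rw [Finset.mem_sigma]
  refine ⟨Nat.mem_divisors.mpr ⟨lvl_dvd N g, hN⟩, ?_⟩
  have : NeZero (md N (lvl N g)) := ⟨(md_pos N (lvl_pos hN g)).ne'⟩
  rw [Finset.mem_filter, Finset.mem_range]
  refine ⟨ZMod.val_lt _, ?_⟩
  have hu : IsUnit ((((g 0 0 : ℤ)) : ZMod (md N (lvl N g))) *
      (((g 1 0 / (lvl N g : ℤ) : ℤ)) : ZMod (md N (lvl N g)))⁻¹) := by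
    obtain ⟨u, hu⟩ := isUnit_quot hN g
    rw [← hu, ZMod.inv_coe_unit]
    exact (isUnit_col N g).mul (Units.isUnit _)
  obtain ⟨w, hw⟩ := hu
  show Nat.Coprime _ (uinvAt _ _ _)
  unfold uinvAt
  rw [← hw]
  exact (ZMod.val_coe_unit_coprime w).symm

/-- lifting units: a residue prime to `m` lifts to a residue prime to any multiple `δ` of `m` -/
theorem exists_coprime_lift {m δ r : ℕ} (hδ : 0 < δ) (hm : m ∣ δ) (hr : r.Coprime m) :
    ∃ a : ℕ, a.Coprime δ ∧ (a : ZMod m) = (r : ZMod m) := by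
  have : NeZero δ := ⟨hδ.ne'⟩
  obtain ⟨u, hu⟩ := ZMod.unitsMap_surjective hm (ZMod.unitOfCoprime r hr)
  refine ⟨(u : ZMod δ).val, ZMod.val_coe_unit_coprime u, ?_⟩
  have h2 : ((ZMod.unitsMap hm u : (ZMod m)ˣ) : ZMod m) = (r : ZMod m) := by
    rw [hu, ZMod.coe_unitOfCoprime]
  rw [← h2, ZMod.unitsMap_def, Units.coe_map, MonoidHom.coe_coe, ZMod.castHom_apply,
    ZMod.natCast_val]

theorem cls_surj (N : ℕ) (hN : N ≠ 0) (b : Σ _ : ℕ, ℕ) (hb : b ∈ clsSet N) :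
    ∃ g : SL(2, ℤ), cls N g = b := by
  obtain ⟨δ, r⟩ := b
  unfold clsSet at hb
  rw [Finset.mem_sigma, Nat.mem_divisors, Finset.mem_filter, Finset.mem_range] at hb
  obtain ⟨⟨hδN, -⟩, hr, hcop⟩ := hb
  have hδ : 0 < δ := Nat.pos_of_dvd_of_pos hδN (Nat.pos_of_ne_zero hN)
  obtain ⟨a, ha, har⟩ := exists_coprime_lift hδ (md_dvd_left N δ) hcop.symm
  obtain ⟨u, v, huv⟩ := Nat.isCoprime_iff_coprime.mpr ha
  let g : SL(2, ℤ) := ⟨!![(a : ℤ), -v; (δ : ℤ), u], by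
    rw [Matrix.det_fin_two_of]; linarith⟩
  have g00 : g 0 0 = (a : ℤ) := rfl
  have g10 : g 1 0 = (δ : ℤ) := rfl
  have hl : lvl N g = δ := by
    unfold lvl
    rw [g10, Int.gcd_natCast_natCast]
    exact Nat.gcd_eq_left hδN
  refine ⟨g, ?_⟩
  unfold cls
  rw [hl, Sigma.mk.injEq]
  refine ⟨rfl, heq_of_eq ?_⟩
  unfold uinvAt
  rw [g00, g10, Int.ediv_self (by exact_mod_cast hδ.ne'), Int.cast_one, ZMod.inv_one, mul_one,
    Int.cast_natCast, har, ZMod.val_natCast_of_lt hr]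

/-! ### The count -/

/-- **Model-independent cusp count.**  Let `π : SL(2, ℤ) → X` be onto and let `r` be an
equivalence relation on `X` such that `π g ~ π g'` iff the coset `g' Γ₀(N)` lies in the
`⟨T⟩`-orbit of `g Γ₀(N)`.  Then `X / r` has `cuspCount N` elements. -/
theorem card_quotient_eq_cuspCount (N : ℕ) (hN : N ≠ 0) {X : Type*} (π : SL(2, ℤ) → X)
    (hπ : Function.Surjective π) (r : Setoid X)
    (hr : ∀ g g', r (π g) (π g') ↔ ∃ k : ℤ, (ModularGroup.T ^ k * g)⁻¹ * g' ∈ Gamma0 N) :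
    Nat.card (Quotient r) = ModularCurve.cuspCount N := by
  rw [← card_clsSet]
  refine card_quotient_of_classifier π hπ r (cls N) (clsSet N) (fun g g' => ?_) (cls_mem N hN)
    (cls_surj N hN)
  rw [hr, orbit_iff, rel_iff_cls N hN]

/-- The orbit relation of a cyclic subgroup `⟨t⟩` acting on a coset space, through
representatives. -/
theorem orbitRel_zpowers_mk_iff {G : Type*} [Group G] (H : Subgroup G) (t g g' : G) :
    MulAction.orbitRel (Subgroup.zpowers t) (G ⧸ H) (g : G ⧸ H) (g' : G ⧸ H) ↔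
      ∃ k : ℤ, (t ^ k * g')⁻¹ * g ∈ H := by
  rw [MulAction.orbitRel_apply, MulAction.mem_orbit_iff]
  constructor
  · rintro ⟨⟨x, hx⟩, h⟩
    obtain ⟨k, rfl⟩ := Subgroup.mem_zpowers_iff.mp hx
    exact ⟨k, QuotientGroup.eq.mp h⟩
  · rintro ⟨k, hk⟩
    exact ⟨⟨t ^ k, Subgroup.zpow_mem_zpowers t k⟩, QuotientGroup.eq.mpr hk⟩

/-- **F4.** The number of orbits of `⟨T⟩` on `SL(2, ℤ) ⧸ Γ₀(N)` (left multiplication) is
`cuspCount N`. -/
theorem card_orbits_T (N : ℕ) (hN : N ≠ 0) :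
    Nat.card (MulAction.orbitRel.Quotient (Subgroup.zpowers ModularGroup.T)
      (SL(2, ℤ) ⧸ Gamma0 N)) = ModularCurve.cuspCount N := by
  refine card_quotient_eq_cuspCount N hN (fun g => (g : SL(2, ℤ) ⧸ Gamma0 N))
    QuotientGroup.mk_surjective (MulAction.orbitRel (Subgroup.zpowers ModularGroup.T) _)
    (fun g g' => ?_)
  rw [← orbitRel_zpowers_mk_iff]
  exact ⟨fun h => (MulAction.orbitRel _ _).symm h, fun h => (MulAction.orbitRel _ _).symm h⟩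

end Fermat.Agent.S20Lib.CuspCount
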