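/-
S20, chunk (F4), final statement: the number of `sT`-orbits on the coset space `Q N` is
`ModularCurve.cuspCount N`  (helper2).  The arithmetic is in `Lib/S20/CuspCount.lean`
(model-independent statement `CuspCount.card_quotient_eq_cuspCount`); here we only transfer it
to `Q N = ↥𝒮ℒ ⧸ (Γ₀(N)).subgroupOf 𝒮ℒ` along `toSL : SL(2, ℤ) → ↥𝒮ℒ`.
-/
import Fermat.Agent.Lib.S20.Defs
import Fermat.Agent.Lib.S20.CuspCount

set_option autoImplicit false

namespace Fermat.Agent.S20Lib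

open CongruenceSubgroup MatrixGroups Matrix.SpecialLinearGroup
open Fermat.Agent.LibS23

theorem CuspCount.toSL_mul (a b : SL(2, ℤ)) : toSL (a * b) = toSL a * toSL b :=
  Subtype.ext (map_mul (mapGL ℝ) a b)

theorem CuspCount.toSL_inv (a : SL(2, ℤ)) : toSL a⁻¹ = (toSL a)⁻¹ :=
  Subtype.ext (map_inv (mapGL ℝ) a)

theorem CuspCount.toSL_zpow (a : SL(2, ℤ)) (k : ℤ) : toSL (a ^ k) = toSL a ^ k :=
  Subtype.ext (map_zpow (mapGL ℝ) a k)

theorem CuspCount.toSL_surjective : Function.Surjective toSL := by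
  rintro ⟨_, ⟨γ, rfl⟩⟩
  exact ⟨γ, rfl⟩

theorem CuspCount.toSL_mem_iff (N : ℕ) (γ : SL(2, ℤ)) :
    toSL γ ∈ ((Gamma0 N : Subgroup SL(2, ℤ)) : Subgroup (GL (Fin 2) ℝ)).subgroupOf 𝒮ℒ ↔
      γ ∈ Gamma0 N := by
  rw [Subgroup.mem_subgroupOf]
  constructor
  · rintro ⟨γ', hγ', h⟩
    have e : γ' = γ := mapGL_injective h
    exact e ▸ hγ'
  · intro h
    exact ⟨γ, h, rfl⟩

/-- **F4.** The number of orbits of `⟨sT⟩` on the coset space `Q N` is `cuspCount N`. -/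
theorem card_orbits_sT (N : ℕ) [NeZero N] :
    Nat.card (MulAction.orbitRel.Quotient (Subgroup.zpowers sT) (Q N)) =
      ModularCurve.cuspCount N := by
  refine CuspCount.card_quotient_eq_cuspCount N (NeZero.ne N)
    (fun g => ((toSL g : ↥(𝒮ℒ)) : Q N))
    (fun q => ?_) (MulAction.orbitRel (Subgroup.zpowers sT) (Q N)) (fun g g' => ?_)
  · obtain ⟨h, rfl⟩ := QuotientGroup.mk_surjective q
    obtain ⟨γ, rfl⟩ := CuspCount.toSL_surjective h
    exact ⟨γ, rfl⟩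
  · have hsymm : MulAction.orbitRel (Subgroup.zpowers sT) (Q N) ((toSL g : ↥(𝒮ℒ)) : Q N)
        ((toSL g' : ↥(𝒮ℒ)) : Q N) ↔
        MulAction.orbitRel (Subgroup.zpowers sT) (Q N) ((toSL g' : ↥(𝒮ℒ)) : Q N)
          ((toSL g : ↥(𝒮ℒ)) : Q N) :=
      ⟨fun h => (MulAction.orbitRel _ _).symm h, fun h => (MulAction.orbitRel _ _).symm h⟩
    rw [hsymm, CuspCount.orbitRel_zpowers_mk_iff]
    refine exists_congr fun k => ?_
    have e : (sT ^ k * toSL g)⁻¹ * toSL g' = toSL ((ModularGroup.T ^ k * g)⁻¹ * g') := by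
      rw [CuspCount.toSL_mul, CuspCount.toSL_inv, CuspCount.toSL_mul, CuspCount.toSL_zpow]
      rfl
    rw [e, CuspCount.toSL_mem_iff]

end Fermat.Agent.S20Lib
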