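/-
S20, chunk C (helper6): graded counting, numerical part.  Pure arithmetic about the
dimension functions `m(k) = dim M_k(Γ₀(N))` and `p(k) = dim M_k(SL₂(ℤ))`.
-/
import Mathlib

set_option autoImplicit false

namespace Fermat.Agent.S20Lib.GradedCount

/-- the dimension of the space of level-one forms of weight `k`, as an explicit function -/
def pfun (k : ℤ) : ℤ :=
  if k < 0 then 0 else if k % 2 = 1 then 0 else if k % 12 = 2 then k / 12 else k / 12 + 1

theorem pfun_nonneg (k : ℤ) : 0 ≤ pfun k := by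
  unfold pfun
  split_ifs <;> omega

theorem pfun_of_neg {k : ℤ} (hk : k < 0) : pfun k = 0 := by
  unfold pfun
  rw [if_pos hk]

theorem pfun_of_odd {k : ℤ} (hk : k % 2 = 1) : pfun k = 0 := by
  unfold pfun
  split_ifs <;> omega

/-- the Hilbert series identity `(1 - t⁴)(1 - t⁶) ∑ p(k) tᵏ = 1` -/
theorem pfun_hilbert (k : ℤ) :
    pfun k - pfun (k - 4) - pfun (k - 6) + pfun (k - 10) = if k = 0 then 1 else 0 := by
  unfold pfun
  split_ifs <;> omega

theorem pfun_sub_twelve (k : ℤ) :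
    pfun k - pfun (k - 12) = if 0 ≤ k ∧ k % 2 = 0 ∧ k ≠ 2 then 1 else 0 := by
  unfold pfun
  split_ifs <;> omega

theorem pfun_sub_twelve_nonneg (k : ℤ) : 0 ≤ pfun k - pfun (k - 12) := by
  rw [pfun_sub_twelve]
  split_ifs <;> norm_num

theorem pfun_le (k : ℤ) (hk : 0 ≤ k) : 12 * pfun k ≤ k + 12 := by
  unfold pfun
  split_ifs <;> omega

theorem pfun_twelve_mul (q : ℤ) (hq : 0 ≤ q) : pfun (12 * q) = q + 1 := by
  unfold pfun
  split_ifs <;> omega

section numerics

/-- `n(k) = m(k) - m(k-4) - m(k-6) + m(k-10)` -/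
def nfun (m : ℤ → ℤ) (k : ℤ) : ℤ := m k - m (k - 4) - m (k - 6) + m (k - 10)

variable {m : ℤ → ℤ}

theorem nfun_of_neg (hneg : ∀ k, k < 0 → m k = 0) {k : ℤ} (hk : k < 0) : nfun m k = 0 := by
  unfold nfun
  rw [hneg k hk, hneg (k - 4) (by omega), hneg (k - 6) (by omega), hneg (k - 10) (by omega)]
  ring

theorem nfun_of_odd (hodd : ∀ k, k % 2 = 1 → m k = 0) {k : ℤ} (hk : k % 2 = 1) :
    nfun m k = 0 := by
  unfold nfun
  rw [hodd k hk, hodd (k - 4) (by omega), hodd (k - 6) (by omega), hodd (k - 10) (by omega)]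
  ring

theorem hilbert_sum (c : ℤ → ℤ) (K : ℕ) (k : ℤ) (h0 : 0 ≤ k) (hK : k ≤ K) :
    ∑ i ∈ Finset.range (K + 1),
      c i * (pfun (k - i) - pfun (k - i - 4) - pfun (k - i - 6) + pfun (k - i - 10)) = c k := by
  have h1 : ∀ i ∈ Finset.range (K + 1),
      c i * (pfun (k - i) - pfun (k - i - 4) - pfun (k - i - 6) + pfun (k - i - 10))
        = if i = k.toNat then c k else 0 := by
    intro i _
    rw [pfun_hilbert]
    by_cases h : i = k.toNat
    · have hk : (i : ℤ) = k := by omega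
      rw [if_pos (by omega), if_pos h, mul_one, hk]
    · rw [if_neg (by omega), if_neg h, mul_zero]
  rw [Finset.sum_congr rfl h1, Finset.sum_ite_eq' (Finset.range (K + 1)) k.toNat (fun _ => c k),
    if_pos (by rw [Finset.mem_range]; omega)]

/-- the formal identity `m(k) = ∑ n(i) p(k - i)` -/
theorem formal_identity (hneg : ∀ k, k < 0 → m k = 0) (K : ℕ) :
    ∀ k : ℤ, k ≤ K → m k = ∑ i ∈ Finset.range (K + 1), nfun m i * pfun (k - i) := by
  have key : ∀ j : ℕ, ∀ k : ℤ, k < j → k ≤ K →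
      m k = ∑ i ∈ Finset.range (K + 1), nfun m i * pfun (k - i) := by
    intro j
    induction j with
    | zero =>
      intro k hk _
      rw [hneg k (by simpa using hk)]
      symm
      refine Finset.sum_eq_zero fun i _ => ?_
      rw [pfun_of_neg (by push_cast at hk; omega), mul_zero]
    | succ j ih =>
      intro k hk hkK
      rcases lt_or_ge k (j : ℤ) with h | h
      · exact ih k h hkK
      · have hkj : k = j := by push_cast at hk; omega
        have h4 := ih (k - 4) (by omega) (by omega)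
        have h6 := ih (k - 6) (by omega) (by omega)
        have h10 := ih (k - 10) (by omega) (by omega)
        have hs := hilbert_sum (nfun m) K k (by omega) hkK
        have hm : m k = nfun m k + m (k - 4) + m (k - 6) - m (k - 10) := by
          unfold nfun; ring
        rw [hm, h4, h6, h10, ← hs, ← Finset.sum_add_distrib, ← Finset.sum_add_distrib,
          ← Finset.sum_sub_distrib]
        refine Finset.sum_congr rfl fun i _ => ?_
        rw [show k - 4 - (i : ℤ) = k - i - 4 by ring, show k - 6 - (i : ℤ) = k - i - 6 by ring,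
          show k - 10 - (i : ℤ) = k - i - 10 by ring]
        ring
  intro k hk
  exact key (k.toNat + 1) k (by push_cast; omega) hk

theorem sum_le_of_cusp (hneg : ∀ k, k < 0 → m k = 0) (hodd : ∀ k, k % 2 = 1 → m k = 0)
    (hn : ∀ k, 0 ≤ nfun m k) (ψ : ℤ) (hc : ∀ k, m k - m (k - 12) ≤ ψ) (K : ℕ) :
    ∑ i ∈ Finset.range (K + 1), nfun m i ≤ ψ := by
  set k : ℕ := 2 * K + 4 with hk
  have h1 := formal_identity hneg k (k : ℤ) le_rfl
  have h2 := formal_identity hneg k ((k : ℤ) - 12) (by omega)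
  have h3 : m k - m (k - 12)
      = ∑ i ∈ Finset.range (k + 1), nfun m i * (pfun (k - i) - pfun (k - i - 12)) := by
    rw [h1, h2, ← Finset.sum_sub_distrib]
    refine Finset.sum_congr rfl fun i _ => ?_
    rw [show (k : ℤ) - 12 - (i : ℤ) = k - i - 12 by ring]
    ring
  have h4 : ∑ i ∈ Finset.range (K + 1), nfun m i
      = ∑ i ∈ Finset.range (K + 1), nfun m i * (pfun (k - i) - pfun (k - i - 12)) := by
    refine Finset.sum_congr rfl fun i hi => ?_
    rw [Finset.mem_range] at hi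
    rcases Int.emod_two_eq_zero_or_one (i : ℤ) with h | h
    · rw [pfun_sub_twelve, if_pos (by push_cast [hk]; omega), mul_one]
    · rw [nfun_of_odd hodd h, zero_mul]
  have h5 : ∑ i ∈ Finset.range (K + 1), nfun m i * (pfun (k - i) - pfun (k - i - 12))
      ≤ ∑ i ∈ Finset.range (k + 1), nfun m i * (pfun (k - i) - pfun (k - i - 12)) := by
    refine Finset.sum_le_sum_of_subset_of_nonneg (Finset.range_mono (by omega)) ?_
    intro i _ _
    exact mul_nonneg (hn i) (pfun_sub_twelve_nonneg _)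
  have := hc k
  linarith

theorem exists_support_bound (hn : ∀ k, 0 ≤ nfun m k) (ψ : ℤ)
    (hS : ∀ K : ℕ, ∑ i ∈ Finset.range (K + 1), nfun m i ≤ ψ) :
    ∃ K0 : ℕ, ∀ i : ℕ, K0 < i → nfun m i = 0 := by
  have key : ∀ d : ℕ, ∀ K : ℕ, ψ - ∑ i ∈ Finset.range (K + 1), nfun m i ≤ d →
      ∃ K0 : ℕ, ∀ i : ℕ, K0 < i → nfun m i = 0 := by
    intro d
    induction d with
    | zero =>
      intro K hK
      refine ⟨K, fun i hi => ?_⟩
      by_contra hne
      have hpos : 1 ≤ nfun m i := by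
        have := hn i
        omega
      have h1 : ∑ j ∈ Finset.range (K + 1), nfun m j ≤ ∑ j ∈ Finset.range i, nfun m j :=
        Finset.sum_le_sum_of_subset_of_nonneg (Finset.range_mono (by omega))
          (fun j _ _ => hn j)
      have h2 := hS i
      rw [Finset.sum_range_succ] at h2
      push_cast at hK
      linarith
    | succ d ih =>
      intro K hK
      by_cases h : ∀ i : ℕ, K < i → nfun m i = 0
      · exact ⟨K, h⟩
      · push Not at h
        obtain ⟨i, hi, hne⟩ := h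
        have hpos : 1 ≤ nfun m i := by
          have := hn i
          omega
        have h1 : ∑ j ∈ Finset.range (K + 1), nfun m j ≤ ∑ j ∈ Finset.range i, nfun m j :=
          Finset.sum_le_sum_of_subset_of_nonneg (Finset.range_mono (by omega))
            (fun j _ _ => hn j)
        refine ih i ?_
        rw [Finset.sum_range_succ]
        push_cast at hK
        linarith
  have h0 := hS 0
  have hnn : 0 ≤ ∑ i ∈ Finset.range (0 + 1), nfun m i := Finset.sum_nonneg fun i _ => hn i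
  refine key (ψ - ∑ i ∈ Finset.range (0 + 1), nfun m i).toNat 0 ?_
  rw [Int.toNat_of_nonneg (by linarith)]

/-- the formal identity with a fixed support bound -/
theorem formal_identity' (hneg : ∀ k, k < 0 → m k = 0) (K0 : ℕ)
    (hK0 : ∀ i : ℕ, K0 < i → nfun m i = 0) (k : ℤ) :
    m k = ∑ i ∈ Finset.range (K0 + 1), nfun m i * pfun (k - i) := by
  rcases le_or_gt k (K0 : ℤ) with h | h
  · exact formal_identity hneg K0 k h
  · have h1 := formal_identity hneg k.toNat k (by omega)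
    rw [h1]
    symm
    refine Finset.sum_subset (Finset.range_mono (by omega)) ?_
    intro i _ hi
    rw [Finset.mem_range] at hi
    rw [hK0 i (by omega), zero_mul]

theorem stable_diff (hneg : ∀ k, k < 0 → m k = 0) (hodd : ∀ k, k % 2 = 1 → m k = 0) (K0 : ℕ)
    (hK0 : ∀ i : ℕ, K0 < i → nfun m i = 0) (k : ℤ) (hk : k % 2 = 0) (hkK : (K0 : ℤ) + 4 ≤ k) :
    m k - m (k - 12) = ∑ i ∈ Finset.range (K0 + 1), nfun m i := by
  rw [formal_identity' hneg K0 hK0 k, formal_identity' hneg K0 hK0 (k - 12),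
    ← Finset.sum_sub_distrib]
  refine Finset.sum_congr rfl fun i hi => ?_
  rw [Finset.mem_range] at hi
  rcases Int.emod_two_eq_zero_or_one (i : ℤ) with h | h
  · have := pfun_sub_twelve (k - i)
    rw [if_pos (by omega)] at this
    rw [show k - 12 - (i : ℤ) = k - i - 12 by ring, ← mul_sub, this, mul_one]
  · rw [nfun_of_odd hodd h, zero_mul, zero_mul, sub_zero]

theorem le_total_of_growth (hneg : ∀ k, k < 0 → m k = 0) (hn : ∀ k, 0 ≤ nfun m k) (K0 : ℕ)
    (hK0 : ∀ i : ℕ, K0 < i → nfun m i = 0) (ψ : ℕ)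
    (hg : ∀ k : ℤ, ∑ j ∈ Finset.range ψ, pfun (k - 12 * j) ≤ m k) :
    (ψ : ℤ) ≤ ∑ i ∈ Finset.range (K0 + 1), nfun m i := by
  set tot := ∑ i ∈ Finset.range (K0 + 1), nfun m i with htot
  by_contra hlt
  push Not at hlt
  set q : ℤ := (ψ : ℤ) * ψ + ψ with hq
  have hq0 : 0 ≤ q := by positivity
  have hqψ : (ψ : ℤ) ≤ q := by
    have : 0 ≤ (ψ : ℤ) * ψ := by positivity
    omega
  -- upper bound
  have hup : m (12 * q) ≤ tot * (q + 1) := by
    rw [formal_identity' hneg K0 hK0 (12 * q), htot, Finset.sum_mul]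
    refine Finset.sum_le_sum fun i _ => ?_
    refine mul_le_mul_of_nonneg_left ?_ (hn i)
    rcases lt_or_ge (12 * q - (i : ℤ)) 0 with h | h
    · rw [pfun_of_neg h]; omega
    · have := pfun_le _ h
      omega
  -- lower bound
  have hlow : (ψ : ℤ) * (q + 1 - ψ) ≤ m (12 * q) := by
    refine le_trans ?_ (hg (12 * q))
    have h1 : ∀ j ∈ Finset.range ψ, q + 1 - (ψ : ℤ) ≤ pfun (12 * q - 12 * (j : ℤ)) := by
      intro j hj
      rw [Finset.mem_range] at hj
      rw [show 12 * q - 12 * (j : ℤ) = 12 * (q - j) by ring, pfun_twelve_mul _ (by omega)]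
      omega
    calc (ψ : ℤ) * (q + 1 - ψ) = ∑ _j ∈ Finset.range ψ, (q + 1 - (ψ : ℤ)) := by
          rw [Finset.sum_const, Finset.card_range, nsmul_eq_mul]
      _ ≤ _ := Finset.sum_le_sum h1
  have h3 : tot * (q + 1) ≤ ((ψ : ℤ) - 1) * (q + 1) :=
    mul_le_mul_of_nonneg_right (by omega) (by omega)
  have h4 : (ψ : ℤ) * (q + 1 - ψ) ≤ ((ψ : ℤ) - 1) * (q + 1) := by linarith
  have h5 : (ψ : ℤ) * (q + 1 - ψ) - ((ψ : ℤ) - 1) * (q + 1) = (ψ : ℤ) + 1 := by
    rw [hq]; ring
  have : (0 : ℤ) ≤ ψ := by positivity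
  linarith

/-- **Graded counting, numerical part.** -/
theorem numerics (hneg : ∀ k, k < 0 → m k = 0) (hodd : ∀ k, k % 2 = 1 → m k = 0)
    (hn : ∀ k, 0 ≤ nfun m k) (ψ : ℕ) (hc : ∀ k, m k - m (k - 12) ≤ ψ)
    (hg : ∀ k : ℤ, ∑ j ∈ Finset.range ψ, pfun (k - 12 * j) ≤ m k) :
    ∃ K0 : ℕ, (∀ i : ℕ, K0 < i → nfun m i = 0) ∧
      ∑ i ∈ Finset.range (K0 + 1), nfun m i = ψ ∧
      (∀ k : ℤ, k % 2 = 0 → (K0 : ℤ) + 4 ≤ k → m k - m (k - 12) = ψ) ∧
      (∀ k : ℤ, m k = ∑ i ∈ Finset.range (K0 + 1), nfun m i * pfun (k - i)) := by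
  have hS := sum_le_of_cusp hneg hodd hn ψ hc
  obtain ⟨K0, hK0⟩ := exists_support_bound hn ψ hS
  have htot : ∑ i ∈ Finset.range (K0 + 1), nfun m i = ψ :=
    le_antisymm (hS K0) (le_total_of_growth hneg hn K0 hK0 ψ hg)
  refine ⟨K0, hK0, htot, fun k hk hkK => ?_, formal_identity' hneg K0 hK0⟩
  rw [stable_diff hneg hodd K0 hK0 k hk hkK, htot]

end numerics

end Fermat.Agent.S20Lib.GradedCount
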