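/-
S20, chunk C (helper6): homogeneous generators of `M_*(Γ₀(N))` over the level-one forms.
Regular sequence `(E₄, E₆)`, the numbers `n(k)`, graded Nakayama, padding.
-/
import Fermat.Agent.Lib.S20.Basic
import Fermat.Agent.Lib.S20.GensDef
import Fermat.Agent.Lib.S20.Simple
import Fermat.Agent.Lib.S20.GensNum

set_option autoImplicit false

namespace Fermat.Agent.S20Lib

open UpperHalfPlane ModularForm CongruenceSubgroup MatrixGroups Filter Matrix.SpecialLinearGroup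
open SlashInvariantForm EisensteinSeries
open scoped Manifold Topology
open Fermat.Agent.LibS23

/-! ### level-one preliminaries -/

theorem gensCore_delta_ne (z : ℍ) : E₄ z ^ 3 - E₆ z ^ 2 ≠ 0 := by
  have h := ModularForm.discriminant_eq_E₄_cube_sub_E₆_sq z
  have h0 := ModularForm.discriminant_ne_zero z
  intro h1
  rw [h1, zero_div] at h
  exact h0 h

theorem gensCore_E4_ne_zero : (⇑E₄ : ℍ → ℂ) ≠ 0 := by
  intro h
  exact E_ne_zero (by norm_num : 3 ≤ 4) ⟨2, rfl⟩ (DFunLike.coe_injective h)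

theorem gensCore_E6_ne_zero : (⇑E₆ : ℍ → ℂ) ≠ 0 := by
  intro h
  exact E_ne_zero (by norm_num : 3 ≤ 6) ⟨3, rfl⟩ (DFunLike.coe_injective h)

theorem gensCore_mdiff_E4 : MDiff (⇑E₄ : ℍ → ℂ) := ModularFormClass.holo E₄

theorem gensCore_mdiff_E6 : MDiff (⇑E₆ : ℍ → ℂ) := ModularFormClass.holo E₆

section core

variable {N : ℕ} [NeZero N]

/-- change of weight along an equality -/
theorem gensCore_cast {k l : ℤ} (h : k = l) (f : ModularForm (Gamma0 N) k) :
    ∃ g : ModularForm (Gamma0 N) l, (⇑g : ℍ → ℂ) = ⇑f := by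
  subst h
  exact ⟨f, rfl⟩

/-- **Regular sequence**: if `E₄ a = E₆ b` then `a = E₆ c` and `b = E₄ c`. -/
theorem gensCore_regular {k : ℤ} (a : ModularForm (Gamma0 N) (k - 4))
    (b : ModularForm (Gamma0 N) (k - 6))
    (h : (⇑E₄ : ℍ → ℂ) * ⇑a = ⇑E₆ * ⇑b) :
    ∃ c : ModularForm (Gamma0 N) (k - 10),
      (⇑a : ℍ → ℂ) = ⇑E₆ * ⇑c ∧ (⇑b : ℍ → ℂ) = ⇑E₄ * ⇑c := by
  set hf : ℍ → ℂ := ((⇑E₄ : ℍ → ℂ) ^ 2 * ⇑b - ⇑E₆ * ⇑a) / ((⇑E₄ : ℍ → ℂ) ^ 3 - (⇑E₆ : ℍ → ℂ) ^ 2)
    with hfdef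
  have ha : MDiff (⇑a : ℍ → ℂ) := ModularFormClass.holo a
  have hb : MDiff (⇑b : ℍ → ℂ) := ModularFormClass.holo b
  have hh : MDiff hf := by
    refine MDifferentiable.div ?_ ?_ ?_
    · exact ((gensCore_mdiff_E4.pow 2).mul hb).sub (gensCore_mdiff_E6.mul ha)
    · exact (gensCore_mdiff_E4.pow 3).sub (gensCore_mdiff_E6.pow 2)
    · intro z
      exact gensCore_delta_ne z
  have hz : ∀ z, E₄ z * a z = E₆ z * b z := fun z => congrFun h z
  have hval : ∀ z, hf z = (E₄ z ^ 2 * b z - E₆ z * a z) / (E₄ z ^ 3 - E₆ z ^ 2) := fun z => rfl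
  have h1 : (⇑a : ℍ → ℂ) = ⇑E₆ * hf := by
    funext z
    rw [Pi.mul_apply, hval]
    have := gensCore_delta_ne z
    field_simp
    linear_combination ((E₄ z) ^ 2) * hz z
  have h2 : (⇑b : ℍ → ℂ) = ⇑E₄ * hf := by
    funext z
    rw [Pi.mul_apply, hval]
    have := gensCore_delta_ne z
    field_simp
    linear_combination (E₆ z) * hz z
  obtain ⟨g, hg⟩ := exists_of_eq_mul simple_isLO_E6 simple_tendsto_E6 a hh h1
  obtain ⟨c, hc⟩ := gensCore_cast (show k - 4 - 6 = k - 10 by ring) g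
  refine ⟨c, ?_, ?_⟩
  · rw [hc, hg]; exact h1
  · rw [hc, hg]; exact h2

end core

/-! ### the spaces of modular forms as spaces of functions -/

section spaces

variable (N : ℕ) [NeZero N]

/-- the coercion to functions as a linear map -/
def gensCoeLin (k : ℤ) : ModularForm (Gamma0 N) k →ₗ[ℂ] (ℍ → ℂ) where
  toFun f := ⇑f
  map_add' _ _ := rfl
  map_smul' _ _ := rfl

theorem gensCoeLin_injective (k : ℤ) : Function.Injective (gensCoeLin N k) :=
  fun _ _ h => DFunLike.coe_injective h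

/-- the space of functions that are modular forms of weight `k` on `Γ₀(N)` -/
def Mfun (k : ℤ) : Submodule ℂ (ℍ → ℂ) := LinearMap.range (gensCoeLin N k)

variable {N}

theorem mem_Mfun {k : ℤ} {F : ℍ → ℂ} :
    F ∈ Mfun N k ↔ ∃ f : ModularForm (Gamma0 N) k, (⇑f : ℍ → ℂ) = F := LinearMap.mem_range

instance instFinDimMfun (k : ℤ) : FiniteDimensional ℂ (Mfun N k) :=
  LinearMap.finiteDimensional_range _

theorem finrank_Mfun (k : ℤ) : Module.finrank ℂ (Mfun N k) = mdim N k :=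
  LinearMap.finrank_range_of_inj (gensCoeLin_injective N k)

theorem Mfun_mdiff {k : ℤ} {F : ℍ → ℂ} (hF : F ∈ Mfun N k) : MDiff F := by
  obtain ⟨f, rfl⟩ := mem_Mfun.mp hF
  exact ModularFormClass.holo f

theorem Mfun_eq_bot_of_neg {k : ℤ} (hk : k < 0) : Mfun N k = ⊥ := by
  rw [eq_bot_iff]
  intro F hF
  obtain ⟨f, rfl⟩ := mem_Mfun.mp hF
  rw [eq_zero_of_neg hk f]
  exact Submodule.zero_mem _

theorem Mfun_eq_bot_of_odd {k : ℤ} (hk : Odd k) : Mfun N k = ⊥ := by
  rw [eq_bot_iff]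
  intro F hF
  obtain ⟨f, rfl⟩ := mem_Mfun.mp hF
  rw [eq_zero_of_odd hk f]
  exact Submodule.zero_mem _

theorem gensCore_mdim_eq_zero_of_neg {k : ℤ} (hk : k < 0) : mdim N k = 0 := by
  rw [← finrank_Mfun, Mfun_eq_bot_of_neg hk, finrank_bot]

theorem gensCore_mdim_eq_zero_of_odd {k : ℤ} (hk : Odd k) : mdim N k = 0 := by
  rw [← finrank_Mfun, Mfun_eq_bot_of_odd hk, finrank_bot]

theorem mul_mem_Mfun {w l k : ℤ} {G F : ℍ → ℂ} (hG : IsLO w G) (hF : F ∈ Mfun N l)
    (h : l + w = k) : G * F ∈ Mfun N k := by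
  obtain ⟨f, rfl⟩ := mem_Mfun.mp hF
  obtain ⟨g, hg, -⟩ := exists_mul_levelOne hG f
  obtain ⟨g', hg'⟩ := gensCore_cast h g
  exact mem_Mfun.mpr ⟨g', by rw [hg', hg]⟩

/-- the submodule `G · P` -/
def mulSub (G : ℍ → ℂ) (P : Submodule ℂ (ℍ → ℂ)) : Submodule ℂ (ℍ → ℂ) :=
  P.map (LinearMap.mulLeft ℂ G)

theorem mem_mulSub {G X : ℍ → ℂ} {P : Submodule ℂ (ℍ → ℂ)} :
    X ∈ mulSub G P ↔ ∃ F ∈ P, G * F = X := by
  simp [mulSub, Submodule.mem_map]

instance instFinDimMulSub (G : ℍ → ℂ) (P : Submodule ℂ (ℍ → ℂ)) [FiniteDimensional ℂ P] :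
    FiniteDimensional ℂ (mulSub G P) := by
  unfold mulSub
  infer_instance

theorem finrank_mulSub {G : ℍ → ℂ} (hG : MDiff G) (hG0 : G ≠ 0) (P : Submodule ℂ (ℍ → ℂ))
    (hP : ∀ F ∈ P, MDiff F) :
    Module.finrank ℂ (mulSub G P) = Module.finrank ℂ P := by
  have hinj : Function.Injective ((LinearMap.mulLeft ℂ G).domRestrict P) := by
    rw [← LinearMap.ker_eq_bot, LinearMap.ker_eq_bot']
    intro x hx
    have h1 : G * (x : ℍ → ℂ) = 0 := hx
    rcases (UpperHalfPlane.mul_eq_zero_iff hG (hP _ x.2)).mp h1 with h | h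
    · exact absurd h hG0
    · exact Subtype.ext h
  have h2 := LinearMap.finrank_range_of_inj hinj
  rw [LinearMap.range_domRestrict] at h2
  exact h2

variable (N)

/-- `E₄ M_{k-4} + E₆ M_{k-6}` -/
noncomputable def Isub (k : ℤ) : Submodule ℂ (ℍ → ℂ) :=
  mulSub (⇑E₄) (Mfun N (k - 4)) ⊔ mulSub (⇑E₆) (Mfun N (k - 6))

variable {N}

theorem mulSub_E4_le (k : ℤ) : mulSub (⇑E₄) (Mfun N (k - 4)) ≤ Mfun N k := by
  intro X hX
  obtain ⟨F, hF, rfl⟩ := mem_mulSub.mp hX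
  exact mul_mem_Mfun simple_isLO_E4 hF (by ring)

theorem mulSub_E6_le (k : ℤ) : mulSub (⇑E₆) (Mfun N (k - 6)) ≤ Mfun N k := by
  intro X hX
  obtain ⟨F, hF, rfl⟩ := mem_mulSub.mp hX
  exact mul_mem_Mfun simple_isLO_E6 hF (by ring)

theorem Isub_le (k : ℤ) : Isub N k ≤ Mfun N k := sup_le (mulSub_E4_le k) (mulSub_E6_le k)

instance instFinDimIsub (k : ℤ) : FiniteDimensional ℂ (Isub N k) := by
  unfold Isub
  infer_instance

theorem mulSub_inf (k : ℤ) :
    mulSub (⇑E₄) (Mfun N (k - 4)) ⊓ mulSub (⇑E₆) (Mfun N (k - 6))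
      = mulSub ((⇑E₄ : ℍ → ℂ) * ⇑E₆) (Mfun N (k - 10)) := by
  apply le_antisymm
  · intro X hX
    obtain ⟨hX4, hX6⟩ := Submodule.mem_inf.mp hX
    obtain ⟨F, hF, rfl⟩ := mem_mulSub.mp hX4
    obtain ⟨G, hG, hGF⟩ := mem_mulSub.mp hX6
    obtain ⟨a, rfl⟩ := mem_Mfun.mp hF
    obtain ⟨b, rfl⟩ := mem_Mfun.mp hG
    obtain ⟨c, hc1, -⟩ := gensCore_regular a b hGF.symm
    refine mem_mulSub.mpr ⟨⇑c, mem_Mfun.mpr ⟨c, rfl⟩, ?_⟩
    rw [hc1, mul_assoc]
  · intro X hX
    obtain ⟨H, hH, rfl⟩ := mem_mulSub.mp hX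
    refine Submodule.mem_inf.mpr ⟨?_, ?_⟩
    · refine mem_mulSub.mpr ⟨⇑E₆ * H, mul_mem_Mfun simple_isLO_E6 hH (by ring), ?_⟩
      rw [mul_assoc]
    · refine mem_mulSub.mpr ⟨⇑E₄ * H, mul_mem_Mfun simple_isLO_E4 hH (by ring), ?_⟩
      rw [← mul_assoc, mul_comm (⇑E₆ : ℍ → ℂ)]

theorem finrank_Isub (k : ℤ) :
    Module.finrank ℂ (Isub N k) + mdim N (k - 10) = mdim N (k - 4) + mdim N (k - 6) := by
  have h := Submodule.finrank_sup_add_finrank_inf_eq (mulSub (⇑E₄) (Mfun N (k - 4)))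
    (mulSub (⇑E₆) (Mfun N (k - 6)))
  rw [mulSub_inf, finrank_mulSub gensCore_mdiff_E4 gensCore_E4_ne_zero _ (fun F hF => Mfun_mdiff hF),
    finrank_mulSub gensCore_mdiff_E6 gensCore_E6_ne_zero _ (fun F hF => Mfun_mdiff hF),
    finrank_mulSub (gensCore_mdiff_E4.mul gensCore_mdiff_E6) ?_ _ (fun F hF => Mfun_mdiff hF),
    finrank_Mfun, finrank_Mfun, finrank_Mfun] at h
  · exact h
  · intro h0
    rcases (UpperHalfPlane.mul_eq_zero_iff gensCore_mdiff_E4 gensCore_mdiff_E6).mp h0 with h1 | h1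
    · exact gensCore_E4_ne_zero h1
    · exact gensCore_E6_ne_zero h1

theorem gensCore_exists_compl_Isub (k : ℤ) :
    ∃ C : Submodule ℂ (ℍ → ℂ), C ≤ Mfun N k ∧ C ⊓ Isub N k = ⊥ ∧ C ⊔ Isub N k = Mfun N k := by
  obtain ⟨q, hq⟩ := Submodule.exists_isCompl (Isub N k)
  refine ⟨q ⊓ Mfun N k, inf_le_right, ?_, ?_⟩
  · rw [inf_assoc, inf_comm (Mfun N k), ← inf_assoc, inf_comm q, hq.inf_eq_bot, bot_inf_eq]
  · rw [sup_comm, ← sup_inf_assoc_of_le q (Isub_le k), hq.sup_eq_top, top_inf_eq]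

variable (N)

/-- a complement of `E₄ M_{k-4} + E₆ M_{k-6}` in `M_k` -/
noncomputable def Csub (k : ℤ) : Submodule ℂ (ℍ → ℂ) := Classical.choose (gensCore_exists_compl_Isub (N := N) k)

variable {N}

theorem Csub_le (k : ℤ) : Csub N k ≤ Mfun N k := (Classical.choose_spec (gensCore_exists_compl_Isub k)).1

theorem Csub_inf (k : ℤ) : Csub N k ⊓ Isub N k = ⊥ :=
  (Classical.choose_spec (gensCore_exists_compl_Isub k)).2.1

theorem Csub_sup (k : ℤ) : Csub N k ⊔ Isub N k = Mfun N k :=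
  (Classical.choose_spec (gensCore_exists_compl_Isub k)).2.2

instance instFinDimCsub (k : ℤ) : FiniteDimensional ℂ (Csub N k) :=
  Submodule.finiteDimensional_of_le (Csub_le k)

/-- `n(k) = m(k) - m(k-4) - m(k-6) + m(k-10)` is the dimension of the complement -/
theorem finrank_Csub (k : ℤ) :
    (Module.finrank ℂ (Csub N k) : ℤ) = GradedCount.nfun (fun k => (mdim N k : ℤ)) k := by
  have h := Submodule.finrank_sup_add_finrank_inf_eq (Csub N k) (Isub N k)
  rw [Csub_sup, Csub_inf, finrank_bot, finrank_Mfun] at h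
  have h2 := finrank_Isub (N := N) k
  unfold GradedCount.nfun
  simp only
  omega

end spaces

/-! ### generators and the graded Nakayama lemma -/

section gens

variable (N : ℕ) [NeZero N] (K0 : ℕ)

/-- the index type of the generators of weight `≤ K0` -/
abbrev GenIdx : Type := Σ i : Fin (K0 + 1), Fin (Module.finrank ℂ (Csub N ((i : ℕ) : ℤ)))

/-- the weight of a generator -/
def genWt (j : GenIdx N K0) : ℤ := ((j.1 : ℕ) : ℤ)

/-- the generators (as functions) -/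
noncomputable def genFun (j : GenIdx N K0) : ℍ → ℂ :=
  ((Module.finBasis ℂ (Csub N ((j.1 : ℕ) : ℤ))) j.2 : ℍ → ℂ)

variable {N K0}

theorem genFun_mem (j : GenIdx N K0) : genFun N K0 j ∈ Mfun N (genWt N K0 j) :=
  Csub_le _ (Submodule.coe_mem _)

/-- elements of the complement `C_k` are combinations of the generators of weight `k` -/
theorem gensCore_exists_coeff_of_mem_Csub
    (hK0 : ∀ i : ℕ, K0 < i → Module.finrank ℂ (Csub N (i : ℤ)) = 0) (k : ℤ) {c : ℍ → ℂ}
    (hc : c ∈ Csub N k) :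
    ∃ cJ : GenIdx N K0 → ℂ, (∀ j, genWt N K0 j ≠ k → cJ j = 0) ∧
      c = ∑ j, cJ j • genFun N K0 j := by
  classical
  by_cases hk : ∃ i : Fin (K0 + 1), ((i : ℕ) : ℤ) = k
  · obtain ⟨i, rfl⟩ := hk
    set bs := Module.finBasis ℂ (Csub N ((i : ℕ) : ℤ)) with hbs
    set v : GenIdx N K0 → ℍ → ℂ := fun j => if j.1 = i then genFun N K0 j else 0 with hv
    have hmem : c ∈ Submodule.span ℂ (Set.range v) := by
      have h1 := bs.sum_repr ⟨c, hc⟩
      have h2 : c = ∑ t, (bs.repr ⟨c, hc⟩ t) • ((bs t : Csub N ((i : ℕ) : ℤ)) : ℍ → ℂ) := by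
        have := congrArg (Subtype.val) h1
        simp only [Submodule.coe_sum, Submodule.coe_smul] at this
        exact this.symm
      rw [h2]
      refine Submodule.sum_mem _ fun t _ => Submodule.smul_mem _ _ (Submodule.subset_span ?_)
      refine ⟨⟨i, t⟩, ?_⟩
      simp only [hv, if_true]
      rfl
    obtain ⟨w, hw⟩ := (Submodule.mem_span_range_iff_exists_fun ℂ).mp hmem
    refine ⟨fun j => if j.1 = i then w j else 0, ?_, ?_⟩
    · intro j hj
      have : j.1 ≠ i := by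
        intro h
        apply hj
        rw [genWt, h]
      simp only [this, if_false]
    · rw [← hw]
      refine Finset.sum_congr rfl fun j _ => ?_
      by_cases h : j.1 = i
      · simp only [hv, h, if_true]
      · simp only [hv, h, if_false, smul_zero, zero_smul]
  · have hc0 : c = 0 := by
      rcases lt_or_ge k 0 with h | h
      · have := Csub_le k hc
        rw [Mfun_eq_bot_of_neg h] at this
        exact (Submodule.mem_bot ℂ).mp this
      · have hgt : K0 < k.toNat := by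
          by_contra hle
          push Not at hle
          exact hk ⟨⟨k.toNat, by omega⟩, by simp; omega⟩
        have h0 := hK0 k.toNat hgt
        rw [Int.toNat_of_nonneg h, Submodule.finrank_eq_zero] at h0
        rw [h0] at hc
        exact (Submodule.mem_bot ℂ).mp hc
    refine ⟨fun _ => 0, fun _ _ => rfl, ?_⟩
    rw [hc0]
    simp

/-- one step of the Nakayama induction -/
theorem gensCore_exists_step (hK0 : ∀ i : ℕ, K0 < i → Module.finrank ℂ (Csub N (i : ℤ)) = 0) (k : ℤ)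
    {F : ℍ → ℂ} (hF : F ∈ Mfun N k) :
    ∃ (cJ : GenIdx N K0 → ℂ) (F₁ F₂ : ℍ → ℂ), F₁ ∈ Mfun N (k - 4) ∧ F₂ ∈ Mfun N (k - 6) ∧
      (∀ j, genWt N K0 j ≠ k → cJ j = 0) ∧
      F = ∑ j, cJ j • genFun N K0 j + ⇑E₄ * F₁ + ⇑E₆ * F₂ := by
  rw [← Csub_sup k] at hF
  obtain ⟨c, hc, X, hX, rfl⟩ := Submodule.mem_sup.mp hF
  obtain ⟨X₁, hX₁, X₂, hX₂, rfl⟩ := Submodule.mem_sup.mp hX
  obtain ⟨F₁, hF₁, rfl⟩ := mem_mulSub.mp hX₁
  obtain ⟨F₂, hF₂, rfl⟩ := mem_mulSub.mp hX₂
  obtain ⟨cJ, hcJ, rfl⟩ := gensCore_exists_coeff_of_mem_Csub hK0 k hc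
  exact ⟨cJ, F₁, F₂, hF₁, hF₂, hcJ, by rw [add_assoc]⟩

/-- **Graded Nakayama**: every modular form is a combination of the generators with
level-one coefficients. -/
theorem gensCore_exists_combination (hK0 : ∀ i : ℕ, K0 < i → Module.finrank ℂ (Csub N (i : ℤ)) = 0) :
    ∀ (k : ℤ) (F : ℍ → ℂ), F ∈ Mfun N k → ∃ a : GenIdx N K0 → ℍ → ℂ,
      (∀ j, IsLO (k - genWt N K0 j) (a j)) ∧ F = ∑ j, a j * genFun N K0 j := by
  have key : ∀ n : ℕ, ∀ k : ℤ, k < n → ∀ F : ℍ → ℂ, F ∈ Mfun N k →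
      ∃ a : GenIdx N K0 → ℍ → ℂ,
        (∀ j, IsLO (k - genWt N K0 j) (a j)) ∧ F = ∑ j, a j * genFun N K0 j := by
    intro n
    induction n with
    | zero =>
      intro k hk F hF
      rw [Mfun_eq_bot_of_neg (by simpa using hk)] at hF
      have hF0 : F = 0 := (Submodule.mem_bot ℂ).mp hF
      refine ⟨fun _ => 0, fun _ => IsLO.zero, ?_⟩
      rw [hF0]
      simp
    | succ n ih =>
      intro k hk F hF
      rcases lt_or_ge k (n : ℤ) with h | h
      · exact ih k h F hF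
      · obtain ⟨cJ, F₁, F₂, hF₁, hF₂, hcJ, rfl⟩ := gensCore_exists_step hK0 k hF
        obtain ⟨a1, ha1, rfl⟩ := ih (k - 4) (by push_cast at hk; omega) F₁ hF₁
        obtain ⟨a2, ha2, rfl⟩ := ih (k - 6) (by push_cast at hk; omega) F₂ hF₂
        refine ⟨fun j => cJ j • (1 : ℍ → ℂ) + ⇑E₄ * a1 j + ⇑E₆ * a2 j, fun j => ?_, ?_⟩
        · refine IsLO.add (IsLO.add ?_ ?_) ?_
          · by_cases hj : genWt N K0 j = k
            · exact (IsLO.one.smul (cJ j)).of_eq_weight (by rw [hj]; ring)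
            · rw [hcJ j hj, zero_smul]
              exact IsLO.zero
          · exact (simple_isLO_E4.mul (ha1 j)).of_eq_weight (by ring)
          · exact (simple_isLO_E6.mul (ha2 j)).of_eq_weight (by ring)
        · rw [Finset.mul_sum, Finset.mul_sum, ← Finset.sum_add_distrib, ← Finset.sum_add_distrib]
          refine Finset.sum_congr rfl fun j _ => ?_
          rw [add_mul, add_mul, smul_mul_assoc, one_mul, mul_assoc, mul_assoc]
  intro k F hF
  exact key (k.toNat + 1) k (by push_cast; omega) F hF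

end gens

/-! ### the main statement -/

section final

variable {N : ℕ} [NeZero N]

/-- **Existence of homogeneous generators**, given the cusp squeeze inequality
`m(k) ≤ m(k - 12) + ψ`. -/
theorem exists_gens_of_squeeze
    (hsq : ∀ k : ℤ, mdim N k ≤ mdim N (k - 12) + Fintype.card (Q N)) :
    Nonempty (Gens N) := by
  classical
  set m : ℤ → ℤ := fun k => (mdim N k : ℤ) with hm
  have hneg : ∀ k, k < 0 → m k = 0 := fun k hk => by
    simp only [hm, gensCore_mdim_eq_zero_of_neg hk, Nat.cast_zero]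
  have hodd : ∀ k, k % 2 = 1 → m k = 0 := fun k hk => by
    simp only [hm, gensCore_mdim_eq_zero_of_odd (Int.odd_iff.mpr hk), Nat.cast_zero]
  have hn : ∀ k, 0 ≤ GradedCount.nfun m k := fun k => by
    rw [← finrank_Csub]
    exact Int.natCast_nonneg _
  have hc : ∀ k, m k - m (k - 12) ≤ ((Fintype.card (Q N) : ℕ) : ℤ) := fun k => by
    have := hsq k
    simp only [hm]
    omega
  have hS := GradedCount.sum_le_of_cusp hneg hodd hn _ hc
  obtain ⟨K0, hK0⟩ := GradedCount.exists_support_bound hn _ hS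
  have hK0' : ∀ i : ℕ, K0 < i → Module.finrank ℂ (Csub N (i : ℤ)) = 0 := fun i hi => by
    have := hK0 i hi
    rw [← finrank_Csub] at this
    exact_mod_cast this
  -- the number of generators is at most `ψ`
  have hcard : Fintype.card (GenIdx N K0) ≤ Fintype.card (Q N) := by
    rw [Fintype.card_sigma]
    simp only [Fintype.card_fin]
    have h0 := hS K0
    have h1 : ((∑ i : Fin (K0 + 1), Module.finrank ℂ (Csub N ((i : ℕ) : ℤ)) : ℕ) : ℤ)
        = ∑ i ∈ Finset.range (K0 + 1), GradedCount.nfun m i := by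
      push_cast
      rw [Fin.sum_univ_eq_sum_range (fun i => (Module.finrank ℂ (Csub N (i : ℤ)) : ℤ)) (K0 + 1)]
      exact Finset.sum_congr rfl fun i _ => finrank_Csub _
    rw [← h1] at h0
    exact_mod_cast h0
  obtain ⟨ι⟩ := Function.Embedding.nonempty_of_card_le hcard
  set wt : Q N → ℤ := Function.extend ι (genWt N K0) (fun _ => 0) with hwt
  set B : Q N → ℍ → ℂ := Function.extend ι (genFun N K0) (fun _ => 0) with hBdef
  have hwtι : ∀ j, wt (ι j) = genWt N K0 j := fun j => ι.injective.extend_apply _ _ j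
  have hBι : ∀ j, B (ι j) = genFun N K0 j := fun j => ι.injective.extend_apply _ _ j
  have hB0 : ∀ q, q ∉ Set.range ι → B q = 0 := fun q hq =>
    Function.extend_apply' _ _ q (by simpa using hq)
  have hB : ∀ q, ∃ f : ModularForm (Gamma0 N) (wt q), (⇑f : ℍ → ℂ) = B q := by
    intro q
    by_cases hq : q ∈ Set.range ι
    · obtain ⟨j, rfl⟩ := hq
      rw [hBι, hwtι]
      exact mem_Mfun.mp (genFun_mem j)
    · rw [hB0 q hq]
      exact ⟨0, rfl⟩
  choose b hb using hB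
  refine ⟨⟨wt, b, fun k f => ?_⟩⟩
  obtain ⟨aJ, haJ, hf⟩ := gensCore_exists_combination hK0' k ⇑f (mem_Mfun.mpr ⟨f, rfl⟩)
  refine ⟨Function.extend ι aJ (fun _ => 0), fun q => ?_, ?_⟩
  · by_cases hq : q ∈ Set.range ι
    · obtain ⟨j, rfl⟩ := hq
      rw [ι.injective.extend_apply, hwtι]
      exact haJ j
    · rw [Function.extend_apply' _ _ q (by simpa using hq)]
      exact IsLO.zero
  · rw [hf]
    refine Fintype.sum_of_injective ι ι.injective _ _ ?_ ?_
    · intro q hq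
      rw [hb, hB0 q hq, mul_zero]
    · intro j
      rw [hb, hBι, ι.injective.extend_apply]

end final

end Fermat.Agent.S20Lib
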