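/-
S20, chunk B (helper5): the cusp squeeze.
`mdim N k ≤ mdim N (k - 12) + #Q N`, and in the case of equality every family of
"first `N` coefficients at all conjugates" compatible with the action of `T` is realised.
-/
import Fermat.Agent.Lib.S20.Basic
import Fermat.Agent.Lib.S20.Cusp

set_option autoImplicit false

namespace Fermat.Agent.S20Lib

open UpperHalfPlane ModularForm CongruenceSubgroup MatrixGroups Filter Matrix.SpecialLinearGroup
open SlashInvariantForm EisensteinSeries
open scoped Manifold Topology
open Fermat.Agent.LibS23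

section Squeeze
variable {N : ℕ} [NeZero N]

/-- the cusp map: the first `N` coefficients of all conjugates. -/
noncomputable def squeezePhi (N : ℕ) [NeZero N] (k : ℤ) :
    ModularForm (Gamma0 N) k →ₗ[ℂ] (Q N → Fin N → ℂ) where
  toFun f := fun q n => acoef f q n
  map_add' f g := by
    funext q n
    exact acoef_add f g q n
  map_smul' c f := by
    funext q n
    simp [acoef_smul]

theorem squeezePhi_apply (k : ℤ) (f : ModularForm (Gamma0 N) k) (q : Q N) (n : Fin N) :
    squeezePhi N k f q n = acoef f q n := rfl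

/-- the subspace of families compatible with the action of `T`. -/
noncomputable def squeezeW (N : ℕ) [NeZero N] : Submodule ℂ (Q N → Fin N → ℂ) where
  carrier := {a | ∀ q n, a (sT • q) n = zetaInv N ^ (n : ℕ) * a q n}
  zero_mem' := by intro q n; simp
  add_mem' := by
    intro a b ha hb q n
    simp only [Pi.add_apply]
    rw [ha q n, hb q n]
    ring
  smul_mem' := by
    intro c a ha q n
    simp only [Pi.smul_apply, smul_eq_mul]
    rw [ha q n]
    ring

theorem mem_squeezeW {a : Q N → Fin N → ℂ} :
    a ∈ squeezeW N ↔ ∀ q n, a (sT • q) n = zetaInv N ^ (n : ℕ) * a q n := Iff.rfl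

theorem squeezePhi_mem (k : ℤ) (f : ModularForm (Gamma0 N) k) : squeezePhi N k f ∈ squeezeW N :=
  fun q n => acoef_sT f q n

theorem squeezeW_pow {a : Q N → Fin N → ℂ} (ha : a ∈ squeezeW N) (j : ℕ) (q : Q N) (n : Fin N) :
    a (sT ^ j • q) n = zetaInv N ^ (j * (n : ℕ)) * a q n := by
  induction j with
  | zero => simp
  | succ j ih =>
    rw [pow_succ', mul_smul, ha (sT ^ j • q) n, ih]
    rw [show (j + 1) * (n : ℕ) = (n : ℕ) + j * (n : ℕ) by ring, pow_add]
    ring

theorem zetaInv_pow_self : zetaInv N ^ N = 1 := (zetaInv_pow_eq_one_iff N).2 dvd_rfl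

/-- orthogonality of the `N`-th roots of unity. -/
theorem squeeze_geom (r : ℕ) :
    ∑ j ∈ Finset.range N, zetaInv N ^ (j * r) = if N ∣ r then (N : ℂ) else 0 := by
  have h1 : ∀ j : ℕ, zetaInv N ^ (j * r) = (zetaInv N ^ r) ^ j := fun j => by
    rw [← pow_mul, mul_comm]
  simp_rw [h1]
  split_ifs with h
  · rw [(zetaInv_pow_eq_one_iff r).2 h]
    simp
  · have hne : zetaInv N ^ r ≠ 1 := fun h' => h ((zetaInv_pow_eq_one_iff r).1 h')
    rw [geom_sum_eq hne, ← pow_mul, mul_comm, pow_mul, zetaInv_pow_self, one_pow, sub_self,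
      zero_div]

/-- the finite Fourier transform along `T`-orbits. -/
noncomputable def squeezeDFT (N : ℕ) [NeZero N] : (Q N → Fin N → ℂ) →ₗ[ℂ] (Q N → ℂ) where
  toFun a := fun q => ∑ n, a q n
  map_add' a b := by
    funext q
    simp [Finset.sum_add_distrib]
  map_smul' c a := by
    funext q
    simp [Finset.mul_sum]

theorem squeezeDFT_eq_zero {a : Q N → Fin N → ℂ} (ha : a ∈ squeezeW N)
    (h0 : squeezeDFT N a = 0) : a = 0 := by
  have hsum : ∀ (j : ℕ) (q : Q N), ∑ n : Fin N, zetaInv N ^ (j * (n : ℕ)) * a q n = 0 := by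
    intro j q
    have := congrFun h0 (sT ^ j • q)
    simp only [squeezeDFT, LinearMap.coe_mk, AddHom.coe_mk, Pi.zero_apply] at this
    rw [← this]
    exact Finset.sum_congr rfl fun n _ => (squeezeW_pow ha j q n).symm
  funext q m
  have hN : (N : ℂ) ≠ 0 := Nat.cast_ne_zero.2 (NeZero.ne N)
  have key : (N : ℂ) * a q m = 0 := by
    have h2 : ∑ j ∈ Finset.range N, zetaInv N ^ (j * (N - (m : ℕ))) *
        ∑ n : Fin N, zetaInv N ^ (j * (n : ℕ)) * a q n = 0 := by
      simp [hsum]
    rw [← h2]
    simp_rw [Finset.mul_sum]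
    rw [Finset.sum_comm]
    have h3 : ∀ n : Fin N, ∑ j ∈ Finset.range N,
        zetaInv N ^ (j * (N - (m : ℕ))) * (zetaInv N ^ (j * (n : ℕ)) * a q n) =
        (if n = m then (N : ℂ) else 0) * a q n := by
      intro n
      have h4 : ∀ j : ℕ, zetaInv N ^ (j * (N - (m : ℕ))) * (zetaInv N ^ (j * (n : ℕ)) * a q n) =
          zetaInv N ^ (j * ((n : ℕ) + (N - (m : ℕ)))) * a q n := fun j => by
        rw [mul_add, pow_add]
        ring
      simp_rw [h4]
      rw [← Finset.sum_mul, squeeze_geom]
      congr 1
      have hn := n.2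
      have hm := m.2
      by_cases hnm : n = m
      · subst hnm
        rw [if_pos rfl, if_pos]
        rw [show (n : ℕ) + (N - (n : ℕ)) = N by omega]
      · rw [if_neg hnm, if_neg]
        intro hdvd
        apply hnm
        have hlt : (n : ℕ) + (N - (m : ℕ)) < 2 * N := by omega
        have hpos : (n : ℕ) + (N - (m : ℕ)) ≠ 0 := by omega
        have := Nat.eq_of_dvd_of_lt_two_mul hpos hdvd hlt
        exact Fin.ext (by omega)
    simp_rw [h3]
    simp
  exact (mul_eq_zero.1 key).resolve_left hN

theorem finrank_squeezeW_le : Module.finrank ℂ (squeezeW N) ≤ Fintype.card (Q N) := by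
  have hinj : Function.Injective ((squeezeDFT N).comp (squeezeW N).subtype) := by
    rw [← LinearMap.ker_eq_bot, LinearMap.ker_eq_bot']
    intro a ha
    exact Subtype.ext (squeezeDFT_eq_zero a.2 ha)
  have := LinearMap.finrank_le_finrank_of_injective hinj
  simpa using this

/-- elements of the kernel of the cusp map are divisible by `Δ`. -/
theorem squeeze_ker_spec {k : ℤ} (f : LinearMap.ker (squeezePhi N k)) :
    ∃ g : ModularForm (Gamma0 N) (k - 12 * (1 : ℕ)),
      ∀ z : ℍ, (f : ModularForm (Gamma0 N) k) z = ModularForm.discriminant z * g z := by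
  obtain ⟨g, hg⟩ := exists_eq_discriminant_pow_mul (f : ModularForm (Gamma0 N) k) 1 (by
    intro q n hn
    have h0 : squeezePhi N k (f : ModularForm (Gamma0 N) k) = 0 := LinearMap.mem_ker.1 f.2
    have hn' : n < N := by simpa using hn
    have h1 : squeezePhi N k (f : ModularForm (Gamma0 N) k) q ⟨n, hn'⟩ = 0 := by
      rw [h0]
      rfl
    exact h1)
  refine ⟨g, fun z => ?_⟩
  have := congrFun hg z
  simpa using this

/-- the quotient by `Δ` on the kernel of the cusp map. -/
noncomputable def squeezeDiv (N : ℕ) [NeZero N] (k : ℤ) :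
    LinearMap.ker (squeezePhi N k) →ₗ[ℂ] ModularForm (Gamma0 N) (k - 12 * (1 : ℕ)) where
  toFun f := (squeeze_ker_spec f).choose
  map_add' f g := by
    have h1 := (squeeze_ker_spec f).choose_spec
    have h2 := (squeeze_ker_spec g).choose_spec
    have h3 := (squeeze_ker_spec (f + g)).choose_spec
    apply DFunLike.ext
    intro z
    have hΔ := ModularForm.discriminant_ne_zero z
    apply mul_left_cancel₀ hΔ
    have h4 : ((f + g : LinearMap.ker (squeezePhi N k)) : ModularForm (Gamma0 N) k) z =
        (f : ModularForm (Gamma0 N) k) z + (g : ModularForm (Gamma0 N) k) z := rfl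
    have h5 : ((squeeze_ker_spec f).choose + (squeeze_ker_spec g).choose) z =
        (squeeze_ker_spec f).choose z + (squeeze_ker_spec g).choose z := rfl
    rw [h5, mul_add, ← h1 z, ← h2 z, ← h4]
    exact (h3 z).symm
  map_smul' c f := by
    have h1 := (squeeze_ker_spec f).choose_spec
    have h3 := (squeeze_ker_spec (c • f)).choose_spec
    apply DFunLike.ext
    intro z
    have hΔ := ModularForm.discriminant_ne_zero z
    apply mul_left_cancel₀ hΔ
    have h4 : ((c • f : LinearMap.ker (squeezePhi N k)) : ModularForm (Gamma0 N) k) z =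
        c * (f : ModularForm (Gamma0 N) k) z := rfl
    have h5 : ((RingHom.id ℂ) c • (squeeze_ker_spec f).choose) z =
        c * (squeeze_ker_spec f).choose z := rfl
    rw [h5, mul_left_comm, ← h1 z, ← h4]
    exact (h3 z).symm

theorem squeezeDiv_injective (k : ℤ) : Function.Injective (squeezeDiv N k) := by
  rw [← LinearMap.ker_eq_bot, LinearMap.ker_eq_bot']
  intro f hf
  have hspec := (squeeze_ker_spec f).choose_spec
  have h0 : (squeeze_ker_spec f).choose = 0 := hf
  apply Subtype.ext
  apply DFunLike.ext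
  intro z
  have h1 := hspec z
  rw [h0] at h1
  simpa using h1

theorem finrank_ker_squeezePhi_le (k : ℤ) :
    Module.finrank ℂ (LinearMap.ker (squeezePhi N k)) ≤ mdim N (k - 12) := by
  have h := LinearMap.finrank_le_finrank_of_injective (squeezeDiv_injective (N := N) k)
  have e : mdim N (k - 12 * ((1 : ℕ) : ℤ)) = mdim N (k - 12) := by norm_num
  rw [← e]
  exact h

theorem finrank_range_squeezePhi_le (k : ℤ) :
    Module.finrank ℂ (LinearMap.range (squeezePhi N k)) ≤ Module.finrank ℂ (squeezeW N) := by
  apply Submodule.finrank_mono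
  rintro _ ⟨f, rfl⟩
  exact squeezePhi_mem k f

/-- cusp squeeze, inequality -/
theorem mdim_le_add (k : ℤ) : mdim N k ≤ mdim N (k - 12) + Fintype.card (Q N) := by
  have h := LinearMap.finrank_range_add_finrank_ker (squeezePhi N k)
  have h1 := finrank_ker_squeezePhi_le (N := N) k
  have h2 := finrank_range_squeezePhi_le (N := N) k
  have h3 := finrank_squeezeW_le (N := N)
  unfold mdim at *
  omega

/-- cusp squeeze, surjectivity in the case of equality -/
theorem exists_acoef_eq {k : ℤ} (hk : mdim N k = mdim N (k - 12) + Fintype.card (Q N))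
    (a : Q N → ℕ → ℂ) (ha : ∀ q n, a (sT • q) n = zetaInv N ^ n * a q n) :
    ∃ f : ModularForm (Gamma0 N) k, ∀ q : Q N, ∀ n : ℕ, n < N → acoef f q n = a q n := by
  have h := LinearMap.finrank_range_add_finrank_ker (squeezePhi N k)
  have h1 := finrank_ker_squeezePhi_le (N := N) k
  have h2 := finrank_range_squeezePhi_le (N := N) k
  have h3 := finrank_squeezeW_le (N := N)
  have hle : LinearMap.range (squeezePhi N k) ≤ squeezeW N := by
    rintro _ ⟨f, rfl⟩
    exact squeezePhi_mem k f
  have heq : Module.finrank ℂ (LinearMap.range (squeezePhi N k)) =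
      Module.finrank ℂ (squeezeW N) := by
    unfold mdim at *
    omega
  have hrange : LinearMap.range (squeezePhi N k) = squeezeW N :=
    Submodule.eq_of_le_of_finrank_eq hle heq
  have hmem : (fun (q : Q N) (n : Fin N) => a q n) ∈ squeezeW N := fun q n => ha q n
  rw [← hrange] at hmem
  obtain ⟨f, hf⟩ := hmem
  refine ⟨f, fun q n hn => ?_⟩
  have h1 : squeezePhi N k f q ⟨n, hn⟩ = a q n := by
    rw [hf]
  exact h1

end Squeeze

end Fermat.Agent.S20Lib
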