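/-
S20, chunk C (helper6): existence of homogeneous generators of `M_*(Γ₀(N))` over the
level-one forms (`Gens N`), from the cusp squeeze inequality.
-/
import Fermat.Agent.Lib.S20.GensCore
import Fermat.Agent.Lib.S20.Squeeze

set_option autoImplicit false

namespace Fermat.Agent.S20Lib

open Fermat.Agent.LibS23

theorem exists_gens (N : ℕ) [NeZero N] : Nonempty (Gens N) :=
  exists_gens_of_squeeze fun k => mdim_le_add k

end Fermat.Agent.S20Lib
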