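/-
S20, chunk D (helper1), part A: basic tools, nonvanishing of `det B`, `mdim` in terms of the
generators.
-/
import Fermat.Agent.Lib.S20.Gens
import Fermat.Agent.Lib.S20.SimpleDiv
import Fermat.Agent.Lib.S20.LevelOne
import Fermat.Agent.Lib.S20.Squeeze
import Fermat.Agent.Lib.S20.Cusp
import Fermat.Agent.Lib.S20.Basic

set_option autoImplicit false

namespace Fermat.Agent.S20Lib

open UpperHalfPlane ModularForm CongruenceSubgroup MatrixGroups Filter Matrix.SpecialLinearGroup
open SlashInvariantForm EisensteinSeries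
open scoped Manifold Topology
open Fermat.Agent.LibS23

/-! ### generalities -/

/-- if all power sums of a finite family of complex numbers vanish, the family is zero. -/
theorem dual_eq_zero_of_pow_sum {ι : Type*} [Fintype ι] (x : ι → ℂ)
    (h : ∀ m : ℕ, 1 ≤ m → ∑ i, x i ^ m = 0) (i : ι) : x i = 0 := by
  classical
  by_contra hi₀
  set Y : Finset ℂ := (Finset.univ.image x).erase (x i) with hY
  set P : Polynomial ℂ := Polynomial.X * ∏ y ∈ Y, (Polynomial.X - Polynomial.C y) with hP
  have hsum : ∑ i', P.eval (x i') = 0 := by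
    have h1 : ∀ i', P.eval (x i') =
        ∑ m ∈ Finset.range (P.natDegree + 1), P.coeff m * x i' ^ m :=
      fun i' => Polynomial.eval_eq_sum_range _
    simp_rw [h1]
    rw [Finset.sum_comm]
    refine Finset.sum_eq_zero fun m _ => ?_
    rw [← Finset.mul_sum]
    rcases Nat.eq_zero_or_pos m with rfl | hm
    · have : P.coeff 0 = 0 := by rw [hP, Polynomial.coeff_X_mul_zero]
      rw [this, zero_mul]
    · rw [h m hm, mul_zero]
  have heval : ∀ i', P.eval (x i') = if x i' = x i then P.eval (x i) else 0 := by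
    intro i'
    split_ifs with hi
    · rw [hi]
    · rw [hP, Polynomial.eval_mul, Polynomial.eval_prod]
      have hmem : x i' ∈ Y := Finset.mem_erase.mpr ⟨hi, Finset.mem_image_of_mem x (Finset.mem_univ i')⟩
      rw [Finset.prod_eq_zero hmem (by rw [Polynomial.eval_sub, Polynomial.eval_X, Polynomial.eval_C, sub_self]), mul_zero]
  rw [Finset.sum_congr rfl (fun i' _ => heval i')] at hsum
  rw [Finset.sum_ite, Finset.sum_const_zero, add_zero, Finset.sum_const, nsmul_eq_mul] at hsum
  have hP0 : P.eval (x i) ≠ 0 := by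
    rw [hP, Polynomial.eval_mul, Polynomial.eval_X, Polynomial.eval_prod]
    refine mul_ne_zero hi₀ (Finset.prod_ne_zero_iff.mpr fun y hy => ?_)
    simp only [Polynomial.eval_sub, Polynomial.eval_X, Polynomial.eval_C]
    exact sub_ne_zero.mpr (Finset.ne_of_mem_erase hy).symm
  have hcard : ((Finset.univ.filter fun i' => x i' = x i).card : ℂ) ≠ 0 := by
    rw [Nat.cast_ne_zero]
    exact Finset.card_ne_zero.mpr ⟨i, by simp⟩
  exact (mul_ne_zero hcard hP0) hsum

/-- a nonzero function is a level-one form of at most one weight. -/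
theorem IsLO.weight_unique {k l : ℤ} {F : ℍ → ℂ} (hk : IsLO k F) (hl : IsLO l F) (hF : F ≠ 0) :
    k = l := by
  obtain ⟨f, hf⟩ := hk
  obtain ⟨g, hg⟩ := hl
  set γ : GL (Fin 2) ℝ := mapGL ℝ ModularGroup.S with hγ
  have hγmem : γ ∈ (𝒮ℒ : Subgroup (GL (Fin 2) ℝ)) := ⟨ModularGroup.S, rfl⟩
  have h1 : ∀ z : ℍ, F (γ • z) = denom γ z ^ k * F z := fun z => by
    have := SlashInvariantForm.slash_action_eqn'' f hγmem z
    rwa [hf] at this
  have h2 : ∀ z : ℍ, F (γ • z) = denom γ z ^ l * F z := fun z => by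
    have := SlashInvariantForm.slash_action_eqn'' g hγmem z
    rwa [hg] at this
  have h3 : ((fun z : ℍ => denom γ z ^ k) - (fun z : ℍ => denom γ z ^ l)) * F = 0 := by
    funext z
    simp only [Pi.mul_apply, Pi.sub_apply, Pi.zero_apply]
    rw [sub_mul, ← h1, ← h2, sub_self]
  have hFd : MDiff F := hf ▸ ModularFormClass.holo f
  rcases (UpperHalfPlane.mul_eq_zero_iff
    ((mdifferentiable_denom_zpow γ k).sub (mdifferentiable_denom_zpow γ l)) hFd).mp h3 with h | h
  · have h4 := congrFun h ⟨2 * Complex.I, by simp⟩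
    simp only [Pi.sub_apply, Pi.zero_apply, sub_eq_zero] at h4
    have hden : denom γ (⟨2 * Complex.I, by simp⟩ : ℍ) = 2 * Complex.I := by
      simp [hγ, denom, ModularGroup.S]
    rw [hden] at h4
    have h5 := congrArg norm h4
    rw [norm_zpow, norm_zpow] at h5
    have h6 : ‖(2 * Complex.I : ℂ)‖ = 2 := by simp
    rw [h6] at h5
    exact zpow_right_injective₀ (by norm_num : (0 : ℝ) < 2) (by norm_num) h5
  · exact absurd h hF

theorem dual_mdiff_det {n : Type} [Fintype n] [DecidableEq n] (A : Matrix n n (ℍ → ℂ))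
    (h : ∀ i j, MDiff (A i j)) : MDiff A.det := by
  rw [Matrix.det_apply]
  refine MDifferentiable.sum fun σ _ => ?_
  have hp : MDiff (∏ i, A (σ i) i) := MDifferentiable.prod fun i _ => h (σ i) i
  rcases Int.units_eq_one_or (Equiv.Perm.sign σ) with h1 | h1
  · rw [h1, one_smul]; exact hp
  · rw [h1]
    have : (-1 : ℤˣ) • (∏ i, A (σ i) i) = -(∏ i, A (σ i) i) := by simp
    rw [this]
    exact hp.neg

theorem dual_coe_sum {Γ : Subgroup (GL (Fin 2) ℝ)} {k : ℤ} {ι : Type*} (s : Finset ι)
    (g : ι → ModularForm Γ k) : (⇑(∑ j ∈ s, g j) : ℍ → ℂ) = ∑ j ∈ s, ⇑(g j) := by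
  classical
  induction s using Finset.induction_on with
  | empty => simp
  | insert a s ha ih => rw [Finset.sum_insert ha, Finset.sum_insert ha, ModularForm.coe_add, ih]

section level
variable {N : ℕ} [NeZero N]

/-- `quotientFunc` only depends on the underlying function. -/
theorem dual_quotientFunc_congr {F₁ F₂ : Type*} [FunLike F₁ ℍ ℂ] [FunLike F₂ ℍ ℂ] {k : ℤ}
    [SlashInvariantFormClass F₁ ((Gamma0 N : Subgroup SL(2, ℤ)) : Subgroup (GL (Fin 2) ℝ)) k]
    [SlashInvariantFormClass F₂ ((Gamma0 N : Subgroup SL(2, ℤ)) : Subgroup (GL (Fin 2) ℝ)) k]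
    (f : F₁) (g : F₂) (h : (⇑f : ℍ → ℂ) = ⇑g) (q : Q N) :
    quotientFunc f q = quotientFunc g q := by
  induction q using Quotient.inductionOn with
  | h r => rw [quotientFunc_mk, quotientFunc_mk, h]

theorem dual_quotientFunc_zero {k : ℤ} (q : Q N) :
    quotientFunc (0 : ModularForm (Gamma0 N) k) q = 0 := by
  induction q using Quotient.inductionOn with
  | h r =>
    rw [quotientFunc_mk]
    simp

/-- combinations of the generators with level-one coefficients -/
theorem Gens.combo (G : Gens N) (K : ℤ) (c : Q N → ℍ → ℂ)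
    (hc : ∀ j, IsLO (K - G.wt j) (c j)) :
    ∃ f : ModularForm (Gamma0 N) K, (⇑f : ℍ → ℂ) = ∑ j, c j * ⇑(G.b j) ∧
      ∀ q : Q N, quotientFunc f q = ∑ j, c j * quotientFunc (G.b j) q := by
  classical
  have h1 : ∀ j, ∃ g : ModularForm (Gamma0 N) K, (⇑g : ℍ → ℂ) = c j * ⇑(G.b j) := by
    intro j
    obtain ⟨g, hg, -⟩ := exists_mul_levelOne (hc j) (G.b j)
    exact ⟨ModularForm.mcast (by ring) g, hg⟩
  choose g hg using h1
  refine ⟨∑ j, g j, ?_, ?_⟩
  · rw [dual_coe_sum]
    exact Finset.sum_congr rfl fun j _ => hg j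
  · intro q
    refine quotientFunc_eq_sum _ G.wt G.b c hc ?_ q
    rw [dual_coe_sum]
    exact Finset.sum_congr rfl fun j _ => hg j

/-- the matrix of conjugates of the generators -/
noncomputable def Gens.B (G : Gens N) : Matrix (Q N) (Q N) (ℍ → ℂ) :=
  Matrix.of fun j q : Q N => quotientFunc (G.b j) q

theorem Gens.B_apply (G : Gens N) (j q : Q N) : G.B j q = quotientFunc (G.b j) q := rfl

theorem Gens.mdiff_B (G : Gens N) (j q : Q N) : MDiff (G.B j q) :=
  (fam_quotientFunc (G.b j)).holo q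

theorem Gens.mdiff_det (G : Gens N) : MDiff G.B.det :=
  dual_mdiff_det _ fun j q => G.mdiff_B j q

theorem Gens.det_ne_zero (G : Gens N) :
    (Matrix.of fun j q : Q N => quotientFunc (G.b j) q).det ≠ 0 := by
  classical
  change G.B.det ≠ 0
  set μ := Fintype.card (Q N) with hμdef
  let e : Q N ≃ Fin μ := Fintype.equivFin (Q N)
  set tq : Q N → ℍ → ℂ := quotientFunc (tForm N) with htqdef
  have htq : Fam 12 tq := fam_quotientFunc (tForm N)
  -- powers of `t` in terms of the generators
  have h1 : ∀ i : Q N, ∃ a : Q N → ℍ → ℂ, ∀ q : Q N, tq q ^ (e i : ℕ) = ∑ j, a j * G.B j q := by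
    intro i
    obtain ⟨f, -, hf⟩ := exists_pow (tForm N) (e i : ℕ)
    obtain ⟨a, ha, hfa⟩ := G.gen _ f
    refine ⟨a, fun q => ?_⟩
    rw [← hf q]
    exact quotientFunc_eq_sum f G.wt G.b a ha hfa q
  choose A hA using h1
  let v : Fin μ → ℍ → ℂ := fun j => tq (e.symm j)
  let V : Matrix (Fin μ) (Fin μ) (ℍ → ℂ) := Matrix.vandermonde v
  have hV : (V.transpose.submatrix e e) = (Matrix.of A) * G.B := by
    ext i q : 1
    rw [Matrix.mul_apply]
    simp only [Matrix.submatrix_apply, Matrix.transpose_apply, V, Matrix.vandermonde_apply, v,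
      Equiv.symm_apply_apply, Matrix.of_apply]
    exact hA i q
  have hvinj : Function.Injective v := fun i j hij =>
    e.symm.injective (quotientFunc_tForm_injective hij)
  have hvholo : ∀ j, MDiff (v j) := fun j => htq.holo _
  have hdetV : V.det = ∏ i, ∏ j ∈ Finset.Ioi i, (v j - v i) := Matrix.det_vandermonde v
  have hVne : V.det ≠ 0 := by
    rw [hdetV]
    intro h0
    rw [UpperHalfPlane.prod_eq_zero_iff
      (fun i _ => MDifferentiable.prod fun j _ => (hvholo j).sub (hvholo i))] at h0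
    obtain ⟨i, -, hi⟩ := h0
    rw [UpperHalfPlane.prod_eq_zero_iff (fun j _ => (hvholo j).sub (hvholo i))] at hi
    obtain ⟨j, hj, hji⟩ := hi
    have : j = i := hvinj (sub_eq_zero.mp hji)
    rw [this] at hj
    exact (lt_irrefl i) (Finset.mem_Ioi.mp hj)
  intro h0
  apply hVne
  have h2 : (V.transpose.submatrix e e).det = V.det := by
    rw [Matrix.det_submatrix_equiv_self, Matrix.det_transpose]
  rw [← h2, hV, Matrix.det_mul, h0, mul_zero]

theorem Gens.b_ne_zero (G : Gens N) (j : Q N) : G.b j ≠ 0 := by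
  classical
  intro h
  apply G.det_ne_zero
  refine Matrix.det_eq_zero_of_row_eq_zero j fun q => ?_
  rw [Matrix.of_apply, h]
  exact dual_quotientFunc_zero q

theorem Gens.wt_even (G : Gens N) (j : Q N) : Even (G.wt j) := by
  by_contra h
  exact G.b_ne_zero j (eq_zero_of_odd (Int.not_even_iff_odd.mp h) _)

theorem Gens.wt_nonneg (G : Gens N) (j : Q N) : 0 ≤ G.wt j := by
  by_contra h
  exact G.b_ne_zero j (eq_zero_of_neg (not_le.mp h) _)

/-- a relation between the generators with holomorphic coefficients is trivial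
(in terms of the conjugates) -/
theorem Gens.eq_zero_of_sum_B (G : Gens N) (a : Q N → ℍ → ℂ) (ha : ∀ j, MDiff (a j))
    (h : ∀ q : Q N, ∑ j, a j * G.B j q = 0) (j : Q N) : a j = 0 := by
  classical
  have h1 : Matrix.vecMul a G.B = 0 := by
    funext q
    exact h q
  have h2 : Matrix.vecMul (Matrix.vecMul a G.B) G.B.adjugate = 0 := by
    rw [h1, Matrix.zero_vecMul]
  rw [Matrix.vecMul_vecMul, Matrix.mul_adjugate, Matrix.vecMul_smul, Matrix.vecMul_one] at h2
  have h3 := congrFun h2 j
  simp only [Pi.smul_apply, smul_eq_mul, Pi.zero_apply] at h3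
  rcases (UpperHalfPlane.mul_eq_zero_iff G.mdiff_det (ha j)).mp h3 with h4 | h4
  · exact absurd h4 G.det_ne_zero
  · exact h4

theorem Gens.mdim_eq (G : Gens N) (k : ℤ) : mdim N k = ∑ j, pdim (k - G.wt j) := by
  classical
  let cM : ModularForm (Gamma0 N) k →ₗ[ℂ] (ℍ → ℂ) :=
    { toFun := fun f => ⇑f
      map_add' := fun f g => rfl
      map_smul' := fun c f => rfl }
  have hcM : Function.Injective cM := fun f g h => DFunLike.coe_injective h
  let Ψ : (∀ j, ModularForm 𝒮ℒ (k - G.wt j)) →ₗ[ℂ] (ℍ → ℂ) :=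
    { toFun := fun a => ∑ j, (⇑(a j) : ℍ → ℂ) * ⇑(G.b j)
      map_add' := fun a a' => by
        rw [← Finset.sum_add_distrib]
        refine Finset.sum_congr rfl fun j _ => ?_
        rw [Pi.add_apply, ModularForm.coe_add, add_mul]
      map_smul' := fun c a => by
        rw [Finset.smul_sum]
        refine Finset.sum_congr rfl fun j _ => ?_
        rw [Pi.smul_apply, ModularForm.coe_smul, RingHom.id_apply, smul_mul_assoc] }
  have hΨapp : ∀ a, Ψ a = ∑ j, (⇑(a j) : ℍ → ℂ) * ⇑(G.b j) := fun a => rfl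
  have hΨ : Function.Injective Ψ := by
    rw [injective_iff_map_eq_zero]
    intro a ha
    rw [hΨapp] at ha
    have h1 : ∀ q : Q N, ∑ j, (⇑(a j) : ℍ → ℂ) * G.B j q = 0 := by
      intro q
      have := quotientFunc_eq_sum (0 : ModularForm (Gamma0 N) k) G.wt G.b
        (fun j => (⇑(a j) : ℍ → ℂ)) (fun j => ⟨a j, rfl⟩)
        (by rw [ModularForm.coe_zero, ha]) q
      rw [dual_quotientFunc_zero] at this
      exact this.symm
    funext j
    exact DFunLike.coe_injective
      (G.eq_zero_of_sum_B (fun j => (⇑(a j) : ℍ → ℂ)) (fun j => ModularFormClass.holo (a j)) h1 j)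
  have hrange : LinearMap.range cM = LinearMap.range Ψ := by
    ext F
    constructor
    · rintro ⟨f, rfl⟩
      obtain ⟨a, ha, hfa⟩ := G.gen k f
      choose a' ha' using ha
      refine ⟨a', ?_⟩
      rw [hΨapp]
      change _ = (⇑f : ℍ → ℂ)
      rw [hfa]
      exact Finset.sum_congr rfl fun j _ => by rw [ha']
    · rintro ⟨a, rfl⟩
      obtain ⟨f, hf, -⟩ := G.combo k (fun j => (⇑(a j) : ℍ → ℂ)) (fun j => ⟨a j, rfl⟩)
      exact ⟨f, hf⟩
  calc mdim N k = Module.finrank ℂ (LinearMap.range cM) :=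
        (LinearMap.finrank_range_of_inj hcM).symm
    _ = Module.finrank ℂ (LinearMap.range Ψ) := by rw [hrange]
    _ = Module.finrank ℂ (∀ j, ModularForm 𝒮ℒ (k - G.wt j)) := LinearMap.finrank_range_of_inj hΨ
    _ = ∑ j, pdim (k - G.wt j) := Module.finrank_pi_fintype ℂ

/-- for large even weights the cusp squeeze is an equality -/
theorem Gens.mdim_sub_twelve (G : Gens N) {l : ℤ} (hl : Even l) (h : ∀ j, G.wt j + 4 ≤ l) :
    mdim N l = mdim N (l - 12) + Fintype.card (Q N) := by
  classical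
  rw [G.mdim_eq, G.mdim_eq, Fintype.card, Finset.card_eq_sum_ones, ← Finset.sum_add_distrib]
  refine Finset.sum_congr rfl fun j _ => ?_
  have h1 := pdim_sub_twelve (m := l - G.wt j) (by linarith [h j])
    (Int.even_sub.mpr ⟨fun _ => G.wt_even j, fun _ => hl⟩) (by linarith [h j])
  rw [h1]
  congr 2
  ring

theorem Gens.exists_large (G : Gens N) : ∃ L : ℤ, ∀ l : ℤ, L ≤ l → Even l →
    mdim N l = mdim N (l - 12) + Fintype.card (Q N) := by
  classical
  refine ⟨(Finset.univ.sup' ⟨q0, Finset.mem_univ _⟩ G.wt) + 4, fun l hl he => ?_⟩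
  refine G.mdim_sub_twelve he fun j => ?_
  have := Finset.le_sup' G.wt (Finset.mem_univ j)
  linarith

end level

end Fermat.Agent.S20Lib
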