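/-
S20 helper (helper2): functions on a finite `G`-set invariant under one element `g` form a
space of dimension the number of `⟨g⟩`-orbits.
-/
import Mathlib

set_option autoImplicit false

namespace Fermat.Agent.S20Lib.OrbitFun

variable (K : Type*) [Field K] {G X : Type*} [Group G] [MulAction G X]

/-- the submodule of functions `c : X → K` with `c (g • x) = c x` -/
def invFun (g : G) : Submodule K (X → K) where
  carrier := {c | ∀ x, c (g • x) = c x}
  add_mem' := fun {a b} ha hb x => by
    show a (g • x) + b (g • x) = a x + b x
    rw [ha x, hb x]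
  zero_mem' := fun _ => rfl
  smul_mem' := fun r {a} ha x => by
    show r • a (g • x) = r • a x
    rw [ha x]

theorem mem_invFun {g : G} {c : X → K} : c ∈ invFun K g ↔ ∀ x, c (g • x) = c x := Iff.rfl

variable {K}

omit [Field K] in
theorem zpow_smul_eq {g : G} {c : X → K} (hc : ∀ x, c (g • x) = c x) (k : ℤ) (x : X) :
    c (g ^ k • x) = c x := by
  have hinv : ∀ x, c (g⁻¹ • x) = c x := fun x => by
    rw [← hc (g⁻¹ • x), smul_inv_smul]
  induction k using Int.induction_on generalizing x with
  | zero => rw [zpow_zero, one_smul]
  | succ n ih => rw [zpow_add_one, mul_smul, ih, hc]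
  | pred n ih => rw [zpow_sub_one, mul_smul, ih, hinv]

variable (K)

/-- the dimension of the space of `g`-invariant functions is the number of `⟨g⟩`-orbits -/
theorem finrank_invFun [Finite X] (g : G) :
    Module.finrank K (invFun K (X := X) g) =
      Nat.card (MulAction.orbitRel.Quotient (Subgroup.zpowers g) X) := by
  classical
  let Ω := MulAction.orbitRel.Quotient (Subgroup.zpowers g) X
  let p : X → Ω := Quotient.mk''
  have hp : Function.Surjective p := Quotient.mk''_surjective
  have : Finite Ω := Finite.of_surjective p hp
  let _ : Fintype Ω := Fintype.ofFinite Ω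
  let L : (Ω → K) →ₗ[K] (X → K) := LinearMap.funLeft K K p
  have hL : Function.Injective L := LinearMap.funLeft_injective_of_surjective K K p hp
  have hrange : LinearMap.range L = invFun K g := by
    apply le_antisymm
    · rintro _ ⟨f, rfl⟩ x
      show f (p (g • x)) = f (p x)
      congr 1
      apply Quotient.sound'
      exact ⟨⟨g, Subgroup.mem_zpowers g⟩, rfl⟩
    · intro c hc
      have hc' : ∀ a b : X, MulAction.orbitRel (Subgroup.zpowers g) X a b → c a = c b := by
        rintro a b ⟨⟨y, hy⟩, rfl⟩
        obtain ⟨k, rfl⟩ := Subgroup.mem_zpowers_iff.mp hy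
        exact zpow_smul_eq hc k b
      refine ⟨Quotient.lift c hc', ?_⟩
      funext x
      rfl
  rw [← hrange, LinearMap.finrank_range_of_inj hL, Module.finrank_fintype_fun_eq_card,
    Nat.card_eq_fintype_card]

end Fermat.Agent.S20Lib.OrbitFun
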