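/-
S20, chunk E2 (helper5): the constant-term map.
If `mdim N k = mdim N (k - 12) + #Q N` (true for all large even `k`), then
`mdim N k = sdim N k + #(T-orbits on Q N)`.
-/
import Fermat.Agent.Lib.S20.Squeeze
import Fermat.Agent.Lib.S20.OrbitFun
import Fermat.Agent.Lib.S20.DualA

set_option autoImplicit false

namespace Fermat.Agent.S20Lib

open UpperHalfPlane ModularForm CongruenceSubgroup MatrixGroups Filter Matrix.SpecialLinearGroup
open SlashInvariantForm EisensteinSeries
open scoped Manifold Topology
open Fermat.Agent.LibS23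

section ConstTerm
variable {N : ℕ} [NeZero N]

/-- the constant terms of all conjugates. -/
noncomputable def constTermMap (N : ℕ) [NeZero N] (k : ℤ) :
    ModularForm (Gamma0 N) k →ₗ[ℂ] (Q N → ℂ) where
  toFun f := fun q => acoef f q 0
  map_add' f g := by
    funext q
    exact acoef_add f g q 0
  map_smul' c f := by
    funext q
    simp [acoef_smul]

theorem constTermMap_apply (k : ℤ) (f : ModularForm (Gamma0 N) k) (q : Q N) :
    constTermMap N k f q = acoef f q 0 := rfl

/-- the kernel of the constant-term map is the image of the cusp forms. -/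
theorem constTerm_ker_eq (k : ℤ) :
    LinearMap.ker (constTermMap N k) =
      LinearMap.range (CuspForm.toModularFormₗ (Γ := Gamma0 N) (k := k)) := by
  ext f
  rw [LinearMap.mem_ker, LinearMap.mem_range]
  constructor
  · intro h
    have h0 : ∀ q : Q N, acoef f q 0 = 0 := fun q => by
      have := congrFun h q
      exact this
    obtain ⟨s, hs⟩ := (exists_cuspForm_iff f).2 h0
    refine ⟨s, ?_⟩
    apply DFunLike.coe_injective
    rw [← hs]
    rfl
  · rintro ⟨s, rfl⟩
    funext q
    have h0 := (exists_cuspForm_iff (CuspForm.toModularFormₗ (Γ := Gamma0 N) (k := k) s)).1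
      ⟨s, rfl⟩ q
    exact h0

theorem constTerm_finrank_ker (k : ℤ) :
    Module.finrank ℂ (LinearMap.ker (constTermMap N k)) = sdim N k := by
  rw [constTerm_ker_eq]
  exact LinearMap.finrank_range_of_inj CuspForm.toModularFormₗ_injective

theorem constTerm_range_le (k : ℤ) :
    LinearMap.range (constTermMap N k) ≤ OrbitFun.invFun ℂ (X := Q N) sT := by
  rintro _ ⟨f, rfl⟩ q
  show acoef f (sT • q) 0 = acoef f q 0
  rw [acoef_sT, pow_zero, one_mul]

theorem constTerm_range_eq {k : ℤ}
    (hk : mdim N k = mdim N (k - 12) + Fintype.card (Q N)) :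
    LinearMap.range (constTermMap N k) = OrbitFun.invFun ℂ (X := Q N) sT := by
  apply le_antisymm (constTerm_range_le k)
  intro c hc
  have hc' : ∀ q : Q N, c (sT • q) = c q := hc
  obtain ⟨f, hf⟩ := exists_acoef_eq hk (fun q n => if n = 0 then c q else 0) (by
    intro q n
    by_cases hn : n = 0
    · subst hn
      simp [hc' q]
    · simp [hn])
  refine ⟨f, ?_⟩
  funext q
  have := hf q 0 (NeZero.pos N)
  simpa [constTermMap] using this

/-- the number of cusps as the codimension of the cusp forms, in large weight. -/
theorem constTerm_mdim_eq {k : ℤ}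
    (hk : mdim N k = mdim N (k - 12) + Fintype.card (Q N)) :
    mdim N k = sdim N k +
      Nat.card (MulAction.orbitRel.Quotient (Subgroup.zpowers sT) (Q N)) := by
  have h := LinearMap.finrank_range_add_finrank_ker (constTermMap N k)
  rw [constTerm_finrank_ker, constTerm_range_eq hk, OrbitFun.finrank_invFun] at h
  have h2 : mdim N k = Module.finrank ℂ (ModularForm (Gamma0 N) k) := rfl
  rw [h2, ← h, add_comm]
  rfl

/-- E2 of the S20 interface: in large even weight, the codimension of the cusp forms is the
number of `T`-orbits (cusps). -/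
theorem exists_mdim_eq_sdim_add :
    ∃ K : ℤ, ∀ k : ℤ, K ≤ k → Even k →
      mdim N k = sdim N k + Nat.card (MulAction.orbitRel.Quotient (Subgroup.zpowers sT) (Q N)) := by
  obtain ⟨G⟩ := exists_gens N
  obtain ⟨L, hL⟩ := G.exists_large
  exact ⟨L, fun k hk he => constTerm_mdim_eq (hL k hk he)⟩

end ConstTerm

end Fermat.Agent.S20Lib
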