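/-
S20, chunk D (helper1), part B: the key lemma (Newton power sums) and the cusp descent.
-/
import Fermat.Agent.Lib.S20.DualA
import Fermat.Agent.Lib.S23.ConjAux

set_option autoImplicit false

namespace Fermat.Agent.S20Lib

open UpperHalfPlane ModularForm CongruenceSubgroup MatrixGroups Filter Matrix.SpecialLinearGroup
open SlashInvariantForm EisensteinSeries
open scoped Manifold Topology
open Fermat.Agent.LibS23

section level
variable {N : ℕ} [NeZero N]

/-- key lemma -/
theorem KL {w : ℤ} {F : ℍ → ℂ} (hF : Irr w F) {k : ℤ} (f : ModularForm (Gamma0 N) k)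
    (h : ∀ z : ℍ, F z = 0 → ∀ m : ℕ, 1 ≤ m → ∑ q : Q N, quotientFunc f q z ^ m = 0) :
    ∃ f' : ModularForm (Gamma0 N) (k - w), (⇑f : ℍ → ℂ) = F * ⇑f' := by
  have h0 : ∀ z : ℍ, F z = 0 → (⇑f : ℍ → ℂ) z = 0 := by
    intro z hz
    have h1 : quotientFunc f (q0 : Q N) z = 0 :=
      dual_eq_zero_of_pow_sum (fun q : Q N => quotientFunc f q z) (h z hz) q0
    rwa [quotientFunc_q0] at h1
  obtain ⟨g, hg, hfg⟩ := hF.exists_eq_mul (ModularFormClass.holo f) h0
  obtain ⟨f', hf'⟩ := exists_of_eq_mul hF.isLO hF.tendsto f hg hfg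
  exact ⟨f', by rw [hf', hfg]⟩

theorem dualB_conj_zetaInv : (starRingEnd ℂ) (zetaInv N) = (zetaInv N)⁻¹ := by
  rw [zetaInv, ← Complex.exp_conj, ← Complex.exp_neg]
  congr 1
  rw [map_div₀, map_neg, map_mul, map_mul, Complex.conj_I, Complex.conj_ofReal, map_ofNat,
    map_natCast]
  ring

theorem dualB_qx_discriminant_pow_mul_coeff {H : ℍ → ℂ} (hH : QExp H) {m n : ℕ} (hn : n < m) :
    (qExpansion 1 (ModularForm.discriminant ^ m * H)).coeff n = 0 := by
  have h1 : qx (ModularForm.discriminant ^ m * H) = qx ModularForm.discriminant ^ m * qx H := by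
    rw [qx_mul (QExp.discriminant.pow m) hH, qx_pow QExp.discriminant]
  have h2 : (PowerSeries.X : PowerSeries ℂ) ∣ qx ModularForm.discriminant := by
    rw [PowerSeries.X_dvd_iff]
    have := QExp.coeff_zero_of_isZero QExp.discriminant ModularForm.discriminant_isZeroAtImInfty
    simpa using this
  have h3 : (PowerSeries.X : PowerSeries ℂ) ^ m ∣ qx (ModularForm.discriminant ^ m * H) := by
    rw [h1]
    exact Dvd.dvd.mul_right (pow_dvd_pow_of_dvd h2 m) _
  exact PowerSeries.X_pow_dvd_iff.mp h3 n hn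

/-- cusp descent -/
theorem cusp_descent {K : ℤ} (f : ModularForm (Gamma0 N) K) (m : ℕ) (hm : 1 ≤ m)
    (h : ∀ (l : ℤ) (g : ModularForm (Gamma0 N) l), ∃ H : ℍ → ℂ, IsLO (K + l - 12 * m) H ∧
      trP f g = ModularForm.discriminant ^ m * H) :
    ∃ s : CuspForm (Gamma0 N) (K - 12 * (m - 1 : ℕ)),
      (⇑f : ℍ → ℂ) = ModularForm.discriminant ^ (m - 1) * ⇑s := by
  classical
  refine exists_cuspForm_eq_discriminant_pow_mul f (m - 1) ?_
  by_contra hcon
  push Not at hcon
  obtain ⟨q₁, n₁, hn₁, hq₁⟩ := hcon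
  have hex : ∃ n, ∃ q : Q N, acoef f q n ≠ 0 := ⟨n₁, q₁, hq₁⟩
  set ns := Nat.find hex with hns
  obtain ⟨q₂, hq₂⟩ := Nat.find_spec hex
  have hmin : ∀ n, n < ns → ∀ q : Q N, acoef f q n = 0 := by
    intro n hn q
    have := Nat.find_min hex hn
    push Not at this
    exact this q
  have hns_le : ns ≤ N * (m - 1) := le_trans (Nat.find_min' hex ⟨q₁, hq₁⟩) hn₁
  have hNpos : 0 < N := Nat.pos_of_ne_zero (NeZero.ne N)
  set r₀ := (N - ns % N) % N with hr₀
  have hr₀lt : r₀ < N := Nat.mod_lt _ hNpos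
  have hdvd : N ∣ ns + r₀ := by
    rw [hr₀]
    have h1 : ns % N < N := Nat.mod_lt _ hNpos
    have h2 : (ns + (N - ns % N) % N) % N = 0 := by
      rw [Nat.add_mod, Nat.mod_mod, ← Nat.add_mod]
      rw [← Nat.add_sub_assoc h1.le, Nat.add_comm, Nat.add_sub_assoc (Nat.mod_le _ _)]
      rw [Nat.add_mod, Nat.mod_self, zero_add, Nat.mod_mod]
      rw [Nat.sub_mod_eq_zero_of_mod_eq (by rw [Nat.mod_mod])]
    exact Nat.dvd_of_mod_eq_zero h2
  obtain ⟨M₀, hM₀⟩ := hdvd
  have hM₀lt : M₀ < m := by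
    have h1 : N * M₀ < N * m := by
      rw [← hM₀]
      calc ns + r₀ < N * (m - 1) + N := by omega
        _ = N * m := by
          conv_rhs => rw [← Nat.sub_add_cancel hm]
          ring
    exact lt_of_mul_lt_mul_left h1 (Nat.zero_le _)
  -- a form with prescribed first coefficients
  obtain ⟨G⟩ := exists_gens N
  obtain ⟨L, hL⟩ := G.exists_large
  set l : ℤ := 2 * |L| with hl
  have hlL : L ≤ l := by
    rw [hl]
    have := le_abs_self L
    have := abs_nonneg L
    linarith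
  have hmd := hL l hlL ⟨|L|, by rw [hl]; ring⟩
  set a : Q N → ℕ → ℂ := fun q n => if n = r₀ then (starRingEnd ℂ) (acoef f q ns) else 0 with ha
  have haT : ∀ q n, a (sT • q) n = zetaInv N ^ n * a q n := by
    intro q n
    simp only [ha]
    split_ifs with hn
    · rw [acoef_sT, map_mul, map_pow, dualB_conj_zetaInv, hn]
      congr 1
      have h1 : zetaInv N ^ (ns + r₀) = 1 := (zetaInv_pow_eq_one_iff (N := N) _).mpr ⟨M₀, hM₀⟩
      have h2 : zetaInv N ≠ 0 := Complex.exp_ne_zero _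
      rw [pow_add] at h1
      rw [inv_pow]
      exact inv_eq_of_mul_eq_one_right h1
    · rw [mul_zero]
  obtain ⟨g, hg⟩ := exists_acoef_eq hmd a haT
  obtain ⟨H, hH, hfg⟩ := h l g
  -- the coefficient of index `M₀` of the trace
  have hc1 : (qExpansion 1 (trP f g)).coeff M₀ = 0 := by
    rw [hfg]
    exact dualB_qx_discriminant_pow_mul_coeff hH.qexp hM₀lt
  have hc2 : (qExpansion 1 (trP f g)).coeff M₀ =
      ∑ q : Q N, acoef f q ns * (starRingEnd ℂ) (acoef f q ns) := by
    rw [trP_coeff]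
    refine Finset.sum_congr rfl fun q _ => ?_
    rw [Finset.sum_eq_single (ns, r₀)]
    · rw [hg q r₀ hr₀lt]
      simp only [ha, if_true]
    · rintro ⟨p₁, p₂⟩ hp hne
      have hp' : p₁ + p₂ = N * M₀ := Finset.HasAntidiagonal.mem_antidiagonal.mp hp
      rcases lt_trichotomy p₁ ns with h1 | h1 | h1
      · rw [hmin p₁ h1 q, zero_mul]
      · exfalso
        apply hne
        have : p₂ = r₀ := by omega
        rw [h1, this]
      · have h2 : p₂ < r₀ := by omega
        rw [hg q p₂ (lt_trans h2 hr₀lt)]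
        simp only [ha, if_neg (ne_of_lt h2), mul_zero]
    · intro hnot
      exfalso
      apply hnot
      exact Finset.HasAntidiagonal.mem_antidiagonal.mpr hM₀
  rw [hc2] at hc1
  have hc3 : ∀ q : Q N, acoef f q ns * (starRingEnd ℂ) (acoef f q ns)
      = ((Complex.normSq (acoef f q ns) : ℝ) : ℂ) := fun q => Complex.mul_conj _
  rw [Finset.sum_congr rfl (fun q _ => hc3 q), ← Complex.ofReal_sum, Complex.ofReal_eq_zero] at hc1
  have hc4 := (Finset.sum_eq_zero_iff_of_nonneg (fun q _ => Complex.normSq_nonneg _)).mp hc1 q₂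
    (Finset.mem_univ _)
  exact hq₂ (Complex.normSq_eq_zero.mp hc4)

end level

end Fermat.Agent.S20Lib
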