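/-
S20, chunk D (helper1), part C: trace duality `S_k ≅ ∏_j M_{k - 12 + wt j}(SL₂(ℤ))`, and
invertibility of the matrix of conjugates of the generators at every point.
-/
import Fermat.Agent.Lib.S20.DualB

set_option autoImplicit false

namespace Fermat.Agent.S20Lib

open UpperHalfPlane ModularForm CongruenceSubgroup MatrixGroups Filter Matrix.SpecialLinearGroup
open SlashInvariantForm EisensteinSeries
open scoped Manifold Topology
open Fermat.Agent.LibS23

/-! ### level-one bookkeeping -/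

theorem dualC_isLO_det {n : Type} [Fintype n] [DecidableEq n] (r c : n → ℤ)
    (A : Matrix n n (ℍ → ℂ)) (h : ∀ i j, IsLO (r i + c j) (A i j)) :
    IsLO (∑ i, r i + ∑ j, c j) A.det := by
  rw [Matrix.det_apply]
  refine IsLO.sum _ fun π _ => ?_
  have hprod : IsLO (∑ i, (r (π i) + c i)) (∏ i, A (π i) i) :=
    IsLO.prod Finset.univ (fun i => r (π i) + c i) fun i _ => h (π i) i
  have hw : ∑ i, (r (π i) + c i) = ∑ i, r i + ∑ j, c j := by
    rw [Finset.sum_add_distrib, Equiv.sum_comp π r]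
  rw [hw] at hprod
  rcases Int.units_eq_one_or (Equiv.Perm.sign π) with h1 | h1
  · rw [h1, one_smul]; exact hprod
  · rw [h1]
    have : (-1 : ℤˣ) • (∏ i, A (π i) i) = -(∏ i, A (π i) i) := by simp
    rw [this]
    exact hprod.neg

theorem dualC_isLO_discriminant : IsLO 12 ModularForm.discriminant :=
  ⟨(CuspForm.discriminant : ModularForm 𝒮ℒ 12), rfl⟩

theorem dualC_isLO_discriminant_pow (m : ℕ) : IsLO (12 * m) (ModularForm.discriminant ^ m) := by
  induction m with
  | zero => simpa using IsLO.one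
  | succ m ih =>
    rw [pow_succ]
    exact (ih.mul dualC_isLO_discriminant).of_eq_weight (by push_cast; ring)

theorem dualC_isLO_list_prod (L : List (ℤ × (ℍ → ℂ))) (hL : ∀ p ∈ L, Irr p.1 p.2) :
    IsLO (L.map Prod.fst).sum (L.map Prod.snd).prod := by
  induction L with
  | nil => simpa using IsLO.one
  | cons p L ih =>
    rw [List.map_cons, List.map_cons, List.sum_cons, List.prod_cons]
    exact (hL p (List.mem_cons_self ..)).isLO.mul
      (ih fun p' hp' => hL p' (List.mem_cons_of_mem _ hp'))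

section level
variable {N : ℕ} [NeZero N]

theorem dualC_cusp_cast {k k' : ℤ} (h : k = k') (s : CuspForm (Gamma0 N) k) :
    ∃ s' : CuspForm (Gamma0 N) k', (⇑s' : ℍ → ℂ) = ⇑s ∧
      ∀ q : Q N, quotientFunc s' q = quotientFunc s q := by
  subst h
  exact ⟨s, rfl, fun _ => rfl⟩

/-- the Gram matrix of the trace form on the generators -/
noncomputable def Gens.T (G : Gens N) : Matrix (Q N) (Q N) (ℍ → ℂ) := G.B * G.B.transpose

theorem Gens.T_apply (G : Gens N) (i j : Q N) : G.T i j = trP (G.b i) (G.b j) := by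
  simp only [Gens.T, Matrix.mul_apply, Matrix.transpose_apply, trP, Gens.B_apply]

theorem Gens.isLO_T (G : Gens N) (i j : Q N) : IsLO (G.wt i + G.wt j) (G.T i j) := by
  rw [G.T_apply]
  exact trP_isLO _ _

theorem Gens.det_T (G : Gens N) : G.T.det = G.B.det * G.B.det := by
  rw [Gens.T, Matrix.det_mul, Matrix.det_transpose]

theorem Gens.det_T_ne_zero (G : Gens N) : G.T.det ≠ 0 := by
  rw [G.det_T]
  intro h
  rcases (UpperHalfPlane.mul_eq_zero_iff G.mdiff_det G.mdiff_det).mp h with h | h <;>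
    exact G.det_ne_zero h

theorem Gens.isLO_det_T (G : Gens N) : IsLO (∑ j, G.wt j + ∑ j, G.wt j) G.T.det :=
  dualC_isLO_det G.wt G.wt G.T G.isLO_T

theorem Gens.isLO_adj_T (G : Gens N) (i j : Q N) :
    IsLO (∑ l, G.wt l + ∑ l, G.wt l - G.wt i - G.wt j) (G.T.adjugate i j) := by
  classical
  rw [Matrix.adjugate_apply]
  have h := dualC_isLO_det (fun l => if l = j then -G.wt i else G.wt l) G.wt
    (G.T.updateRow j (Pi.single i 1)) (by
      intro l l'
      rw [Matrix.updateRow_apply]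
      split_ifs with hl
      · rw [Pi.single_apply]
        split_ifs with hl'
        · rw [hl']
          exact IsLO.one.of_eq_weight (by ring)
        · exact IsLO.zero
      · exact G.isLO_T l l')
  refine h.of_eq_weight ?_
  have h1 : ∑ l, (if l = j then -G.wt i else G.wt l)
      = ∑ l, (G.wt l + if l = j then (-G.wt i - G.wt j) else 0) := by
    refine Finset.sum_congr rfl fun l _ => ?_
    split_ifs with hl
    · rw [hl]; ring
    · ring
  rw [h1, Finset.sum_add_distrib, Finset.sum_ite_eq' Finset.univ j]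
  simp only [Finset.mem_univ, if_true]
  ring

/-- the invariant of the peeling process -/
def Gens.Inv (G : Gens N) (a : Q N → ℍ → ℂ) (P : ℍ → ℂ) {κ : ℤ}
    (f : ModularForm (Gamma0 N) κ) : Prop :=
  ∀ (l : ℤ) (g : ModularForm (Gamma0 N) l) (cf : Q N → ℍ → ℂ),
    (∀ j, IsLO (l - G.wt j) (cf j)) → (⇑g : ℍ → ℂ) = ∑ j, cf j * ⇑(G.b j) →
      trP f g = P * ∑ j, a j * cf j

theorem Gens.inv_base (G : Gens N) (k : ℤ) (a : Q N → ℍ → ℂ)
    (ha : ∀ j, IsLO (k - 12 + G.wt j) (a j)) :
    ∃ f : ModularForm (Gamma0 N) (k + (∑ j, G.wt j + ∑ j, G.wt j)),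
      G.Inv a (ModularForm.discriminant * G.T.det) f := by
  classical
  set W2 := ∑ j, G.wt j + ∑ j, G.wt j with hW2
  set c : Q N → ℍ → ℂ := ModularForm.discriminant • Matrix.vecMul a G.T.adjugate with hc
  have hcLO : ∀ i, IsLO (k + W2 - G.wt i) (c i) := by
    intro i
    have h1 : IsLO (k - 12 + W2 - G.wt i) (∑ j, a j * G.T.adjugate j i) :=
      IsLO.sum _ fun j _ => ((ha j).mul (G.isLO_adj_T j i)).of_eq_weight (by ring)
    exact (dualC_isLO_discriminant.mul h1).of_eq_weight (by ring)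
  obtain ⟨f, hf, hfq⟩ := G.combo (k + W2) c hcLO
  refine ⟨f, fun l g cf hcf hg => ?_⟩
  have hgq : ∀ q, quotientFunc g q = ∑ j, cf j * G.B j q := fun q =>
    quotientFunc_eq_sum g G.wt G.b cf hcf hg q
  have h1 : trP f g = (Matrix.vecMul c G.B) ⬝ᵥ (Matrix.vecMul cf G.B) := by
    rw [trP]
    refine Finset.sum_congr rfl fun q _ => ?_
    rw [hfq q, hgq q]
    rfl
  have h2 : Matrix.vecMul cf G.B = G.B.transpose.mulVec cf := (Matrix.mulVec_transpose _ _).symm
  rw [h1, h2, Matrix.dotProduct_mulVec, Matrix.vecMul_vecMul]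
  change Matrix.vecMul c G.T ⬝ᵥ cf = _
  rw [hc, Matrix.smul_vecMul, Matrix.vecMul_vecMul, Matrix.adjugate_mul, Matrix.vecMul_smul,
    Matrix.vecMul_one, smul_dotProduct, smul_dotProduct, smul_eq_mul, smul_eq_mul, mul_assoc]
  rfl

theorem Gens.inv_step (G : Gens N) (a : Q N → ℍ → ℂ) (ha : ∀ j, MDiff (a j)) {w : ℤ}
    {F : ℍ → ℂ} (hF : Irr w F) (P : ℍ → ℂ) (hP : MDiff P) {κ : ℤ}
    (f : ModularForm (Gamma0 N) κ) (h : G.Inv a (F * P) f) :
    ∃ f' : ModularForm (Gamma0 N) (κ - w), G.Inv a P f' := by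
  have hKL : ∀ z : ℍ, F z = 0 → ∀ m : ℕ, 1 ≤ m → ∑ q : Q N, quotientFunc f q z ^ m = 0 := by
    intro z hz m hm
    obtain ⟨g, -, hgq⟩ := exists_pow f (m - 1)
    obtain ⟨cf, hcf, hg⟩ := G.gen _ g
    have h1 := congrFun (h _ g cf hcf hg) z
    rw [trP] at h1
    simp only [Finset.sum_apply, Pi.mul_apply, hgq, Pi.pow_apply, hz, zero_mul] at h1
    rw [← h1]
    refine Finset.sum_congr rfl fun q _ => ?_
    rw [← pow_succ', Nat.sub_add_cancel hm]
  obtain ⟨f', hf'⟩ := KL hF f hKL
  refine ⟨f', fun l g cf hcf hg => ?_⟩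
  have h1 := h l g cf hcf hg
  have hfq : ∀ q : Q N, quotientFunc f q = F * quotientFunc f' q := by
    intro q
    have := quotientFunc_eq_sum f (fun _ : Unit => κ - w) (fun _ => f') (fun _ => F)
      (fun _ => hF.isLO.of_eq_weight (by ring)) (by simpa using hf') q
    simpa using this
  have h2 : trP f g = F * trP f' g := by
    rw [trP, trP, Finset.mul_sum]
    refine Finset.sum_congr rfl fun q _ => ?_
    rw [hfq q, mul_assoc]
  rw [h2, mul_assoc] at h1
  have h3 : F * (trP f' g - P * ∑ j, a j * cf j) = 0 := by rw [mul_sub, h1, sub_self]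
  have hmd : MDiff (trP f' g - P * ∑ j, a j * cf j) :=
    ((trP_isLO f' g).mdiff).sub
      (hP.mul (MDifferentiable.sum fun j _ => (ha j).mul (hcf j).mdiff))
  rcases (UpperHalfPlane.mul_eq_zero_iff hF.isLO.mdiff hmd).mp h3 with h4 | h4
  · exact absurd h4 hF.ne_zero
  · exact sub_eq_zero.mp h4

theorem Gens.inv_peel (G : Gens N) (a : Q N → ℍ → ℂ) (ha : ∀ j, MDiff (a j)) (P : ℍ → ℂ)
    (hP : MDiff P) (L : List (ℤ × (ℍ → ℂ))) (hL : ∀ p ∈ L, Irr p.1 p.2) :
    ∀ (κ : ℤ) (f : ModularForm (Gamma0 N) κ), G.Inv a ((L.map Prod.snd).prod * P) f →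
      ∃ (κ' : ℤ) (f' : ModularForm (Gamma0 N) κ'),
        κ' = κ - (L.map Prod.fst).sum ∧ G.Inv a P f' := by
  induction L with
  | nil =>
    intro κ f h
    exact ⟨κ, f, by simp, by simpa using h⟩
  | cons p L ih =>
    intro κ f h
    rw [List.map_cons, List.prod_cons, mul_assoc] at h
    have hp := hL p (List.mem_cons_self ..)
    have hL' : ∀ p' ∈ L, Irr p'.1 p'.2 := fun p' hp' => hL p' (List.mem_cons_of_mem _ hp')
    obtain ⟨f₁, hf₁⟩ := G.inv_step a ha hp _ ((dualC_isLO_list_prod L hL').mdiff.mul hP) f h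
    obtain ⟨κ', f', hκ', hf'⟩ := ih hL' _ f₁ hf₁
    exact ⟨κ', f', by rw [hκ', List.map_cons, List.sum_cons]; ring, hf'⟩

theorem Gens.duality (G : Gens N) (k : ℤ) (a : Q N → ℍ → ℂ)
    (ha : ∀ j, IsLO (k - 12 + G.wt j) (a j)) :
    ∃ s : CuspForm (Gamma0 N) k, ∀ j,
      ∑ q : Q N, quotientFunc s q * quotientFunc (G.b j) q = ModularForm.discriminant * a j := by
  classical
  set W2 := ∑ j, G.wt j + ∑ j, G.wt j with hW2
  obtain ⟨m, L, c, hc, hL, hD⟩ := exists_factorization G.isLO_det_T G.det_T_ne_zero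
  have hLO2 : IsLO (12 * m + (L.map Prod.fst).sum) G.T.det := by
    rw [hD]
    exact ((dualC_isLO_discriminant_pow m).mul (dualC_isLO_list_prod L hL)).smul c
  have hwt : W2 = 12 * m + (L.map Prod.fst).sum :=
    IsLO.weight_unique G.isLO_det_T hLO2 G.det_T_ne_zero
  set a' : Q N → ℍ → ℂ := fun j => c⁻¹ • a j with ha'
  have ha'LO : ∀ j, IsLO (k - 12 + G.wt j) (a' j) := fun j => (ha j).smul c⁻¹
  obtain ⟨f, hf⟩ := G.inv_base k a' ha'LO
  have hP : ModularForm.discriminant * G.T.det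
      = (L.map Prod.snd).prod * (c • ModularForm.discriminant ^ (m + 1)) := by
    rw [hD]
    funext z
    simp only [Pi.mul_apply, Pi.smul_apply, Pi.pow_apply, smul_eq_mul]
    ring
  rw [hP] at hf
  obtain ⟨κ', f', hκ', hf'⟩ := G.inv_peel a' (fun j => (ha'LO j).mdiff) _
    (((dualC_isLO_discriminant_pow (m + 1)).smul c).mdiff) L hL _ f hf
  have hκ'' : κ' = k + 12 * m := by
    rw [hκ', ← hW2, hwt]
    ring
  subst hκ''
  obtain ⟨s, hs⟩ := cusp_descent f' (m + 1) (by omega) (fun l g => by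
    obtain ⟨cf, hcf, hg⟩ := G.gen l g
    refine ⟨c • ∑ j, a' j * cf j, ?_, ?_⟩
    · exact ((IsLO.sum _ fun j _ => ((ha'LO j).mul (hcf j)).of_eq_weight
        (show k - 12 + G.wt j + (l - G.wt j) = k + 12 * m + l - 12 * ((m + 1 : ℕ) : ℤ) by
          push_cast; ring)).smul c)
    · rw [hf' l g cf hcf hg]
      funext z
      simp only [Pi.mul_apply, Pi.smul_apply, Pi.pow_apply, smul_eq_mul]
      ring)
  have hs2 : (⇑f' : ℍ → ℂ) = ModularForm.discriminant ^ m * ⇑s := by simpa using hs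
  obtain ⟨s', hs', hs'q⟩ := dualC_cusp_cast
    (show k + 12 * m - 12 * ((m + 1 - 1 : ℕ) : ℤ) = k by simp) s
  refine ⟨s', fun j => ?_⟩
  -- the trace against `b_j`
  have hbj : (⇑(G.b j) : ℍ → ℂ) = ∑ i, (if i = j then (1 : ℍ → ℂ) else 0) * ⇑(G.b i) := by
    simp [Finset.sum_ite_eq']
  have h1 := hf' (G.wt j) (G.b j) (fun i => if i = j then 1 else 0) (fun i => by
    split_ifs with h
    · rw [h]; exact IsLO.one.of_eq_weight (by ring)
    · exact IsLO.zero) hbj
  have h2 : ∑ i, a' i * (if i = j then (1 : ℍ → ℂ) else 0) = a' j := by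
    simp [Finset.sum_ite_eq']
  rw [h2] at h1
  -- conjugates of `f'`
  have hfq : ∀ q : Q N, quotientFunc f' q = ModularForm.discriminant ^ m * quotientFunc s q := by
    intro q
    have hcoe : (⇑(CuspForm.toModularFormₗ s) : ℍ → ℂ) = ⇑s := rfl
    have h3 := quotientFunc_eq_sum f' (fun _ : Unit => k + 12 * m - 12 * ((m + 1 - 1 : ℕ) : ℤ))
      (fun _ => CuspForm.toModularFormₗ s) (fun _ => ModularForm.discriminant ^ m)
      (fun _ => (dualC_isLO_discriminant_pow m).of_eq_weight (by simp))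
      (by simpa [hcoe] using hs2) q
    have h4 : quotientFunc (CuspForm.toModularFormₗ s) q = quotientFunc s q :=
      dual_quotientFunc_congr _ _ rfl q
    simpa [h4] using h3
  funext z
  have h5 := congrFun h1 z
  rw [trP] at h5
  simp only [Finset.sum_apply, Pi.mul_apply, hfq, Pi.pow_apply, Pi.smul_apply, smul_eq_mul,
    ha'] at h5
  simp only [Finset.sum_apply, Pi.mul_apply, hs'q]
  have hΔ : ModularForm.discriminant z ≠ 0 := ModularForm.discriminant_ne_zero z
  have h6 : ModularForm.discriminant z ^ m *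
      (∑ q : Q N, quotientFunc s q z * quotientFunc (G.b j) q z)
      = ModularForm.discriminant z ^ m * (ModularForm.discriminant z * a j z) := by
    rw [Finset.mul_sum]
    calc ∑ q : Q N, ModularForm.discriminant z ^ m *
          (quotientFunc s q z * quotientFunc (G.b j) q z)
        = ∑ q : Q N, ModularForm.discriminant z ^ m * quotientFunc s q z *
          quotientFunc (G.b j) q z := Finset.sum_congr rfl fun q _ => by ring
      _ = c * ModularForm.discriminant z ^ (m + 1) * (c⁻¹ * a j z) := h5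
      _ = ModularForm.discriminant z ^ m * (ModularForm.discriminant z * a j z) := by
          field_simp
          ring
  exact mul_left_cancel₀ (pow_ne_zero m hΔ) h6

end level

end Fermat.Agent.S20Lib
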