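/-
S20, chunk D (helper1), part D: `sdim` in terms of the generators, and invertibility of the
matrix of conjugates of the generators at every point of the upper half plane.
-/
import Fermat.Agent.Lib.S20.DualC

set_option autoImplicit false

namespace Fermat.Agent.S20Lib

open UpperHalfPlane ModularForm CongruenceSubgroup MatrixGroups Filter Matrix.SpecialLinearGroup
open SlashInvariantForm EisensteinSeries
open scoped Manifold Topology
open Fermat.Agent.LibS23

section level
variable {N : ℕ} [NeZero N]

theorem dualD_quotientFunc_add_cusp {k : ℤ} (s s' : CuspForm (Gamma0 N) k) (q : Q N) :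
    quotientFunc (s + s') q = quotientFunc s q + quotientFunc s' q := by
  induction q using Quotient.inductionOn with
  | h r =>
    rw [quotientFunc_mk, quotientFunc_mk, quotientFunc_mk, CuspForm.coe_add, SlashAction.add_slash]

theorem dualD_quotientFunc_smul_cusp {k : ℤ} (c : ℂ) (s : CuspForm (Gamma0 N) k) (q : Q N) :
    quotientFunc (c • s) q = c • quotientFunc s q := by
  induction q using Quotient.inductionOn with
  | h r =>
    obtain ⟨_, ⟨γ, rfl⟩⟩ := r
    rw [quotientFunc_mk, quotientFunc_mk, CuspForm.coe_smul]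
    change (c • (⇑s : ℍ → ℂ)) ∣[k] (mapGL ℝ γ)⁻¹ = c • ((⇑s : ℍ → ℂ) ∣[k] (mapGL ℝ γ)⁻¹)
    rw [← map_inv]
    exact ModularForm.SL_smul_slash k γ⁻¹ _ c

/-- a cusp form orthogonal to all generators for the trace pairing vanishes -/
theorem Gens.eq_zero_of_trace (G : Gens N) {k : ℤ} (s : CuspForm (Gamma0 N) k)
    (h : ∀ j, ∑ q : Q N, quotientFunc s q * G.B j q = 0) : s = 0 := by
  classical
  have hcoe : (⇑(CuspForm.toModularFormₗ s) : ℍ → ℂ) = ⇑s := rfl
  have hsq : ∀ q : Q N, quotientFunc (CuspForm.toModularFormₗ s) q = quotientFunc s q :=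
    fun q => dual_quotientFunc_congr _ _ rfl q
  have hpow : ∀ m : ℕ, 1 ≤ m → ∑ q : Q N, quotientFunc s q ^ m = 0 := by
    intro m hm
    obtain ⟨g, -, hgq⟩ := exists_pow (CuspForm.toModularFormₗ s) (m - 1)
    obtain ⟨cf, hcf, hg⟩ := G.gen _ g
    have hgq' : ∀ q, quotientFunc g q = ∑ j, cf j * G.B j q := fun q =>
      quotientFunc_eq_sum g G.wt G.b cf hcf hg q
    calc ∑ q : Q N, quotientFunc s q ^ m
        = ∑ q : Q N, quotientFunc s q * quotientFunc g q := by
          refine Finset.sum_congr rfl fun q _ => ?_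
          rw [hgq q, hsq q, ← pow_succ', Nat.sub_add_cancel hm]
      _ = ∑ q : Q N, ∑ j, cf j * (quotientFunc s q * G.B j q) := by
          refine Finset.sum_congr rfl fun q _ => ?_
          rw [hgq' q, Finset.mul_sum]
          exact Finset.sum_congr rfl fun j _ => by ring
      _ = ∑ j, cf j * ∑ q : Q N, quotientFunc s q * G.B j q := by
          rw [Finset.sum_comm]
          exact Finset.sum_congr rfl fun j _ => by rw [Finset.mul_sum]
      _ = 0 := Finset.sum_eq_zero fun j _ => by rw [h j, mul_zero]
  ext z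
  have h1 : quotientFunc s (q0 : Q N) z = 0 :=
    dual_eq_zero_of_pow_sum (fun q : Q N => quotientFunc s q z) (fun m hm => by
      have := congrFun (hpow m hm) z
      simpa [Finset.sum_apply] using this) q0
  rw [quotientFunc_q0] at h1
  simpa using h1

/-- the traces of a cusp form against the generators are divisible by `Δ` -/
theorem Gens.exists_trace_eq (G : Gens N) {k : ℤ} (s : CuspForm (Gamma0 N) k) (j : Q N) :
    ∃ a : ModularForm 𝒮ℒ (k - 12 + G.wt j),
      ∑ q : Q N, quotientFunc s q * G.B j q = ModularForm.discriminant * ⇑a := by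
  classical
  have hLO : IsLO (k + G.wt j) (∑ q : Q N, quotientFunc s q * G.B j q) :=
    ((fam_quotientFunc_cusp s).mul (fam_quotientFunc (G.b j))).trace
  have hzero : IsZeroAtImInfty (∑ q : Q N, quotientFunc s q * G.B j q) := by
    have h1 : ∀ q ∈ (Finset.univ : Finset (Q N)),
        Tendsto (fun z => quotientFunc s q z * G.B j q z) atImInfty (𝓝 0) := by
      intro q _
      have hz : IsZeroAtImInfty (quotientFunc s q) := quotientFunc_cusp_isZero s q
      have hb : IsBoundedAtImInfty (G.B j q) := (fam_quotientFunc (G.b j)).bdd q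
      exact hz.mul_boundedAtFilter hb
    have h2 := tendsto_finset_sum _ h1
    rw [Finset.sum_const_zero] at h2
    have h3 : (∑ q : Q N, quotientFunc s q * G.B j q)
        = fun z => ∑ q : Q N, quotientFunc s q z * G.B j q z := by
      ext z
      simp [Finset.sum_apply]
    rw [h3]
    exact h2
  obtain ⟨F, hF⟩ := hLO
  have hc0 : (qExpansion 1 F).coeff 0 = 0 := by
    have := QExp.coeff_zero_of_isZero (QExp.of_levelOne F) (hF ▸ hzero)
    simpa using this
  refine ⟨ModularForm.mcast (by ring) (CuspForm.discriminantEquiv (ModularForm.toCuspForm F hc0)),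
    ?_⟩
  rw [← hF]
  funext z
  change F z = ModularForm.discriminant z * (F z / ModularForm.discriminant z)
  rw [mul_div_cancel₀ _ (ModularForm.discriminant_ne_zero z)]

theorem Gens.sdim_eq (G : Gens N) (k : ℤ) : sdim N k = ∑ j, pdim (k - 12 + G.wt j) := by
  classical
  let Lm : CuspForm (Gamma0 N) k →ₗ[ℂ] (Q N → ℍ → ℂ) :=
    { toFun := fun s j => ∑ q : Q N, quotientFunc s q * G.B j q
      map_add' := fun s s' => by
        funext j
        rw [Pi.add_apply, ← Finset.sum_add_distrib]
        refine Finset.sum_congr rfl fun q _ => ?_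
        rw [dualD_quotientFunc_add_cusp, add_mul]
      map_smul' := fun c s => by
        funext j
        rw [Pi.smul_apply, Finset.smul_sum]
        refine Finset.sum_congr rfl fun q _ => ?_
        rw [dualD_quotientFunc_smul_cusp, RingHom.id_apply, smul_mul_assoc] }
  have hLapp : ∀ s j, Lm s j = ∑ q : Q N, quotientFunc s q * G.B j q := fun s j => rfl
  have hLinj : Function.Injective Lm := by
    rw [injective_iff_map_eq_zero]
    intro s hs
    refine G.eq_zero_of_trace s fun j => ?_
    rw [← hLapp, hs]
    rfl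
  let Ψ : (∀ j, ModularForm 𝒮ℒ (k - 12 + G.wt j)) →ₗ[ℂ] (Q N → ℍ → ℂ) :=
    { toFun := fun a j => ModularForm.discriminant * (⇑(a j) : ℍ → ℂ)
      map_add' := fun a a' => by
        funext j
        rw [Pi.add_apply, Pi.add_apply, ModularForm.coe_add, mul_add]
      map_smul' := fun c a => by
        funext j
        rw [Pi.smul_apply, Pi.smul_apply, ModularForm.coe_smul, RingHom.id_apply,
          mul_smul_comm] }
  have hΨapp : ∀ a j, Ψ a j = ModularForm.discriminant * (⇑(a j) : ℍ → ℂ) := fun a j => rfl
  have hΨ : Function.Injective Ψ := by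
    rw [injective_iff_map_eq_zero]
    intro a ha
    funext j
    ext z
    have h1 := congrFun (congrFun ha j) z
    rw [hΨapp] at h1
    simp only [Pi.mul_apply, Pi.zero_apply, mul_eq_zero] at h1
    rcases h1 with h1 | h1
    · exact absurd h1 (ModularForm.discriminant_ne_zero z)
    · simpa using h1
  have hrange : LinearMap.range Lm = LinearMap.range Ψ := by
    ext F
    constructor
    · rintro ⟨s, rfl⟩
      choose a ha using fun j => G.exists_trace_eq s j
      refine ⟨a, ?_⟩
      funext j
      rw [hΨapp, hLapp, ha j]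
    · rintro ⟨a, rfl⟩
      obtain ⟨s, hs⟩ := G.duality k (fun j => (⇑(a j) : ℍ → ℂ)) (fun j => ⟨a j, rfl⟩)
      refine ⟨s, ?_⟩
      funext j
      rw [hΨapp, hLapp]
      exact hs j
  calc sdim N k = Module.finrank ℂ (LinearMap.range Lm) :=
        (LinearMap.finrank_range_of_inj hLinj).symm
    _ = Module.finrank ℂ (LinearMap.range Ψ) := by rw [hrange]
    _ = Module.finrank ℂ (∀ j, ModularForm 𝒮ℒ (k - 12 + G.wt j)) :=
        LinearMap.finrank_range_of_inj hΨ
    _ = ∑ j, pdim (k - 12 + G.wt j) := Module.finrank_pi_fintype ℂ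

theorem Gens.det_apply_ne_zero (G : Gens N) (z : ℍ) :
    (Matrix.of fun j q : Q N => quotientFunc (G.b j) q z).det ≠ 0 := by
  classical
  have h1 : ∀ j₀ : Q N, ∃ s : CuspForm (Gamma0 N) (12 - G.wt j₀), ∀ j,
      ∑ q : Q N, quotientFunc s q * quotientFunc (G.b j) q
        = ModularForm.discriminant * (if j = j₀ then (1 : ℍ → ℂ) else 0) := by
    intro j₀
    refine G.duality (12 - G.wt j₀) (fun j => if j = j₀ then (1 : ℍ → ℂ) else 0) fun j => ?_
    split_ifs with h
    · rw [h]; exact IsLO.one.of_eq_weight (by ring)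
    · exact IsLO.zero
  choose s hs using h1
  set Bz : Matrix (Q N) (Q N) ℂ := Matrix.of fun j q : Q N => quotientFunc (G.b j) q z with hBz
  set Sz : Matrix (Q N) (Q N) ℂ := Matrix.of fun j₀ q : Q N => quotientFunc (s j₀) q z with hSz
  have h2 : Sz * Bz.transpose = ModularForm.discriminant z • (1 : Matrix (Q N) (Q N) ℂ) := by
    ext j₀ j
    rw [Matrix.mul_apply]
    have h3 := congrFun (hs j₀ j) z
    simp only [Finset.sum_apply, Pi.mul_apply] at h3
    simp only [hSz, hBz, Matrix.of_apply, Matrix.transpose_apply, Matrix.smul_apply,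
      Matrix.one_apply, smul_eq_mul]
    rw [h3]
    by_cases h : j = j₀
    · simp [h]
    · have h' : j₀ ≠ j := fun h'' => h h''.symm
      simp [h, h']
  have h4 := congrArg Matrix.det h2
  rw [Matrix.det_mul, Matrix.det_transpose, Matrix.det_smul, Matrix.det_one, mul_one] at h4
  intro h0
  rw [h0, mul_zero] at h4
  exact pow_ne_zero _ (ModularForm.discriminant_ne_zero z) h4.symm

end level

end Fermat.Agent.S20Lib
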