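/-
S20 (helper1): the eigenvalue counts at the elliptic points, unconditionally
(`Lib/S20/Elliptic.lean` by helper4 + invertibility of `B(z)` from `Lib/S20/DualD.lean`).
-/
import Fermat.Agent.Lib.S20.DualD
import Fermat.Agent.Lib.S20.Elliptic

set_option autoImplicit false

namespace Fermat.Agent.S20Lib

open UpperHalfPlane ModularForm CongruenceSubgroup MatrixGroups Filter Matrix.SpecialLinearGroup
open SlashInvariantForm EisensteinSeries
open scoped Manifold Topology
open Fermat.Agent.LibS23

section level
variable {N : ℕ} [NeZero N]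

theorem Gens.sum_S (G : Gens N) :
    ∑ j, Complex.I ^ (-G.wt j) = (Nat.card {q : Q N // sS • q = q} : ℂ) :=
  G.sum_S_of_det G.det_apply_ne_zero

theorem Gens.sum_U (G : Gens N) :
    ∑ j, Complex.exp (Real.pi * Complex.I / 3) ^ (-G.wt j) =
      (Nat.card {q : Q N // sU • q = q} : ℂ) :=
  G.sum_U_of_det G.det_apply_ne_zero

end level

end Fermat.Agent.S20Lib
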