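/-
S20, chunk E3 (helper6): the final arithmetic of the dimension formula, as a statement about
a finite family of weights (no modular forms here).  Assembly: `Lib/S20/Final.lean`.
-/
import Fermat.Agent.Lib.S20.LevelOne
import Fermat.Agent.Lib.S20.GensNum

set_option autoImplicit false

namespace Fermat.Agent.S20Lib

theorem finalCore_pdim_eq_pfun (k : ℤ) : (pdim k : ℤ) = GradedCount.pfun k := by
  rw [pdim_eq]
  unfold GradedCount.pfun
  split_ifs <;> push_cast <;> omega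

theorem finalCore_I_zpow :
    Complex.I ^ (-(0 : ℤ)) = 1 ∧ Complex.I ^ (-(2 : ℤ)) = -1 ∧ Complex.I ^ (-(4 : ℤ)) = 1 ∧
    Complex.I ^ (-(6 : ℤ)) = -1 ∧ Complex.I ^ (-(8 : ℤ)) = 1 ∧ Complex.I ^ (-(10 : ℤ)) = -1 := by
  have h2 : Complex.I ^ (2 : ℕ) = -1 := Complex.I_sq
  have h4 : Complex.I ^ (4 : ℕ) = 1 := by
    rw [show (4 : ℕ) = 2 * 2 by norm_num, pow_mul, h2]; norm_num
  have h6 : Complex.I ^ (6 : ℕ) = -1 := by
    rw [show (6 : ℕ) = 2 * 3 by norm_num, pow_mul, h2]; norm_num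
  have h8 : Complex.I ^ (8 : ℕ) = 1 := by
    rw [show (8 : ℕ) = 2 * 4 by norm_num, pow_mul, h2]; norm_num
  have h10 : Complex.I ^ (10 : ℕ) = -1 := by
    rw [show (10 : ℕ) = 2 * 5 by norm_num, pow_mul, h2]; norm_num
  refine ⟨by simp, ?_, ?_, ?_, ?_, ?_⟩
  · rw [zpow_neg, show (2 : ℤ) = ((2 : ℕ) : ℤ) by norm_num, zpow_natCast, h2]; norm_num
  · rw [zpow_neg, show (4 : ℤ) = ((4 : ℕ) : ℤ) by norm_num, zpow_natCast, h4]; norm_num
  · rw [zpow_neg, show (6 : ℤ) = ((6 : ℕ) : ℤ) by norm_num, zpow_natCast, h6]; norm_num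
  · rw [zpow_neg, show (8 : ℤ) = ((8 : ℕ) : ℤ) by norm_num, zpow_natCast, h8]; norm_num
  · rw [zpow_neg, show (10 : ℤ) = ((10 : ℕ) : ℤ) by norm_num, zpow_natCast, h10]; norm_num

/-- the sixth root of unity `e^{πi/3}` -/
theorem finalCore_zeta :
    ∃ ζ : ℂ, ζ = Complex.exp (Real.pi * Complex.I / 3) ∧ ζ.im ≠ 0 ∧ ζ ^ 3 = -1 := by
  refine ⟨_, rfl, ?_, ?_⟩
  · have h : (Real.pi * Complex.I / 3 : ℂ) = ((Real.pi / 3 : ℝ) : ℂ) * Complex.I := by
      push_cast; ring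
    rw [h, Complex.exp_ofReal_mul_I_im, Real.sin_pi_div_three]
    positivity
  · rw [← Complex.exp_nat_mul]
    have h : ((3 : ℕ) : ℂ) * (Real.pi * Complex.I / 3) = Real.pi * Complex.I := by
      push_cast; ring
    rw [h, Complex.exp_pi_mul_I]

theorem finalCore_zeta_zpow (ζ : ℂ) (h3 : ζ ^ 3 = -1) :
    ζ ^ (-(0 : ℤ)) = 1 ∧ ζ ^ (-(2 : ℤ)) = -ζ ∧ ζ ^ (-(4 : ℤ)) = ζ ^ 2 ∧
    ζ ^ (-(6 : ℤ)) = 1 ∧ ζ ^ (-(8 : ℤ)) = -ζ ∧ ζ ^ (-(10 : ℤ)) = ζ ^ 2 := by
  refine ⟨by simp, ?_, ?_, ?_, ?_, ?_⟩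
  · rw [zpow_neg, show (2 : ℤ) = ((2 : ℕ) : ℤ) by norm_num, zpow_natCast]
    exact inv_eq_of_mul_eq_one_right (by linear_combination (-1 : ℂ) * h3)
  · rw [zpow_neg, show (4 : ℤ) = ((4 : ℕ) : ℤ) by norm_num, zpow_natCast]
    exact inv_eq_of_mul_eq_one_right (by linear_combination (ζ ^ 3 - 1) * h3)
  · rw [zpow_neg, show (6 : ℤ) = ((6 : ℕ) : ℤ) by norm_num, zpow_natCast]
    exact inv_eq_of_mul_eq_one_right (by linear_combination (ζ ^ 3 - 1) * h3)
  · rw [zpow_neg, show (8 : ℤ) = ((8 : ℕ) : ℤ) by norm_num, zpow_natCast]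
    exact inv_eq_of_mul_eq_one_right (by linear_combination (-(ζ ^ 6) + ζ ^ 3 - 1) * h3)
  · rw [zpow_neg, show (10 : ℤ) = ((10 : ℕ) : ℤ) by norm_num, zpow_natCast]
    exact inv_eq_of_mul_eq_one_right
      (by linear_combination (ζ ^ 9 - ζ ^ 6 + ζ ^ 3 - 1) * h3)

/-- values of `p` near a multiple of `12` -/
theorem finalCore_pfun_vals (q : ℤ) (hq : 1 ≤ q) :
    (GradedCount.pfun (12 * q - 0) = q + 1 ∧ GradedCount.pfun (12 * q - 2) = q ∧
      GradedCount.pfun (12 * q - 4) = q ∧ GradedCount.pfun (12 * q - 6) = q ∧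
      GradedCount.pfun (12 * q - 8) = q ∧ GradedCount.pfun (12 * q - 10) = q - 1) ∧
    (GradedCount.pfun (12 * q - 12 + 0) = q ∧ GradedCount.pfun (12 * q - 12 + 2) = q - 1 ∧
      GradedCount.pfun (12 * q - 12 + 4) = q ∧ GradedCount.pfun (12 * q - 12 + 6) = q ∧
      GradedCount.pfun (12 * q - 12 + 8) = q ∧ GradedCount.pfun (12 * q - 12 + 10) = q) := by
  unfold GradedCount.pfun
  refine ⟨⟨?_, ?_, ?_, ?_, ?_, ?_⟩, ?_, ?_, ?_, ?_, ?_, ?_⟩ <;> split_ifs <;> omega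

section arith

variable {ι : Type} [Fintype ι]

/-- the number of indices of a given weight -/
noncomputable def finalCnt (w : ι → ℤ) (v : ℤ) : ℕ := by
  classical
  exact (Finset.univ.filter (fun j => w j = v)).card

/-- fiberwise sums over the weights -/
theorem finalCore_sum_fiber {M : Type*} [AddCommMonoid M] (w : ι → ℤ)
    (hw : ∀ j, w j ∈ ({0, 2, 4, 6, 8, 10} : Finset ℤ)) (φ : ℤ → M) :
    ∑ j, φ (w j) = finalCnt w 0 • φ 0 + finalCnt w 2 • φ 2 + finalCnt w 4 • φ 4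
      + finalCnt w 6 • φ 6 + finalCnt w 8 • φ 8 + finalCnt w 10 • φ 10 := by
  classical
  rw [← Finset.sum_fiberwise_of_maps_to (s := Finset.univ) (t := ({0, 2, 4, 6, 8, 10} : Finset ℤ))
    (g := w) (fun j _ => hw j) (fun j => φ (w j))]
  have h : ∀ v ∈ ({0, 2, 4, 6, 8, 10} : Finset ℤ),
      ∑ j ∈ Finset.univ.filter (fun j => w j = v), φ (w j) = finalCnt w v • φ v := by
    intro v _
    rw [Finset.sum_congr rfl (fun j hj => by rw [(Finset.mem_filter.mp hj).2]), Finset.sum_const]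
    rfl
  rw [Finset.sum_congr rfl h, Finset.sum_insert (by decide), Finset.sum_insert (by decide),
    Finset.sum_insert (by decide), Finset.sum_insert (by decide), Finset.sum_insert (by decide),
    Finset.sum_singleton]
  simp only [add_assoc]

/-- **The final arithmetic** of the dimension formula. -/
theorem finalCore_arith (w : ι → ℤ) (m s : ℤ → ℕ) (ν2 ν3 c : ℕ)
    (hev : ∀ j, Even (w j)) (hnn : ∀ j, 0 ≤ w j)
    (hm : ∀ k, m k = ∑ j, pdim (k - w j))
    (hs : ∀ k, s k = ∑ j, pdim (k - 12 + w j))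
    (hm0 : m 0 = 1) (hs0 : ∀ k, k ≤ 0 → s k = 0)
    (hS : ∑ j, Complex.I ^ (-w j) = (ν2 : ℂ))
    (hU : ∑ j, Complex.exp (Real.pi * Complex.I / 3) ^ (-w j) = (ν3 : ℂ))
    (hc : ∃ K : ℤ, ∀ k : ℤ, K ≤ k → Even k → m k = s k + c) :
    (s 2 : ℚ) = 1 + (Fintype.card ι : ℚ) / 12 - (ν2 : ℚ) / 4 - (ν3 : ℚ) / 3 - (c : ℚ) / 2 ∧
      m 2 + 1 = s 2 + c := by
  classical
  -- the weights are at most `10`
  have hle : ∀ j, w j ≤ 10 := by
    intro j₀
    by_contra hgt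
    push Not at hgt
    obtain ⟨r, hr⟩ := hev j₀
    have h1 := hs0 (12 - w j₀) (by omega)
    rw [hs] at h1
    have h2 : pdim (12 - w j₀ - 12 + w j₀) ≤ ∑ j, pdim (12 - w j₀ - 12 + w j) :=
      Finset.single_le_sum (f := fun j => pdim (12 - w j₀ - 12 + w j))
        (fun _ _ => Nat.zero_le _) (Finset.mem_univ j₀)
    rw [show 12 - w j₀ - 12 + w j₀ = 0 by ring, pdim_zero] at h2
    omega
  have hw : ∀ j, w j ∈ ({0, 2, 4, 6, 8, 10} : Finset ℤ) := by
    intro j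
    obtain ⟨r, hr⟩ := hev j
    have h2 := hnn j
    have h3 := hle j
    simp only [Finset.mem_insert, Finset.mem_singleton]
    omega
  set n0 : ℤ := (finalCnt w 0 : ℤ) with hn0
  set n2 : ℤ := (finalCnt w 2 : ℤ) with hn2
  set n4 : ℤ := (finalCnt w 4 : ℤ) with hn4
  set n6 : ℤ := (finalCnt w 6 : ℤ) with hn6
  set n8 : ℤ := (finalCnt w 8 : ℤ) with hn8
  set n10 : ℤ := (finalCnt w 10 : ℤ) with hn10
  -- the dimensions in terms of the counts
  have hmZ : ∀ k : ℤ, (m k : ℤ) = n0 * GradedCount.pfun (k - 0) + n2 * GradedCount.pfun (k - 2)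
      + n4 * GradedCount.pfun (k - 4) + n6 * GradedCount.pfun (k - 6)
      + n8 * GradedCount.pfun (k - 8) + n10 * GradedCount.pfun (k - 10) := by
    intro k
    rw [hm k]
    push_cast
    simp only [finalCore_pdim_eq_pfun]
    rw [finalCore_sum_fiber w hw (fun v => GradedCount.pfun (k - v))]
    simp only [nsmul_eq_mul, hn0, hn2, hn4, hn6, hn8, hn10]
  have hsZ : ∀ k : ℤ, (s k : ℤ) = n0 * GradedCount.pfun (k - 12 + 0)
      + n2 * GradedCount.pfun (k - 12 + 2)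
      + n4 * GradedCount.pfun (k - 12 + 4) + n6 * GradedCount.pfun (k - 12 + 6)
      + n8 * GradedCount.pfun (k - 12 + 8) + n10 * GradedCount.pfun (k - 12 + 10) := by
    intro k
    rw [hs k]
    push_cast
    simp only [finalCore_pdim_eq_pfun]
    rw [finalCore_sum_fiber w hw (fun v => GradedCount.pfun (k - 12 + v))]
    simp only [nsmul_eq_mul, hn0, hn2, hn4, hn6, hn8, hn10]
  -- (a) `n₀ = 1`
  have ha : n0 = 1 := by
    have h := hmZ 0
    rw [hm0] at h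
    norm_num [GradedCount.pfun] at h
    exact h.symm
  -- (f) `m(2) = n₂`, `s(2) = n₁₀`
  have hm2 : (m 2 : ℤ) = n2 := by
    have h := hmZ 2
    norm_num [GradedCount.pfun] at h
    exact h
  have hs2 : (s 2 : ℤ) = n10 := by
    have h := hsZ 2
    norm_num [GradedCount.pfun] at h
    exact h
  -- (b) the number of generators
  have hb : (Fintype.card ι : ℤ) = n0 + n2 + n4 + n6 + n8 + n10 := by
    have h := finalCore_sum_fiber w hw (fun _ => (1 : ℕ))
    simp only [Finset.sum_const, Finset.card_univ, smul_eq_mul, mul_one] at h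
    rw [h]
    push_cast
    rfl
  -- (c) the elliptic point `i`
  have hcS : n0 - n2 + n4 - n6 + n8 - n10 = (ν2 : ℤ) := by
    have h := finalCore_sum_fiber w hw (fun v => Complex.I ^ (-v))
    rw [hS] at h
    obtain ⟨e0, e2, e4, e6, e8, e10⟩ := finalCore_I_zpow
    rw [e0, e2, e4, e6, e8, e10] at h
    simp only [nsmul_eq_mul] at h
    have h' : ((n0 - n2 + n4 - n6 + n8 - n10 : ℤ) : ℂ) = ((ν2 : ℤ) : ℂ) := by
      simp only [hn0, hn2, hn4, hn6, hn8, hn10]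
      push_cast
      linear_combination -h
    exact_mod_cast h'
  -- (d) the elliptic point `ρ`
  obtain ⟨ζ, hζ, hζim, hζ3⟩ := finalCore_zeta
  have hζ2 : ζ ^ 2 = ζ - 1 := by
    have h1 : (ζ + 1) * (ζ ^ 2 - ζ + 1) = 0 := by linear_combination hζ3
    rcases mul_eq_zero.mp h1 with h | h
    · exfalso
      apply hζim
      have : ζ = -1 := by linear_combination h
      rw [this]
      simp
    · linear_combination h
  have hd : ((n0 + n6 - n4 - n10 - (ν3 : ℤ) : ℤ) : ℂ) + ((n4 + n10 - n2 - n8 : ℤ) : ℂ) * ζ = 0 := by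
    have h := finalCore_sum_fiber w hw (fun v => ζ ^ (-v))
    rw [hζ, hU] at h
    rw [← hζ] at h
    obtain ⟨e0, e2, e4, e6, e8, e10⟩ := finalCore_zeta_zpow ζ hζ3
    rw [e0, e2, e4, e6, e8, e10, hζ2] at h
    simp only [nsmul_eq_mul] at h
    simp only [hn0, hn2, hn4, hn6, hn8, hn10]
    push_cast
    linear_combination -h
  have hdB : n4 + n10 - n2 - n8 = 0 := by
    have h := congrArg Complex.im hd
    simp only [Complex.add_im, Complex.mul_im, Complex.intCast_im, Complex.intCast_re,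
      Complex.zero_im, zero_mul, add_zero, zero_add] at h
    rcases mul_eq_zero.mp h with h | h
    · exact_mod_cast h
    · exact absurd h hζim
  have hdA : n0 + n6 - n4 - n10 - (ν3 : ℤ) = 0 := by
    rw [hdB] at hd
    simp only [Int.cast_zero, zero_mul, add_zero] at hd
    exact_mod_cast hd
  -- (e) the cusps
  obtain ⟨K, hK⟩ := hc
  have he : (c : ℤ) = n0 + n2 - n10 := by
    set q : ℤ := (K.toNat : ℤ) + 1 with hq
    have hq1 : 1 ≤ q := by omega
    have h1 := hK (12 * q) (by omega) ⟨6 * q, by ring⟩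
    have h2 := hmZ (12 * q)
    have h3 := hsZ (12 * q)
    obtain ⟨⟨a0, a2, a4, a6, a8, a10⟩, b0, b2, b4, b6, b8, b10⟩ := finalCore_pfun_vals q hq1
    rw [a0, a2, a4, a6, a8, a10] at h2
    rw [b0, b2, b4, b6, b8, b10] at h3
    have h4 : (m (12 * q) : ℤ) = s (12 * q) + c := by exact_mod_cast h1
    linear_combination h2 - h3 - h4
  refine ⟨?_, ?_⟩
  · have hs2' : (s 2 : ℚ) = (n10 : ℚ) := by exact_mod_cast hs2
    have hb' : (Fintype.card ι : ℚ) = n0 + n2 + n4 + n6 + n8 + n10 := by exact_mod_cast hb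
    have hcS' : (n0 : ℚ) - n2 + n4 - n6 + n8 - n10 = (ν2 : ℚ) := by exact_mod_cast hcS
    have hdB' : (n4 : ℚ) + n10 - n2 - n8 = 0 := by exact_mod_cast hdB
    have hdA' : (n0 : ℚ) + n6 - n4 - n10 - (ν3 : ℚ) = 0 := by exact_mod_cast hdA
    have he' : (c : ℚ) = n0 + n2 - n10 := by exact_mod_cast he
    have ha' : (n0 : ℚ) = 1 := by exact_mod_cast ha
    rw [hs2', hb', ← hcS', he']
    linarith
  · omega

end arith

end Fermat.Agent.S20Lib
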