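import Mathlib

/-!
# The projective line over a commutative ring, as a set with an action of `SL(2, ℤ)`

`P1 R` is the set of unimodular column vectors `(a, c) : R × R` modulo the cross-product relation
`a * c' = a' * c` (equivalently: modulo units).  `SL(2, ℤ)` acts on it through column vectors:
`g • [a : c] = [g₀₀ a + g₀₁ c : g₁₀ a + g₁₁ c]`.

For `R = ZMod N` this is the model of `SL(2, ℤ) ⧸ Γ₀(N)` used in the proof of S20.
-/

set_option autoImplicit false

namespace Fermat.Agent.S20Lib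

open Matrix

open scoped MatrixGroups

variable (R : Type*) [CommRing R]

/-- Unimodular column vectors `(a, c)` over `R`. -/
def Unimod : Type _ := {v : R × R // ∃ x y : R, x * v.1 + y * v.2 = 1}

variable {R}

/-- The cross-product relation on unimodular vectors is transitive. -/
theorem unimod_cross_trans {a c a' c' a'' c'' : R} (h' : ∃ x y : R, x * a' + y * c' = 1)
    (h1 : a * c' = a' * c) (h2 : a' * c'' = a'' * c') : a * c'' = a'' * c := by
  obtain ⟨x, y, hxy⟩ := h'
  calc a * c'' = (x * a' + y * c') * (a * c'') := by rw [hxy, one_mul]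
    _ = x * a * (a' * c'') + y * c'' * (a * c') := by ring
    _ = x * a * (a'' * c') + y * c'' * (a' * c) := by rw [h1, h2]
    _ = x * a'' * (a * c') + y * c * (a' * c'') := by ring
    _ = x * a'' * (a' * c) + y * c * (a'' * c') := by rw [h1, h2]
    _ = (x * a' + y * c') * (a'' * c) := by ring
    _ = a'' * c := by rw [hxy, one_mul]

variable (R)

/-- The cross-product setoid on unimodular vectors. -/
instance P1.setoid : Setoid (Unimod R) where
  r v w := v.1.1 * w.1.2 = w.1.1 * v.1.2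
  iseqv :=
    { refl := fun _ => rfl
      symm := fun h => h.symm
      trans := fun {_ v _} h1 h2 => unimod_cross_trans v.2 h1 h2 }

/-- The projective line over `R`: unimodular column vectors up to the cross-product relation. -/
def P1 : Type _ := Quotient (P1.setoid R)

variable {R}

/-- The point `[a : c]` of the projective line. -/
def P1.mk (a c : R) (h : ∃ x y : R, x * a + y * c = 1) : P1 R :=
  Quotient.mk (P1.setoid R) ⟨(a, c), h⟩

theorem P1.mk_eq_mk_iff {a c a' c' : R} (h : ∃ x y : R, x * a + y * c = 1)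
    (h' : ∃ x y : R, x * a' + y * c' = 1) :
    P1.mk a c h = P1.mk a' c' h' ↔ a * c' = a' * c := by
  constructor
  · intro hq
    exact Quotient.exact hq
  · intro hq
    exact Quotient.sound hq

theorem P1.exists_rep (x : P1 R) : ∃ (a c : R) (h : ∃ x y : R, x * a + y * c = 1),
    x = P1.mk a c h := by
  induction x using Quotient.inductionOn with
  | _ v => exact ⟨v.1.1, v.1.2, v.2, rfl⟩

/-- Unimodularity is preserved by the column action of a matrix of determinant one. -/
theorem unimod_smul_aux {p q r s a c : R} (hdet : p * s - q * r = 1)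
    (h : ∃ x y : R, x * a + y * c = 1) :
    ∃ x y : R, x * (p * a + q * c) + y * (r * a + s * c) = 1 := by
  obtain ⟨x, y, hxy⟩ := h
  refine ⟨x * s - y * r, y * p - x * q, ?_⟩
  calc (x * s - y * r) * (p * a + q * c) + (y * p - x * q) * (r * a + s * c)
      = (p * s - q * r) * (x * a + y * c) := by ring
    _ = 1 := by rw [hdet, hxy, one_mul]

theorem sl2_det_cast (g : SL(2, ℤ)) :
    ((g 0 0 : ℤ) : R) * ((g 1 1 : ℤ) : R) - ((g 0 1 : ℤ) : R) * ((g 1 0 : ℤ) : R) = 1 := by
  have h := g.det_coe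
  rw [Matrix.det_fin_two] at h
  have h2 : (((g 0 0 * g 1 1 - g 0 1 * g 1 0 : ℤ)) : R) = 1 := by
    rw [h]; simp
  push_cast at h2
  exact h2

/-- The action of `g : SL(2, ℤ)` on unimodular vectors. -/
def Unimod.smulInt (g : SL(2, ℤ)) (v : Unimod R) : Unimod R :=
  ⟨(((g 0 0 : ℤ) : R) * v.1.1 + ((g 0 1 : ℤ) : R) * v.1.2,
    ((g 1 0 : ℤ) : R) * v.1.1 + ((g 1 1 : ℤ) : R) * v.1.2),
    unimod_smul_aux (sl2_det_cast g) v.2⟩

/-- The action of `g : SL(2, ℤ)` on the projective line. -/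
def P1.smulInt (g : SL(2, ℤ)) : P1 R → P1 R :=
  Quotient.map (Unimod.smulInt g) (by
    intro v w (h : v.1.1 * w.1.2 = w.1.1 * v.1.2)
    show (((g 0 0 : ℤ) : R) * v.1.1 + ((g 0 1 : ℤ) : R) * v.1.2) *
        (((g 1 0 : ℤ) : R) * w.1.1 + ((g 1 1 : ℤ) : R) * w.1.2) =
      (((g 0 0 : ℤ) : R) * w.1.1 + ((g 0 1 : ℤ) : R) * w.1.2) *
        (((g 1 0 : ℤ) : R) * v.1.1 + ((g 1 1 : ℤ) : R) * v.1.2)
    have hd := sl2_det_cast (R := R) g
    linear_combination (((g 0 0 : ℤ) : R) * ((g 1 1 : ℤ) : R) -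
      ((g 0 1 : ℤ) : R) * ((g 1 0 : ℤ) : R)) * h)

theorem P1.smulInt_mk (g : SL(2, ℤ)) (a c : R) (h : ∃ x y : R, x * a + y * c = 1) :
    P1.smulInt g (P1.mk a c h) =
      P1.mk (((g 0 0 : ℤ) : R) * a + ((g 0 1 : ℤ) : R) * c)
        (((g 1 0 : ℤ) : R) * a + ((g 1 1 : ℤ) : R) * c)
        (unimod_smul_aux (sl2_det_cast g) h) := rfl

instance P1.instMulAction : MulAction SL(2, ℤ) (P1 R) where
  smul := P1.smulInt
  one_smul x := by
    obtain ⟨a, c, h, rfl⟩ := P1.exists_rep x
    show P1.smulInt 1 (P1.mk a c h) = _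
    rw [P1.smulInt_mk, P1.mk_eq_mk_iff]
    simp
  mul_smul g g' x := by
    obtain ⟨a, c, h, rfl⟩ := P1.exists_rep x
    show P1.smulInt (g * g') (P1.mk a c h) = P1.smulInt g (P1.smulInt g' (P1.mk a c h))
    rw [P1.smulInt_mk, P1.smulInt_mk, P1.smulInt_mk, P1.mk_eq_mk_iff]
    simp only [Matrix.SpecialLinearGroup.coe_mul, Matrix.mul_apply, Fin.sum_univ_two]
    push_cast
    ring

theorem P1.smul_mk (g : SL(2, ℤ)) (a c : R) (h : ∃ x y : R, x * a + y * c = 1) :
    g • P1.mk a c h =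
      P1.mk (((g 0 0 : ℤ) : R) * a + ((g 0 1 : ℤ) : R) * c)
        (((g 1 0 : ℤ) : R) * a + ((g 1 1 : ℤ) : R) * c)
        (unimod_smul_aux (sl2_det_cast g) h) := rfl

/-- `T • [a : c] = [a + c : c]`. -/
theorem P1.T_smul_mk (a c : R) (h : ∃ x y : R, x * a + y * c = 1) :
    ModularGroup.T • P1.mk a c h = P1.mk (a + c) c
      (by obtain ⟨x, y, hxy⟩ := h; exact ⟨x, y - x, by linear_combination hxy⟩) := by
  rw [P1.smul_mk, P1.mk_eq_mk_iff]
  simp [ModularGroup.T]

/-- `S • [a : c] = [-c : a]`. -/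
theorem P1.S_smul_mk (a c : R) (h : ∃ x y : R, x * a + y * c = 1) :
    ModularGroup.S • P1.mk a c h = P1.mk (-c) a
      (by obtain ⟨x, y, hxy⟩ := h; exact ⟨-y, x, by linear_combination hxy⟩) := by
  rw [P1.smul_mk, P1.mk_eq_mk_iff]
  simp [ModularGroup.S]

/-- `(S * T) • [a : c] = [-c : a + c]`. -/
theorem P1.ST_smul_mk (a c : R) (h : ∃ x y : R, x * a + y * c = 1) :
    (ModularGroup.S * ModularGroup.T) • P1.mk a c h = P1.mk (-c) (a + c)
      (by obtain ⟨x, y, hxy⟩ := h; exact ⟨x - y, x, by linear_combination hxy⟩) := by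
  rw [mul_smul, P1.T_smul_mk, P1.S_smul_mk]

/-- Two unimodular vectors with vanishing cross product differ by a unit. -/
theorem P1.exists_unit_of_cross {a c a' c' : R} (h : ∃ x y : R, x * a + y * c = 1)
    (h' : ∃ x y : R, x * a' + y * c' = 1) (hc : a * c' = a' * c) :
    ∃ u : Rˣ, a' = u * a ∧ c' = u * c := by
  obtain ⟨x, y, hxy⟩ := h
  obtain ⟨x', y', hxy'⟩ := h'
  have h1 : (x * a' + y * c') * (x' * a + y' * c) = 1 := by
    linear_combination (x * a + y * c) * hxy' + hxy + (x' * y - x * y') * hc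
  refine ⟨⟨x * a' + y * c', x' * a + y' * c, h1, by rw [mul_comm]; exact h1⟩, ?_, ?_⟩
  · show a' = (x * a' + y * c') * a
    linear_combination (-a') * hxy - y * hc
  · show c' = (x * a' + y * c') * c
    linear_combination (-c') * hxy + x * hc

theorem P1.mk_eq_mk_iff_exists_unit {a c a' c' : R} (h : ∃ x y : R, x * a + y * c = 1)
    (h' : ∃ x y : R, x * a' + y * c' = 1) :
    P1.mk a c h = P1.mk a' c' h' ↔ ∃ u : Rˣ, a' = u * a ∧ c' = u * c := by
  rw [P1.mk_eq_mk_iff]
  constructor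
  · exact P1.exists_unit_of_cross h h'
  · rintro ⟨u, rfl, rfl⟩
    ring

end Fermat.Agent.S20Lib
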