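/-
S20, chunk F2/F3 (helper4): fixed points of `S` and of `S * T` on the projective line `P1 R`.

* `S • [a : c] = [a : c]`  iff `a ^ 2 + c ^ 2 = 0`; then `c` is a unit and `x = a / c` is a root of
  `x ^ 2 + 1`.
* `(S * T) • [a : c] = [a : c]` iff `a ^ 2 + a * c + c ^ 2 = 0`; then `c` is a unit and `x = a / c`
  is a root of `x ^ 2 + x + 1`.
-/
import Mathlib
import Fermat.Agent.Lib.S20.ProjLine
import Fermat.Prelude.Def_ModularCurve_GenusNumerics

set_option autoImplicit false

namespace Fermat.Agent.S20Lib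

open scoped MatrixGroups

variable {R : Type*} [CommRing R]

theorem combFix_unimod_one (t : R) : ∃ x y : R, x * t + y * 1 = 1 := ⟨0, 1, by ring⟩

/-- `S` fixes `[a : c]` iff `a ^ 2 + c ^ 2 = 0`. -/
theorem P1.S_smul_mk_eq_iff (a c : R) (h : ∃ x y : R, x * a + y * c = 1) :
    ModularGroup.S • P1.mk a c h = P1.mk a c h ↔ a ^ 2 + c ^ 2 = 0 := by
  rw [P1.S_smul_mk, P1.mk_eq_mk_iff]
  constructor
  · intro hq
    linear_combination -hq
  · intro hq
    linear_combination -hq

/-- `S * T` fixes `[a : c]` iff `a ^ 2 + a * c + c ^ 2 = 0`. -/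
theorem P1.ST_smul_mk_eq_iff (a c : R) (h : ∃ x y : R, x * a + y * c = 1) :
    (ModularGroup.S * ModularGroup.T) • P1.mk a c h = P1.mk a c h ↔
      a ^ 2 + a * c + c ^ 2 = 0 := by
  rw [P1.ST_smul_mk, P1.mk_eq_mk_iff]
  constructor
  · intro hq
    linear_combination -hq
  · intro hq
    linear_combination -hq

/-- The map `x ↦ [x : 1]` from the roots of `x ^ 2 + 1` to the fixed points of `S`. -/
def P1.rootToFixS (t : {x : R // x ^ 2 + 1 = 0}) : MulAction.fixedBy (P1 R) ModularGroup.S :=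
  ⟨P1.mk t.1 1 (combFix_unimod_one t.1), by
    rw [MulAction.mem_fixedBy, P1.S_smul_mk_eq_iff]
    linear_combination t.2⟩

theorem P1.rootToFixS_bijective :
    Function.Bijective (P1.rootToFixS : {x : R // x ^ 2 + 1 = 0} → _) := by
  constructor
  · intro t t' htt
    have h1 : P1.mk t.1 1 (combFix_unimod_one t.1) = P1.mk t'.1 1 (combFix_unimod_one t'.1) :=
      congrArg Subtype.val htt
    rw [P1.mk_eq_mk_iff] at h1
    apply Subtype.ext
    linear_combination h1
  · rintro ⟨p, hp⟩
    obtain ⟨a, c, h, rfl⟩ := P1.exists_rep p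
    have hp' := hp
    rw [MulAction.mem_fixedBy, P1.S_smul_mk_eq_iff] at hp'
    obtain ⟨x, y, hxy⟩ := h
    -- `c` is a unit with inverse `d`
    set d : R := -x ^ 2 * c + 2 * x * y * a + y ^ 2 * c with hd
    have hcd : c * d = 1 := by
      rw [hd]
      linear_combination (x * a + y * c + 1) * hxy - x ^ 2 * hp'
    refine ⟨⟨a * d, ?_⟩, ?_⟩
    · linear_combination d ^ 2 * hp' - (c * d + 1) * hcd
    · apply Subtype.ext
      show P1.mk (a * d) 1 _ = P1.mk a c _
      rw [P1.mk_eq_mk_iff]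
      linear_combination a * hcd

/-- The number of fixed points of `S` on `P1 R` is the number of roots of `x ^ 2 + 1`. -/
theorem P1.card_fixedBy_S :
    Nat.card (MulAction.fixedBy (P1 R) ModularGroup.S) = Nat.card {x : R // x ^ 2 + 1 = 0} :=
  (Nat.card_congr (Equiv.ofBijective _ P1.rootToFixS_bijective)).symm

/-- The map `x ↦ [x : 1]` from the roots of `x ^ 2 + x + 1` to the fixed points of `S * T`. -/
def P1.rootToFixST (t : {x : R // x ^ 2 + x + 1 = 0}) :
    MulAction.fixedBy (P1 R) (ModularGroup.S * ModularGroup.T) :=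
  ⟨P1.mk t.1 1 (combFix_unimod_one t.1), by
    rw [MulAction.mem_fixedBy, P1.ST_smul_mk_eq_iff]
    linear_combination t.2⟩

theorem P1.rootToFixST_bijective :
    Function.Bijective (P1.rootToFixST : {x : R // x ^ 2 + x + 1 = 0} → _) := by
  constructor
  · intro t t' htt
    have h1 : P1.mk t.1 1 (combFix_unimod_one t.1) = P1.mk t'.1 1 (combFix_unimod_one t'.1) :=
      congrArg Subtype.val htt
    rw [P1.mk_eq_mk_iff] at h1
    apply Subtype.ext
    linear_combination h1
  · rintro ⟨p, hp⟩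
    obtain ⟨a, c, h, rfl⟩ := P1.exists_rep p
    have hp' := hp
    rw [MulAction.mem_fixedBy, P1.ST_smul_mk_eq_iff] at hp'
    obtain ⟨x, y, hxy⟩ := h
    -- `c` is a unit with inverse `d`
    set d : R := -x ^ 2 * a - x ^ 2 * c + 2 * x * y * a + y ^ 2 * c with hd
    have hcd : c * d = 1 := by
      rw [hd]
      linear_combination (x * a + y * c + 1) * hxy - x ^ 2 * hp'
    refine ⟨⟨a * d, ?_⟩, ?_⟩
    · linear_combination d ^ 2 * hp' - (a * d + c * d + 1) * hcd
    · apply Subtype.ext
      show P1.mk (a * d) 1 _ = P1.mk a c _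
      rw [P1.mk_eq_mk_iff]
      linear_combination a * hcd

/-- The number of fixed points of `S * T` on `P1 R` is the number of roots of `x ^ 2 + x + 1`. -/
theorem P1.card_fixedBy_ST :
    Nat.card (MulAction.fixedBy (P1 R) (ModularGroup.S * ModularGroup.T)) =
      Nat.card {x : R // x ^ 2 + x + 1 = 0} :=
  (Nat.card_congr (Equiv.ofBijective _ P1.rootToFixST_bijective)).symm

/-- F2: the fixed points of `S` on `P1 (ZMod N)`. -/
theorem P1.card_fixedBy_S_zmod (N : ℕ) :
    Nat.card (MulAction.fixedBy (P1 (ZMod N)) ModularGroup.S) = ModularCurve.nuTwo N :=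
  P1.card_fixedBy_S

/-- F3: the fixed points of `S * T` on `P1 (ZMod N)`. -/
theorem P1.card_fixedBy_ST_zmod (N : ℕ) :
    Nat.card (MulAction.fixedBy (P1 (ZMod N)) (ModularGroup.S * ModularGroup.T)) =
      ModularCurve.nuThree N :=
  P1.card_fixedBy_ST

end Fermat.Agent.S20Lib
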