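/-
S20, chunk F2/F3, final form (helper4): the numbers of fixed points of `sS` and `sU` on the coset
space `Q N` are `nuTwo N` and `nuThree N`.
-/
import Mathlib
import Fermat.Agent.Lib.S20.ProjLineCoset
import Fermat.Agent.Lib.S20.CombFix

set_option autoImplicit false

namespace Fermat.Agent.S20Lib

open Fermat.Agent.LibS23

variable (N : ℕ) [NeZero N]

/-- **F2**: the number of fixed points of `S` on `Γ₀(N)`-cosets is `ν₂(N)`. -/
theorem card_fix_sS : Nat.card {q : Q N // sS • q = q} = ModularCurve.nuTwo N :=
  (card_fix_sS_eq N).trans (P1.card_fixedBy_S_zmod N)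

/-- **F3**: the number of fixed points of `U = S T` on `Γ₀(N)`-cosets is `ν₃(N)`. -/
theorem card_fix_sU : Nat.card {q : Q N // sU • q = q} = ModularCurve.nuThree N :=
  (card_fix_sU_eq N).trans (P1.card_fixedBy_ST_zmod N)

end Fermat.Agent.S20Lib
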