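/-
S20, chunk B (helper5): auxiliary statements on `q_N`-expansions of the conjugates
(`zetaInv_pow_eq_one_iff`, `eq_zero_of_acoef`, `trP_coeff`).
-/
import Fermat.Agent.Lib.S20.Defs
import Fermat.Prelude.Thm_UpperHalfPlane_qExpansion_coeff_nat_mul

set_option autoImplicit false

namespace Fermat.Agent.S20Lib

open UpperHalfPlane ModularForm CongruenceSubgroup MatrixGroups Filter Matrix.SpecialLinearGroup
open SlashInvariantForm EisensteinSeries
open scoped Manifold Topology
open Fermat.Agent.LibS23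

section CuspAux
variable {N : ℕ} [NeZero N]

theorem zetaInv_pow_eq_one_iff (n : ℕ) : zetaInv N ^ n = 1 ↔ N ∣ n := by
  have hN : (N : ℂ) ≠ 0 := Nat.cast_ne_zero.2 (NeZero.ne N)
  unfold zetaInv
  rw [← Complex.exp_nat_mul, Complex.exp_eq_one_iff]
  constructor
  · rintro ⟨m, hm⟩
    have h1 : (n : ℂ) = -(m : ℂ) * N := by
      field_simp at hm
      linear_combination -hm
    have h3 : (n : ℤ) = -m * N := by exact_mod_cast h1
    have : (N : ℤ) ∣ (n : ℤ) := ⟨-m, by rw [h3]; ring⟩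
    exact_mod_cast this
  · rintro ⟨c, rfl⟩
    refine ⟨-(c : ℤ), ?_⟩
    push_cast
    field_simp

omit [NeZero N] in
/-- elements of `Γ(N)` act trivially on the coset space. -/
theorem cuspAux_smul_eq (γ : SL(2, ℤ)) (hγ : γ ∈ Gamma N) (q : Q N) : toSL γ • q = q := by
  induction q using Quotient.inductionOn with
  | h r =>
  obtain ⟨_, ⟨δ, rfl⟩⟩ := r
  refine Quotient.sound (QuotientGroup.leftRel_apply.mpr ?_)
  rw [Subgroup.mem_subgroupOf]
  have hn : δ⁻¹ * γ⁻¹ * δ ∈ Gamma N := by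
    have := (Gamma_normal N).conj_mem γ⁻¹ (inv_mem hγ) δ⁻¹
    simpa using this
  refine ⟨δ⁻¹ * γ⁻¹ * δ, Gamma0_mem.2 (Gamma_mem.1 hn).2.2.1, ?_⟩
  simp [toSL, mul_assoc]

/-- the conjugates are invariant under `Γ(N)`. -/
theorem cuspAux_slash {k : ℤ} (f : ModularForm (Gamma0 N) k) (q : Q N) (γ : SL(2, ℤ))
    (hγ : γ ∈ Gamma N) : quotientFunc f q ∣[k] (mapGL ℝ γ) = quotientFunc f q := by
  have h := (fam_quotientFunc f).slash (toSL γ) q
  have h2 : (toSL γ)⁻¹ • q = q := by
    have := cuspAux_smul_eq γ hγ q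
    rw [← this, inv_smul_smul, this]
  rw [h2] at h
  exact h

/-- the conjugate `f_q` as a slash-invariant form of level `Γ(N)`. -/
noncomputable def cuspAux_sif {k : ℤ} (f : ModularForm (Gamma0 N) k) (q : Q N) :
    SlashInvariantForm ((Gamma N : Subgroup SL(2, ℤ)) : Subgroup (GL (Fin 2) ℝ)) k where
  toFun := quotientFunc f q
  slash_action_eq' := by
    rintro _ ⟨γ, hγ, rfl⟩
    exact cuspAux_slash f q γ hγ

/-- functions with a `q_N`-expansion: `N`-periodic, holomorphic, bounded at `i∞`. -/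
def cuspAux_QN (N : ℕ) (F : ℍ → ℂ) : Prop :=
  Function.Periodic (F ∘ ofComplex) (N : ℝ) ∧ MDiff F ∧ IsBoundedAtImInfty F

theorem cuspAux_QN_quotientFunc {k : ℤ} (f : ModularForm (Gamma0 N) k) (q : Q N) :
    cuspAux_QN N (quotientFunc f q) := by
  refine ⟨?_, (fam_quotientFunc f).holo q, (fam_quotientFunc f).bdd q⟩
  have h := SlashInvariantFormClass.periodic_comp_ofComplex (cuspAux_sif f q) (h := (N : ℝ))
    (by rw [strictPeriods_Gamma]; exact AddSubgroup.mem_zmultiples _)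
  exact h

theorem cuspAux_QN.analyticAt {F : ℍ → ℂ} (hF : cuspAux_QN N F) :
    AnalyticAt ℂ (cuspFunction (N : ℝ) F) 0 :=
  analyticAt_cuspFunction_zero (Nat.cast_pos.2 (NeZero.pos N)) hF.1 hF.2.1 hF.2.2

omit [NeZero N] in
theorem cuspAux_QN.add {F G : ℍ → ℂ} (hF : cuspAux_QN N F) (hG : cuspAux_QN N G) :
    cuspAux_QN N (F + G) := by
  refine ⟨?_, hF.2.1.add hG.2.1, hF.2.2.add hG.2.2⟩
  intro w
  have h1 := hF.1 w
  have h2 := hG.1 w
  simp only [Function.comp_apply, Pi.add_apply] at h1 h2 ⊢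
  rw [h1, h2]

omit [NeZero N] in
theorem cuspAux_QN.mul {F G : ℍ → ℂ} (hF : cuspAux_QN N F) (hG : cuspAux_QN N G) :
    cuspAux_QN N (F * G) := by
  refine ⟨?_, hF.2.1.mul hG.2.1, hF.2.2.mul hG.2.2⟩
  intro w
  have h1 := hF.1 w
  have h2 := hG.1 w
  simp only [Function.comp_apply, Pi.mul_apply] at h1 h2 ⊢
  rw [h1, h2]

omit [NeZero N] in
theorem cuspAux_QN.zero : cuspAux_QN N (0 : ℍ → ℂ) :=
  ⟨fun _ => rfl, mdifferentiable_const, Filter.const_boundedAtFilter _ 0⟩

theorem cuspAux_QN.sum {ι : Type*} (s : Finset ι) {F : ι → ℍ → ℂ}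
    (h : ∀ i ∈ s, cuspAux_QN N (F i)) : cuspAux_QN N (∑ i ∈ s, F i) := by
  classical
  induction s using Finset.induction_on with
  | empty => simpa using cuspAux_QN.zero
  | insert a s ha ih =>
    rw [Finset.sum_insert ha]
    exact (h a (Finset.mem_insert_self a s)).add
      (ih fun i hi => h i (Finset.mem_insert_of_mem hi))

theorem cuspAux_qExpansion_sum {ι : Type*} (s : Finset ι) {F : ι → ℍ → ℂ}
    (h : ∀ i ∈ s, cuspAux_QN N (F i)) :
    qExpansion (N : ℝ) (∑ i ∈ s, F i) = ∑ i ∈ s, qExpansion (N : ℝ) (F i) := by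
  classical
  induction s using Finset.induction_on with
  | empty => simpa using qExpansion_zero (N : ℝ)
  | insert a s ha ih =>
    rw [Finset.sum_insert ha, Finset.sum_insert ha,
      qExpansion_add (h a (Finset.mem_insert_self a s)).analyticAt
        (cuspAux_QN.sum s fun i hi => h i (Finset.mem_insert_of_mem hi)).analyticAt,
      ih fun i hi => h i (Finset.mem_insert_of_mem hi)]

/-- if all coefficients of `f` itself vanish then `f = 0` -/
theorem eq_zero_of_acoef {k : ℤ} (f : ModularForm (Gamma0 N) k)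
    (h : ∀ n : ℕ, acoef f (q0 : Q N) n = 0) : f = 0 := by
  have hQ := cuspAux_QN_quotientFunc f (q0 : Q N)
  have h0 : qExpansion (N : ℝ) (quotientFunc f (q0 : Q N)) = 0 := by
    ext n
    simpa [acoef] using h n
  have h1 := (qExpansion_eq_zero_iff (Nat.cast_pos.2 (NeZero.pos N)) hQ.1 hQ.2.1 hQ.2.2).1 h0
  rw [quotientFunc_q0] at h1
  exact DFunLike.coe_injective h1

/-- the `q_N`-expansion of a `1`-periodic function in terms of its `q`-expansion. -/
theorem cuspAux_coeff_mul {F : ℍ → ℂ} (hF : QExp F) (n : ℕ) :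
    (qExpansion (N : ℝ) F).coeff (N * n) = (qExpansion 1 F).coeff n := by
  have hN : 0 < N := NeZero.pos N
  have h := UpperHalfPlane.qExpansion_coeff_nat_mul (h := 1) one_pos hF.1 hF.2.1 hF.2.2 hN (N * n)
  rw [mul_one, if_pos (dvd_mul_right N n), Nat.mul_div_cancel_left _ hN] at h
  exact h

/-- `q`-coefficients of the trace pairing -/
theorem trP_coeff {k l : ℤ} (f : ModularForm (Gamma0 N) k) (g : ModularForm (Gamma0 N) l)
    (n : ℕ) :
    (qExpansion 1 (trP f g)).coeff n =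
      ∑ q : Q N, ∑ p ∈ Finset.HasAntidiagonal.antidiagonal (N * n),
        acoef f q p.1 * acoef g q p.2 := by
  have hQ : ∀ q ∈ (Finset.univ : Finset (Q N)),
      cuspAux_QN N (quotientFunc f q * quotientFunc g q) := fun q _ =>
    (cuspAux_QN_quotientFunc f q).mul (cuspAux_QN_quotientFunc g q)
  rw [← cuspAux_coeff_mul (N := N) (trP_isLO f g).qexp n]
  unfold trP
  rw [cuspAux_qExpansion_sum _ hQ, map_sum]
  refine Finset.sum_congr rfl fun q _ => ?_
  rw [qExpansion_mul (cuspAux_QN_quotientFunc f q).analyticAt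
    (cuspAux_QN_quotientFunc g q).analyticAt, PowerSeries.coeff_mul]
  rfl

end CuspAux

end Fermat.Agent.S20Lib
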