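/-
S20, chunk B (helper9): the cuspidal variant of `exists_eq_discriminant_pow_mul` under the exact
name requested by the interface.
-/
import Fermat.Agent.Lib.S20.Cusp

set_option autoImplicit false

namespace Fermat.Agent.S20Lib

open UpperHalfPlane ModularForm CongruenceSubgroup MatrixGroups Filter Matrix.SpecialLinearGroup
open SlashInvariantForm EisensteinSeries
open scoped Manifold Topology
open Fermat.Agent.LibS23

variable {N : ℕ} [NeZero N]

/-- divisibility by `Δ ^ m` with a cusp form as quotient (one more vanishing coefficient) -/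
theorem exists_cusp_eq_discriminant_pow_mul {k : ℤ} (f : ModularForm (Gamma0 N) k) (m : ℕ)
    (h : ∀ q : Q N, ∀ n : ℕ, n ≤ N * m → acoef f q n = 0) :
    ∃ s : CuspForm (Gamma0 N) (k - 12 * m),
      (⇑f : ℍ → ℂ) = ModularForm.discriminant ^ m * ⇑s :=
  exists_cuspForm_eq_discriminant_pow_mul f m h

end Fermat.Agent.S20Lib
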