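/-
S20, chunk E3 (helper6): the dimension formula in terms of the coset space `Q N`,
`sdim N 2 = 1 + ψ/12 - ν₂/4 - ν₃/3 - c/2`, and `dim M₂ + 1 = dim S₂ + c`.
Assembly of `finalCore_arith` (Lib/S20/FinalCore.lean) with the generators (chunks C, D),
the elliptic points (E1) and the cusps (E2).
-/
import Fermat.Agent.Lib.S20.FinalCore
import Fermat.Agent.Lib.S20.DualE
import Fermat.Agent.Lib.S20.ConstTerm

set_option autoImplicit false

namespace Fermat.Agent.S20Lib

open UpperHalfPlane ModularForm CongruenceSubgroup MatrixGroups Filter Matrix.SpecialLinearGroup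
open SlashInvariantForm EisensteinSeries
open scoped Manifold Topology
open Fermat.Agent.LibS23

section final

variable {N : ℕ} [NeZero N]

theorem final_sdim_mdim :
    (sdim N 2 : ℚ) = 1 + (Fintype.card (Q N) : ℚ) / 12
      - (Nat.card {q : Q N // sS • q = q} : ℚ) / 4
      - (Nat.card {q : Q N // sU • q = q} : ℚ) / 3
      - (Nat.card (MulAction.orbitRel.Quotient (Subgroup.zpowers sT) (Q N)) : ℚ) / 2 ∧
    mdim N 2 + 1 = sdim N 2
      + Nat.card (MulAction.orbitRel.Quotient (Subgroup.zpowers sT) (Q N)) := by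
  obtain ⟨G⟩ := exists_gens N
  exact finalCore_arith G.wt (mdim N) (sdim N) _ _ _ G.wt_even G.wt_nonneg G.mdim_eq G.sdim_eq
    mdim_zero (fun k hk => sdim_of_nonpos hk) G.sum_S G.sum_U exists_mdim_eq_sdim_add

/-- the dimension formula on the coset space -/
theorem sdim_two_eq :
    (sdim N 2 : ℚ) = 1 + (Fintype.card (Q N) : ℚ) / 12
      - (Nat.card {q : Q N // sS • q = q} : ℚ) / 4
      - (Nat.card {q : Q N // sU • q = q} : ℚ) / 3
      - (Nat.card (MulAction.orbitRel.Quotient (Subgroup.zpowers sT) (Q N)) : ℚ) / 2 :=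
  final_sdim_mdim.1

end final

/-- `dim M₂(Γ₀(N)) + 1 = dim S₂(Γ₀(N)) + #cusps` -/
theorem mdim_two_add_one (N : ℕ) [NeZero N] :
    mdim N 2 + 1 = sdim N 2
      + Nat.card (MulAction.orbitRel.Quotient (Subgroup.zpowers sT) (Q N)) :=
  final_sdim_mdim.2

end Fermat.Agent.S20Lib
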